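import Fermat.Agent.Lifting.Raise.Contracts
import Fermat.Agent.Lifting.Rings.GenericPos
import Fermat.Agent.Lifting.Rings.SharpFlatStrict
import Fermat.Agent.Galois.Frobenius
import Fermat.Agent.RT.Global.AdjointGW
import Fermat.Agent.Density.Transfer

/-!
# The rings of the raising argument exist

At every depth Taylor–Wiles primes avoiding a given finite set carry a `RaiseLevel` and the
universal ring of its condition. At a peu ramifiée `p` with flat residual representation one free
variable is redundant modulo the deformations which are also flat; without residual flatness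
there is no such deformation.
-/

set_option autoImplicit false

noncomputable section

open IsLocalRing Polynomial

namespace Fermat.Agent.Lifting.Raise

open Deformation (Mat Γ matOf matOf_apply mapRep)
open RT (LocVar FrameVar residueMat IsTWPrime residueHom)

local notation "ℚ̄" => AlgebraicClosure ℚ

variable {W : WeierstrassCurve ℤ} {hΔ : W.Δ ≠ 0} {p L : ℕ} [Fact p.Prime] {O : Type}
  [CommRing O] [IsDomain O] [IsDiscreteValuationRing O] [IsAdicComplete (maximalIdeal O) O]
  [Finite (ResidueField O)] [CharZero O]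

theorem RaiseFrames.lift0_residual {B : RaiseData W hΔ p L O} (F : RaiseFrames B) (j : Fin F.s)
    (e : Fin 2) : (F.lift0 j e).map (residue O) = matOf (raiseRep hΔ B.ι).ρ F.bbar (F.el j e) := by
  fin_cases e
  · exact (F.cs j).frame_F
  · exact (F.cs j).frame_σ

theorem isUnramifiedAt_of_not_site (B : RaiseData W hΔ p L O) {q : ℕ} (hq : q.Prime)
    (hqp : q ≠ p) (hn : q ∉ raiseSites W p) : (raiseRep hΔ B.ι).IsUnramifiedAt q :=
  Minimal.torsRep_baseChange_isUnramifiedAt hΔ B.ι fun A hA σ hσ x =>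
    haveI := EC.Reducible.isElliptic_rat W hΔ
    Subtype.ext (EC.smul_eq_of_mem_inertia W A hq hA
      (fun h => hn ((mem_raiseSites_iff hΔ).2 ⟨hq, hqp, h⟩)) hσ
      (fun h => hqp ((Nat.prime_dvd_prime_iff_eq hq (Fact.out : p.Prime)).1 h))
      (EC.Reducible.nsmul_coe_eq_zero x))

/-- The residual representation satisfies the condition of the levels. -/
theorem raiseCond_ofResidual (B : RaiseData W hΔ p L O) (Q : Finset ℕ) :
    raiseCond W p L O Q (GaloisRepAdic.ofResidualGaloisRep (raiseRep hΔ B.ι)) :=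
  ⟨B.det, B.flat, B.ord, fun _ hq hqp hn _ => isUnramifiedAt_of_not_site B hq hqp hn⟩

/-- The Greenberg–Wiles inequality at the sites. -/
theorem adjointGW_sites (B : RaiseData W hΔ p L O)
    (bbar : Module.Basis (Fin 2) (ResidueField O) (raiseRep hΔ B.ι).V) :
    RT.AdjointGW p (matOf (raiseRep hΔ B.ι).ρ bbar) (insert p (raiseSites W p))
      (padicPlace p) := by
  have : CharP (ResidueField O) p := (CharP.charP_iff_prime_eq_zero Fact.out).mpr (by
    rw [← map_natCast (residue O), residue_eq_zero_iff]; exact B.hpO)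
  refine RT.adjointGW p B.hp2 _ B.absIrr B.det bbar _ (fun l hl => ?_)
    (fun q hq hqp hn => isUnramifiedAt_of_not_site B hq hqp
      fun h => hn (Finset.mem_insert_of_mem h))
    (TwoAdic.Selmer.liesOverPrime_padicPlace (q := ⟨p, Fact.out⟩))
  rcases Finset.mem_insert.1 hl with rfl | h
  exacts [Fact.out, ((mem_raiseSites_iff hΔ).1 h).1]

theorem exists_eigenvalue (B : RaiseData W hΔ p L O)
    (bbar : Module.Basis (Fin 2) (ResidueField O) (raiseRep hΔ B.ι).V) (g : Γ) :
    ∃ c : ResidueField O,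
      (matOf (raiseRep hΔ B.ι).ρ bbar g - c • (1 : Mat (ResidueField O))).det = 0 := by
  obtain ⟨α, β, h⟩ := B.split g
  refine ⟨α, ?_⟩
  have hc := LinearMap.charpoly_toMatrix ((raiseRep hΔ B.ι).ρ g) bbar
  rw [h] at hc
  have he := congrArg (Polynomial.eval α) hc
  rw [Matrix.eval_charpoly] at he
  simp only [eval_mul, eval_sub, eval_X, eval_C, sub_self, zero_mul] at he
  rw [matOf_apply, Matrix.smul_one_eq_diagonal,
    show (Matrix.diagonal fun _ => α) = Matrix.scalar (Fin 2) α from rfl,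
    ← neg_sub, Matrix.det_neg, he, mul_zero]

/-- A root of the residual Frobenius polynomial at a Taylor–Wiles prime. -/
theorem exists_root (B : RaiseData W hΔ p L O)
    (bbar : Module.Basis (Fin 2) (ResidueField O) (raiseRep hΔ B.ι).V) {N q : ℕ} (hN : 0 < N)
    (hqS : q ∉ raiseExcluded W p B.r₀)
    (hq : IsTWPrime (matOf (raiseRep hΔ B.ι).ρ bbar).toHomUnits p N q) (hq' : q.Prime) :
    ∃ α : ResidueField O, α * α + 1 = B.a ⟨q, hq'⟩ * α ∧ α * α ≠ 1 := by
  obtain ⟨-, -, hdvd, hloc⟩ := hq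
  obtain ⟨A, σ, hA, hσ⟩ := Galois.exists_valuationSubring_isFrobeniusAt hq'
  obtain ⟨α, β, hαβ⟩ := B.split σ
  have hcp := B.charpoly_frob q hq' hqS A hA σ hσ
  rw [hαβ] at hcp
  have hpk : (p : ResidueField O) = 0 := by
    rw [← map_natCast (residue O), residue_eq_zero_iff]
    exact B.hpO
  have hq1 : ((q : ℕ) : ResidueField O) = 1 := by
    obtain ⟨c, hc⟩ := (dvd_pow_self p hN.ne').trans hdvd
    have hqq : q = p * c + 1 := by have := hq'.pos; omega
    rw [hqq, Nat.cast_add, Nat.cast_mul, hpk, zero_mul, zero_add, Nat.cast_one]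
  have h1 : α + β = B.a ⟨q, hq'⟩ := by
    have := congrArg (fun P => P.coeff 1) hcp
    simp [coeff_X_pow, mul_sub, sub_mul, coeff_C] at this
    linear_combination -this
  have h0 : α * β = 1 := by
    have := congrArg (fun P => P.coeff 0) hcp
    simp at this
    rw [this, hq1]
  refine ⟨α, by linear_combination α * h1 - h0, fun hα => ?_⟩
  have hβ : β = α := mul_left_cancel₀ (left_ne_zero_of_mul_eq_one h0) (h0.trans hα.symm)
  refine ((hloc A hA).2 σ hσ).2 ?_
  have htr : (matOf (raiseRep hΔ B.ι).ρ bbar σ).trace = B.a ⟨q, hq'⟩ := by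
    have h := B.charpoly_frob q hq' hqS A hA σ hσ
    rw [← LinearMap.charpoly_toMatrix ((raiseRep hΔ B.ι).ρ σ) bbar,
      Matrix.charpoly_fin_two] at h
    have := congrArg (fun P => P.coeff 1) h
    simp [coeff_X_pow, coeff_C] at this
    exact this
  show (matOf (raiseRep hΔ B.ι).ρ bbar σ).trace ^ 2 = 4
  rw [htr, ← h1, hβ]
  linear_combination (4 : ResidueField O) * hα

/-- A level from Taylor–Wiles primes. -/
theorem exists_raiseLevel (B : RaiseData W hΔ p L O)
    (bbar : Module.Basis (Fin 2) (ResidueField O) (raiseRep hΔ B.ι).V) {r n : ℕ}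
    (qv : Fin r → ℕ) (hinj : Function.Injective qv)
    (hqv : ∀ i, qv i ∉ raiseExcluded W p B.r₀ ∧
      IsTWPrime (matOf (raiseRep hΔ B.ι).ρ bbar).toHomUnits p (n + 1) (qv i)) :
    ∃ Q : RaiseLevel B r n, (fun i => (Q.qv i : ℕ)) = qv := by
  have hprime : ∀ i, (qv i).Prime := fun i => (hqv i).2.1
  have hp : p.Prime := Fact.out
  have hne : ∀ i, qv i - 1 ≠ 0 := fun i => by have := (hprime i).two_le; omega
  have hle : ∀ i, n + 1 ≤ (qv i - 1).factorization p := fun i =>
    (hp.pow_dvd_iff_le_factorization (hne i)).mp (hqv i).2.2.2.1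
  choose α hroot hdist using fun i =>
    exists_root B bbar n.succ_pos (hqv i).1 (hqv i).2 (hprime i)
  exact ⟨{ qv := fun i => ⟨qv i, hprime i⟩
           inj := fun i j h => hinj (congrArg Subtype.val h)
           not_mem := fun i => (hqv i).1
           e := fun i => (qv i - 1).factorization p
           le_e := fun i => (Nat.le_succ n).trans (hle i)
           pos_e := fun i => n.succ_pos.trans_le (hle i)
           dvd_sub := fun i => Nat.ordProj_dvd _ _
           e_max := fun i => Nat.pow_succ_factorization_not_dvd (hne i) hp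
           α := α
           root := hroot
           distinct := hdist }, rfl⟩

omit [CharZero O] in
/-- A flat deformation has flat residual representation. -/
theorem ofResidual_isFlatAt_of_deformation {ρbar : ResidualGaloisRep (ResidueField O)}
    {𝒟 : ∀ ⦃A : Type⦄ [CommRing A] [IsLocalRing A] [Algebra O A], GaloisRepAdic A → Prop}
    (D : GaloisRep.DeformationRingData O ρbar 𝒟)
    (bbar : Module.Basis (Fin 2) (ResidueField O) ρbar.V) (b : Module.Basis (Fin 2) D.R D.ρ.V)
    (hb : residueMat D b = mapRep (ResidueField.map (algebraMap O D.R)) (matOf ρbar.ρ bbar))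
    {A : Type} [CommRing A] [IsLocalRing A] [Algebra O A] [IsLocalHom (algebraMap O A)]
    (hres : Function.Surjective (residue A ∘ algebraMap O A))
    (f : D.R →ₐ[O] A) (hf : IsLocalHom (f : D.R →+* A))
    (hflat : (D.ρ.baseChangeAlong (f : D.R →+* A) hf).IsFlatAt p) :
    (GaloisRepAdic.ofResidualGaloisRep ρbar).IsFlatAt p := by
  have : Finite (ResidueField (ResidueField O)) := Finite.of_surjective _ residue_surjective
  have hψs : Function.Surjective (residueHom hres) := fun z => by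
    obtain ⟨c, rfl⟩ := residue_surjective z
    exact ⟨algebraMap O A c, RT.residueHom_algebraMap hres c⟩
  have hψ : IsLocalHom (residueHom hres) := IsLocalHom.of_surjective _ hψs
  have h := RT.FlatCond.isFlatAt_baseChangeAlong (residueHom hres) hψ hflat
  obtain ⟨b₁, hb₁⟩ := Deformation.exists_basis_baseChangeAlong D.ρ b (f : D.R →+* A) hf
  obtain ⟨b₂, hb₂⟩ := Deformation.exists_basis_baseChangeAlong _ b₁ (residueHom hres) hψ
  refine Density.adic_isFlatAt_of_isEquiv (Deformation.isEquiv_of_matOf_eq b₂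
    (show Module.Basis (Fin 2) (ResidueField O) (GaloisRepAdic.ofResidualGaloisRep ρbar).V
      from bbar) ?_) h
  rw [hb₂, hb₁]
  refine MonoidHom.ext fun σ => Matrix.ext fun i j => ?_
  show residueHom hres (f (matOf D.ρ.ρ b σ i j)) = matOf ρbar.ρ bbar σ i j
  obtain ⟨c, hc⟩ := residue_surjective (R := O) (matOf ρbar.ρ bbar σ i j)
  have hmem : matOf D.ρ.ρ b σ i j - algebraMap O D.R c ∈ maximalIdeal D.R := by
    rw [← residue_eq_zero_iff, map_sub, sub_eq_zero,
      ← ResidueField.map_residue (algebraMap O D.R), hc]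
    exact congrFun (congrFun (DFunLike.congr_fun hb σ) i) j
  have h0 := (RT.residueHom_eq_zero_iff hres _).2 (map_nonunit (f : D.R →+* A) _ hmem)
  rw [RingHom.coe_coe, map_sub, f.commutes, map_sub, RT.residueHom_algebraMap,
    sub_eq_zero] at h0
  rw [h0, ← hc]
  rfl

/-- The rings of a level from those of the generic statements. -/
theorem exists_levelRings_of (B : RaiseData W hΔ p L O) (F : RaiseFrames B) {r n : ℕ}
    (qv : Fin r → ℕ) (hinj : Function.Injective qv)
    (hqv : ∀ i, qv i ∉ raiseExcluded W p B.r₀ ∧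
      IsTWPrime (matOf (raiseRep hΔ B.ι).ρ F.bbar).toHomUnits p (n + 1) (qv i))
    (D : GaloisRep.DeformationRingData O (raiseRep hΔ B.ι)
      (raiseCond W p L O (Finset.univ.image qv)))
    (b : Module.Basis (Fin 2) D.R D.ρ.V)
    (hb : residueMat D b = mapRep (ResidueField.map (algebraMap O D.R))
      (matOf (raiseRep hΔ B.ι).ρ F.bbar))
    (Φ : MvPowerSeries (LocVar F.s ⊕ Fin (numGlobal r F.s)) O →ₐ[O]
      MvPowerSeries (FrameVar F.s) D.R)
    (hΦ : Function.Surjective Φ)
    (hX : ∀ i el a c, Φ (MvPowerSeries.X (Sum.inl (i, el, a, c))) =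
      RT.frameConj D.R F.s i (matOf D.ρ.ρ b (F.el i el)) a c -
        algebraMap O (MvPowerSeries (FrameVar F.s) D.R) (F.lift0 i el a c))
    (hred : Peu W p L → ∃ (j₀ : Fin (numGlobal r F.s))
        (e : MvPowerSeries (LocVar F.s ⊕ Fin (numGlobal r F.s)) O),
      (∀ g : MvPowerSeries (LocVar F.s ⊕ Fin (numGlobal r F.s)) O →ₐ[O]
          MvPowerSeries (LocVar F.s ⊕ Fin (numGlobal r F.s)) O,
        (∀ v, v ≠ Sum.inr j₀ → g (MvPowerSeries.X v) = MvPowerSeries.X v) →
        g (e - MvPowerSeries.X (Sum.inr j₀)) = e - MvPowerSeries.X (Sum.inr j₀)) ∧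
      ∀ (A : Type) [CommRing A] [IsLocalRing A] [IsNoetherianRing A]
        [IsAdicComplete (maximalIdeal A) A] [Algebra O A] [IsLocalHom (algebraMap O A)],
        Function.Surjective (residue A ∘ algebraMap O A) →
        ∀ (f : D.R →ₐ[O] A) (hf : IsLocalHom (f : D.R →+* A)),
          Rings.nodeCond O p True True (raiseSites W p) (Finset.univ.image qv)
            (D.ρ.baseChangeAlong (f : D.R →+* A) hf) →
          MvPowerSeries.map (f : D.R →+* A) (Φ e) = 0) :
    ∃ Q : RaiseLevel B r n, (fun i => (Q.qv i : ℕ)) = qv ∧ Nonempty (LevelRings F Q) := by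
  obtain ⟨Q, rfl⟩ := exists_raiseLevel B F.bbar qv hinj hqv
  exact ⟨Q, rfl, ⟨⟨D, b, hb, Φ, hΦ, hX, hred⟩⟩⟩

/-- **The rings of the raising argument exist.** -/
theorem raiseRingsExist : RaiseRingsExist := by
  intro W hΔ p L _ O _ _ _ _ _ _ hW hirr hlift hbase B F S₀
  classical
  have hD : ∀ Q, GaloisRep.IsDeformationCondition O (raiseCond W p L O Q) := fun Q =>
    Rings.isDeformationCondition_nodeCond B.hp2 B.hpO _ _ _ Q
  have hmem : ∀ j, F.q j ∈ insert p (raiseSites W p) := fun j =>
    Finset.mem_insert_of_mem ((F.q_cover _).2 ⟨j, rfl⟩)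
  have hcov : ∀ l ∈ insert p (raiseSites W p), l = p ∨ ∃ j, F.q j = l := fun l hl =>
    (Finset.mem_insert.1 hl).imp_right fun h => (F.q_cover l).1 h
  by_cases hflat : Peu W p L ∧
      (GaloisRepAdic.ofResidualGaloisRep (raiseRep hΔ B.ι)).IsFlatAt p
  · obtain ⟨r, hr⟩ := Rings.exists_taylorWilesRings_flatStrict p B.hp2 B.hpO (raiseRep hΔ B.ι)
      B.absIrr B.det (fun K _ _ G hG => B.idx2 K G hG) F.bbar (raiseCond W p L O) hD
      (fun Q _A _ _ _ _ρ h => ⟨h.1, h.2.2.1 hflat.1.1⟩) (insert p (raiseSites W p))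
      (fun Q _A _ _ _ _ρ h _ hl hn => Rings.nodeCond.isUnramifiedAt h hl hn)
      (raiseCond_ofResidual B) hflat.2 (adjointGW_sites B F.bbar) F.q F.q_inj
      (fun j => ⟨hmem j, F.q_ne j, F.q_prime j⟩) hcov F.T
      (fun j τ hτ => ⟨1, B.inertia_pow _ (F.q_prime j) (F.q_ne j) _ (F.T j).hA τ hτ⟩)
      F.el (fun j => rfl) (fun j => rfl) F.lift0 F.lift0_residual
      (raiseExcluded W p B.r₀ ∪ S₀)
    refine ⟨r, fun n => ?_⟩
    obtain ⟨qv, hinj, hqv, D, b, hb, Φ, hΦ, hX, j₀, e, he, hkill⟩ := hr n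
    obtain ⟨Q, hQ, hR⟩ := exists_levelRings_of B F (n := n) qv hinj
      (fun i => ⟨fun h => (hqv i).2.1 (Finset.mem_union_left _ h), (hqv i).2.2⟩) D b hb Φ hΦ hX
      fun _ => ⟨j₀, e, he, fun A _ _ _ _ _ _ hA f hf h => hkill A hA f hf
        (Rings.nodeCond.mono (fun _ => trivial) (fun _ => trivial) subset_rfl h)
        (h.2.1 trivial)⟩
    exact ⟨Q, fun i h => (hqv i).2.1 (Finset.mem_union_right _ (congrFun hQ i ▸ h)), hR⟩
  · obtain ⟨r, hr0, hr⟩ := Rings.exists_taylorWilesRings_pos p B.hp2 B.hpO (raiseRep hΔ B.ι)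
      B.absIrr B.det (fun K _ _ G hG => B.idx2 K G hG) F.bbar (raiseCond W p L O) hD
      (fun Q _A _ _ _ _ρ h => h.1) (insert p (raiseSites W p))
      (fun Q _A _ _ _ _ρ h _ hl hn => Rings.nodeCond.isUnramifiedAt h hl hn)
      (raiseCond_ofResidual B) (padicPlace p) (adjointGW_sites B F.bbar)
      (Rings.localBoundAtP_nodeCond B.hp2 B.hpO _ (exists_eigenvalue B F.bbar) (em' (p ∣ L)) _)
      F.q F.q_inj
      (fun j => ⟨hmem j, F.q_ne j, F.q_prime j⟩) hcov F.T
      (fun j τ hτ => ⟨1, B.inertia_pow _ (F.q_prime j) (F.q_ne j) _ (F.T j).hA τ hτ⟩)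
      F.el (fun j => rfl) (fun j => rfl) F.lift0 F.lift0_residual
      (raiseExcluded W p B.r₀ ∪ S₀)
    refine ⟨r, fun n => ?_⟩
    obtain ⟨qv, hinj, hqv, D, b, hb, Φ, hΦ, hX⟩ := hr n
    obtain ⟨Q, hQ, hR⟩ := exists_levelRings_of B F (n := n) qv hinj
      (fun i => ⟨fun h => (hqv i).2.1 (Finset.mem_union_left _ h), (hqv i).2.2⟩) D b hb Φ hΦ hX
      fun hpeu => ⟨⟨0, Nat.add_pos_left hr0 _⟩, MvPowerSeries.X (Sum.inr ⟨0, Nat.add_pos_left hr0 _⟩),
        fun g _ => by simp,
        fun A _ _ _ _ _ _ hA f hf h => absurd ⟨hpeu,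
          ofResidual_isFlatAt_of_deformation D F.bbar b hb hA f hf (h.2.1 trivial)⟩ hflat⟩
    exact ⟨Q, fun i h => (hqv i).2.1 (Finset.mem_union_right _ (congrFun hQ i ▸ h)), hR⟩

end Fermat.Agent.Lifting.Raise

end
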