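import Fermat.Agent.Lifting.Raise.Assembly
import Fermat.Agent.Lifting.Raise.RingsExist

/-!
# Lifting from a raising base, with the rings discharged
-/

set_option autoImplicit false

namespace Fermat.Agent.Lifting.Raise

/-- Lifting from a raising base given the models and the systems. -/
theorem liftFromRaisingBase_of_models (hS29 : RT.EigenformResidualRep)
    (h35 : BadPrime.NewformMultRep) (hmodels : RaiseModelsExist) (hsys : RaiseSystemsExist) :
    LiftFromRaisingBase :=
  liftFromRaisingBase hS29 h35 hmodels raiseRingsExist hsys

end Fermat.Agent.Lifting.Raise
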