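import Fermat.Agent.Lifting.Raise.Level
import Fermat.Agent.Lifting.Patching.Raise.Defs
import Fermat.Agent.Lifting.Squarefree.NodePoint
import Fermat.Agent.Lifting.Rings.Cond

/-!
# The producers of the raising argument

* `LevelModels`: the models of all nodes at a level with the maps between them.
* `RaiseModelsExist`: such models, of ranks independent of the level, with fixed operators at the
  augmentation of the top, whose eigenvectors are eigen classes of level `L r₀ ∏ t_i`.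
* `LevelRings`, `RaiseRingsExist`: the universal rings at Taylor–Wiles levels, presented over the
  coordinates of the sites.
* `RaiseSystemsExist`: models and rings give the systems of the patching argument.
-/

set_option autoImplicit false

noncomputable section

open IsLocalRing CongruenceSubgroup

namespace Fermat.Agent.Lifting.Raise

open RT.Diamond Patching
open RT (LocVar FrameVar frameConj residueMat)
open Deformation (Mat matOf mapRep)

variable {W : WeierstrassCurve ℤ} {hΔ : W.Δ ≠ 0} {p L : ℕ} [Fact p.Prime]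
  {O : Type} [CommRing O] [IsDomain O] [IsDiscreteValuationRing O]
  [IsAdicComplete (maximalIdeal O) O] [Finite (ResidueField O)] [CharZero O]

/-- The composite of the degeneracy maps on the two copies of the source. -/
def degMatrix {A : Type} [Semiring A] (t : ℕ) (T : A) : Matrix (Fin 2) (Fin 2) A :=
  !![(t : A) + 1, T; T, (t : A) + 1]

/-- The models of all nodes at one level. -/
structure LevelModels {B : RaiseData W hΔ p L O} {r n : ℕ} (F : RaiseFrames B)
    (Q : RaiseLevel B r n) (DM : Fin (F.m + 1) → ℕ) (DC : Fin F.m → ℕ) where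
  /-- the levels -/
  node : ∀ k : Fin (F.m + 1),
    NodeModel Q (Q.Sk F k) (Q.lev F k) (nodeNew W p L) (DM k)
  /-- the cokernels of the degeneracy maps up, new at the added prime -/
  coker : ∀ k : Fin F.m, NodeModel Q (Q.Sk F (k.succ : Fin (F.m + 1))) (Q.lev F (k.succ : Fin (F.m + 1)))
    (insert (F.q (F.t k)) (nodeNew W p L)) (DC k)
  up : ∀ k : Fin F.m, Fin 2 → Matrix (Fin (DM k.succ)) (Fin (DM k.castSucc)) Q.Λ
  down : ∀ k : Fin F.m, Fin 2 → Matrix (Fin (DM k.castSucc)) (Fin (DM k.succ)) Q.Λ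
  quot : ∀ k : Fin F.m, Matrix (Fin (DC k)) (Fin (DM k.succ)) Q.Λ
  sec : ∀ k : Fin F.m, Matrix (Fin (DM k.succ)) (Fin (DC k)) Q.Λ
  split : ∀ k : Fin F.m, Fin 2 → Matrix (Fin (DM k.castSucc)) (Fin (DM k.succ)) Q.Λ
  up_comm : ∀ k j, ∀ ℓ : Nat.Primes, (ℓ : ℕ) ∉ Q.S' →
    up k j * (node k.castSucc).op ℓ = (node k.succ).op ℓ * up k j
  down_comm : ∀ k i, ∀ ℓ : Nat.Primes, (ℓ : ℕ) ∉ Q.S' →
    down k i * (node k.succ).op ℓ = (node k.castSucc).op ℓ * down k i
  quot_comm : ∀ k, ∀ ℓ : Nat.Primes, (ℓ : ℕ) ∉ Q.S' →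
    quot k * (node k.succ).op ℓ = (coker k).op ℓ * quot k
  split_eq : ∀ k, ∑ j, up k j * split k j + sec k * quot k = 1
  sec_eq : ∀ k, quot k * sec k = 1
  comp_eq : ∀ k i j, down k i * up k j =
    degMatrix (F.q (F.t k)) ((node k.castSucc).op ⟨F.q (F.t k), F.q_prime _⟩) i j
  /-- unless `p` is peu ramifiée, the maps down are jointly surjective -/
  down_surj : ¬ Peu W p L → ∀ k, ∃ Z : Fin 2 → Matrix (Fin (DM k.succ)) (Fin (DM k.castSucc)) Q.Λ,
    ∀ i j, down k i * Z j = if i = j then 1 else 0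
  /-- if it is, their cokernel is killed by what kills the upper level without `p` -/
  down_coker : Peu W p L → ∀ k : Fin F.m, ∃ (D' : ℕ)
    (flat : NodeModel Q (Q.Sk F (k.succ : Fin (F.m + 1)))
      (Q.levOff F (k.succ : Fin (F.m + 1))) ∅ D'),
    ∀ X : Matrix (Fin (DM k.castSucc)) (Fin (DM k.castSucc)) Q.Λ,
      (X, (0 : Matrix (Fin D') (Fin D') Q.Λ)) ∈ Algebra.adjoin Q.Λ
          ((fun ℓ : Nat.Primes => ((node k.castSucc).op ℓ, flat.op ℓ)) ''
            {ℓ | (ℓ : ℕ) ∉ Q.S'}) →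
        ∃ Z : Fin 2 → Matrix (Fin (DM k.succ)) (Fin (DM k.castSucc)) Q.Λ,
          ∀ i j, down k i * Z j = if i = j then X else 0

/-- Models exist at all levels, with a fixed top at the augmentation. -/
def RaiseModelsExist : Prop :=
  ∀ (W : WeierstrassCurve ℤ) (hΔ : W.Δ ≠ 0) (p L : ℕ) [Fact p.Prime]
    (O : Type) [CommRing O] [IsDomain O] [IsDiscreteValuationRing O]
    [IsAdicComplete (maximalIdeal O) O] [Finite (ResidueField O)] [CharZero O],
    W.IsSemistableModel → W.ModRepIsIrreducible p → IsRaisableAt W p → IsRaisingBase W p L →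
    ∀ (B : RaiseData W hΔ p L O) (F : RaiseFrames B),
    ∃ (DM : Fin (F.m + 1) → ℕ) (DC : Fin F.m → ℕ)
      (T₀ : Nat.Primes → Matrix (Fin (DM (Fin.last F.m))) (Fin (DM (Fin.last F.m))) O),
      0 < DM 0 ∧
      (∀ (c : Nat.Primes → O) (w : Fin (DM (Fin.last F.m)) → O), w ≠ 0 →
        (∀ ℓ : Nat.Primes, (ℓ : ℕ) ∉ raiseExcluded W p B.r₀ →
          (T₀ ℓ).mulVec w = c ℓ • w) →
        ∃ φ : Additive (Gamma0 F.topLevel) →+ FractionRing O, φ ≠ 0 ∧
          ∀ (ℓ : ℕ) (hℓ : ℓ.Prime), ℓ ∉ raiseExcluded W p B.r₀ → ∀ x,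
            Periods.heckeHom ℤ (FractionRing O) hℓ φ x =
              algebraMap O (FractionRing O) (c ⟨ℓ, hℓ⟩) * φ x) ∧
      ∀ (r n : ℕ) (Q : RaiseLevel B r n), ∃ M : LevelModels F Q DM DC,
        ∀ ℓ : Nat.Primes, (ℓ : ℕ) ∉ Q.S' →
          ((M.node (Fin.last F.m)).op ℓ).map (aug O (ppow p Q.e)) = T₀ ℓ

/-- The condition at the Taylor–Wiles levels: flat at a good `p`, strictly ordinary at a
multiplicative one. -/
abbrev raiseCond (W : WeierstrassCurve ℤ) (p L : ℕ) (O : Type) [CommRing O] (Q : Finset ℕ) :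
    ∀ ⦃A : Type⦄ [CommRing A] [IsLocalRing A] [Algebra O A], GaloisRepAdic A → Prop :=
  Rings.nodeCond O p (¬ p ∣ L) (p ∣ L) (raiseSites W p) Q

/-- The number of free global variables. -/
abbrev numGlobal (r s : ℕ) : ℕ := r + (s - 1)

/-- A universal ring at a level, presented over the coordinates of the sites. -/
structure LevelRings {B : RaiseData W hΔ p L O} {r n : ℕ} (F : RaiseFrames B)
    (Q : RaiseLevel B r n) : Type 1 where
  D : GaloisRep.DeformationRingData O (raiseRep hΔ B.ι) (raiseCond W p L O Q.aux)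
  b : Module.Basis (Fin 2) D.R D.ρ.V
  residueMat_eq : residueMat D b = mapRep (ResidueField.map (algebraMap O D.R))
    (matOf (raiseRep hΔ B.ι).ρ F.bbar)
  Φ : MvPowerSeries (LocVar F.s ⊕ Fin (numGlobal r F.s)) O →ₐ[O]
    MvPowerSeries (FrameVar F.s) D.R
  Φ_surjective : Function.Surjective Φ
  Φ_X : ∀ i el a c, Φ (MvPowerSeries.X (Sum.inl (i, el, a, c))) =
    frameConj D.R F.s i (matOf D.ρ.ρ b (F.el i el)) a c -
      algebraMap O (MvPowerSeries (FrameVar F.s) D.R) (F.lift0 i el a c)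
  /-- if `p` is peu ramifiée, some free variable is redundant for deformations which are also
  flat -/
  redundant : Peu W p L → ∃ (j₀ : Fin (numGlobal r F.s))
      (e : MvPowerSeries (LocVar F.s ⊕ Fin (numGlobal r F.s)) O),
    (∀ g : MvPowerSeries (LocVar F.s ⊕ Fin (numGlobal r F.s)) O →ₐ[O]
        MvPowerSeries (LocVar F.s ⊕ Fin (numGlobal r F.s)) O,
      (∀ v, v ≠ Sum.inr j₀ → g (MvPowerSeries.X v) = MvPowerSeries.X v) →
      g (e - MvPowerSeries.X (Sum.inr j₀)) = e - MvPowerSeries.X (Sum.inr j₀)) ∧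
    ∀ (A : Type) [CommRing A] [IsLocalRing A] [IsNoetherianRing A]
      [IsAdicComplete (maximalIdeal A) A] [Algebra O A] [IsLocalHom (algebraMap O A)],
      Function.Surjective (residue A ∘ algebraMap O A) →
      ∀ (f : D.R →ₐ[O] A) (hf : IsLocalHom (f : D.R →+* A)),
        Rings.nodeCond O p True True (raiseSites W p) Q.aux
          (D.ρ.baseChangeAlong (f : D.R →+* A) hf) →
        MvPowerSeries.map (f : D.R →+* A) (Φ e) = 0

/-- Taylor–Wiles levels with their rings exist at all depths, avoiding any finite set. -/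
def RaiseRingsExist : Prop :=
  ∀ (W : WeierstrassCurve ℤ) (hΔ : W.Δ ≠ 0) (p L : ℕ) [Fact p.Prime]
    (O : Type) [CommRing O] [IsDomain O] [IsDiscreteValuationRing O]
    [IsAdicComplete (maximalIdeal O) O] [Finite (ResidueField O)] [CharZero O],
    W.IsSemistableModel → W.ModRepIsIrreducible p → IsRaisableAt W p → IsRaisingBase W p L →
    ∀ (B : RaiseData W hΔ p L O) (F : RaiseFrames B) (S₀ : Finset ℕ),
    ∃ r : ℕ, ∀ n : ℕ, ∃ Q : RaiseLevel B r n,
      (∀ i, (Q.qv i : ℕ) ∉ S₀) ∧ Nonempty (LevelRings F Q)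

/-- The operator matrix of a step over the coordinates of the sites. -/
def stepMatrix {B : RaiseData W hΔ p L O} (F : RaiseFrames B) (g : ℕ) (k : Fin F.m) :
    Matrix (Fin 2) (Fin 2) (RT.LocalRing.PSR (Fin F.s) (Fin g) O) :=
  degMatrix (F.q (F.t k)) ((Algebra.universalFamily F.site (Fin g)).1 (F.t k)).1.trace

/-- The fixed data of the patching argument. -/
def patchData {B : RaiseData W hΔ p L O} (F : RaiseFrames B) (g : ℕ)
    (DM : Fin (F.m + 1) → ℕ) (DC : Fin F.m → ℕ)
    (T₀ : Nat.Primes → Matrix (Fin (DM (Fin.last F.m))) (Fin (DM (Fin.last F.m))) O)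
    (ℒ : Finset Nat.Primes) : Patching.RaiseData O (Fin F.s) g F.m where
  S := F.site
  t := F.t
  DM := DM
  DC := DC
  C := stepMatrix F g
  L := {ℓ : Nat.Primes // ℓ ∈ ℒ}
  T₀ l := T₀ l.1
  a l := ((W.apOfModel l.1 : ℤ) : O)

/-- Models and rings at a level give a system of the patching argument. -/
def RaiseSystemsExist : Prop :=
  ∀ (W : WeierstrassCurve ℤ) (hΔ : W.Δ ≠ 0) (p L : ℕ) [Fact p.Prime]
    (O : Type) [CommRing O] [IsDomain O] [IsDiscreteValuationRing O]
    [IsAdicComplete (maximalIdeal O) O] [Finite (ResidueField O)] [CharZero O],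
    (p = 3 ∨ p = 5) →
    W.IsSemistableModel → W.ModRepIsIrreducible p → IsRaisableAt W p → IsRaisingBase W p L →
    ∀ (B : RaiseData W hΔ p L O) (F : RaiseFrames B) (ζ : O), IsPrimitiveRoot ζ p →
    ∀ (r n : ℕ) (Q : RaiseLevel B r n), LevelRings F Q →
    ∀ (DM : Fin (F.m + 1) → ℕ) (DC : Fin F.m → ℕ), 0 < DM 0 → ∀ (M : LevelModels F Q DM DC)
      (T₀ : Nat.Primes → Matrix (Fin (DM (Fin.last F.m))) (Fin (DM (Fin.last F.m))) O),
      (∀ ℓ : Nat.Primes, (ℓ : ℕ) ∉ Q.S' →
        ((M.node (Fin.last F.m)).op ℓ).map (aug O (ppow p Q.e)) = T₀ ℓ) →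
    ∀ ℒ : Finset Nat.Primes, (∀ ℓ ∈ ℒ, (ℓ : ℕ) ∉ Q.S') →
    ∃ X : (patchData F (numGlobal r F.s) DM DC T₀ ℒ).Sys
        (RT.Patch.Lvl (MvPowerSeries (Fin (numVars (Fin F.s) (numGlobal r F.s))) O) n),
      Patching.RaiseData.IsRaiseLevel n X

end Fermat.Agent.Lifting.Raise

end
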