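import Fermat.Agent.Lifting.Models.Coker
import Fermat.Agent.Lifting.Models.CrossBelow
import Fermat.Agent.Lifting.Models.DownCoker
import Fermat.Agent.Lifting.Models.PNewAug
import Fermat.Agent.Lifting.Models.PNewModel
import Fermat.Agent.Lifting.Models.PNewRaise
import Fermat.Agent.Lifting.Models.RaiseBelow
import Fermat.Agent.Lifting.Models.StepNew
import Fermat.Agent.Lifting.Models.SummandSubOp
import Fermat.Agent.Lifting.Models.TopClass
import Fermat.Agent.Lifting.Models.TopModels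

/-!
# The models of all nodes

* `stepMaps`, `exists_levelModels_of_summands`: stable free summands of the nodes sent into each
  other by the maps at the added primes give the models with the maps between them.
* `raiseModelsExist`: the summands are the whole parts, or the classes killed by the two
  transfers at `p` when `p` is peu ramifiée.
-/

set_option autoImplicit false
set_option linter.style.haveILetI false
set_option maxHeartbeats 1000000

noncomputable section

open IsLocalRing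

namespace Fermat.Agent.Lifting.Models

open RT.Diamond RT.TW RT.Assembly

variable {O : Type} [CommRing O] [IsDomain O] [IsDiscreteValuationRing O]
  [IsAdicComplete (maximalIdeal O) O] [Finite (ResidueField O)] [CharZero O]
  {p : ℕ} [Fact p.Prime] {B : NodeBase O p} {r n : ℕ}

/-- On the whole part `subOp` is the matrix of the operator. -/
theorem subOp_top_eq_opMat (Lv : NodeLevel B r n) {D : ℕ}
    (b : Module.Basis (Fin D) Lv.Λ Lv.part) (ℓ : Nat.Primes) :
    NodeBelow.subOp Lv (b.map Submodule.topEquiv.symm)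
      ((LinearMap.id (R := Lv.Λ) (M := Lv.part)).codRestrict ⊤ fun _ => Submodule.mem_top) ℓ =
        Lv.opMat b ℓ := by
  refine Matrix.ext_iff_mulVec.2 fun v => ?_
  refine (linMat_mulVec _ _).trans ?_
  show b.equivFun (NodeBelow.twPart Lv ℓ (b.equivFun.symm v)) = _
  rw [← toMatrix_mulVec_equivFun, LinearEquiv.apply_symm_apply]
  rfl

end Fermat.Agent.Lifting.Models

namespace Fermat.Agent.Lifting.Raise

open RT.Diamond
open Models (nodeBase nodeBaseOff nodeLevel nodeLevelOff stepBelow offBelow stepOffBelow stepPrime)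
open Models.NodeBelow (twPart subOp)

variable {W : WeierstrassCurve ℤ} {hΔ : W.Δ ≠ 0} {p L : ℕ} [Fact p.Prime]
  {O : Type} [CommRing O] [IsDomain O] [IsDiscreteValuationRing O]
  [IsAdicComplete (maximalIdeal O) O] [Finite (ResidueField O)] [CharZero O]
  {B : RaiseData W hΔ p L O} (F : RaiseFrames B) {r n : ℕ} (Q : RaiseLevel B r n)

section Steps

variable {F Q} {DM : ℕ → ℕ} {P : ∀ k : ℕ, Submodule (nodeLevel F Q k).Λ (nodeLevel F Q k).part}
  (b : ∀ k : ℕ, Module.Basis (Fin (DM k)) (nodeLevel F Q k).Λ (P k))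
  (π : ∀ k : ℕ, (nodeLevel F Q k).part →ₗ[(nodeLevel F Q k).Λ] P k)
  (hπ : ∀ k : ℕ, ∀ x : P k, π k (x : (nodeLevel F Q k).part) = x)
  (hst : ∀ k : ℕ, ∀ ℓ : Nat.Primes, (ℓ : ℕ) ∉ Q.Sk F k →
    ∀ x ∈ P k, twPart (nodeLevel F Q k) ℓ x ∈ P k)
  (node : ∀ k : ℕ, NodeModel Q (Q.Sk F k) (Q.lev F k) (nodeNew W p L) (DM k))
  (hop : ∀ k : ℕ, ∀ ℓ : Nat.Primes, (ℓ : ℕ) ∉ Q.Sk F k →
    (node k).op ℓ = subOp (nodeLevel F Q k) (b k) (π k) ℓ)
  (hup : ∀ (i : Fin F.m) (j : Fin 2) (x : (nodeLevel F Q i).part), x ∈ P i →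
    (stepBelow F i).upPart (nodeLevel F Q (i + 1)) j x ∈ P (i + 1))
  (hdn : ∀ (i : Fin F.m) (j : Fin 2) (x : (nodeLevel F Q (i + 1)).part), x ∈ P (i + 1) →
    (stepBelow F i).dnPart (nodeLevel F Q (i + 1)) j x ∈ P i)

theorem not_mem_Sk_of_succ (k : ℕ) {ℓ : ℕ} (h : ℓ ∉ Q.Sk F (k + 1)) : ℓ ∉ Q.Sk F k := by
  refine fun h' => h ?_
  simp only [RaiseLevel.Sk, Finset.mem_union, Finset.mem_sdiff] at h' ⊢
  rcases h' with ⟨h1, h2⟩ | h1
  · refine Or.inl ⟨h1, fun h3 => h2 ?_⟩
    obtain ⟨j, hj, hjq⟩ := (Models.mem_pending_iff F).1 h3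
    exact (Models.mem_pending_iff F).2 ⟨j, Nat.le_of_succ_le hj, hjq⟩
  · exact Or.inr h1

theorem ne_stepPrime (i : Fin F.m) {ℓ : Nat.Primes} (h : (ℓ : ℕ) ∉ Q.Sk F (i + 1)) :
    (ℓ : ℕ) ≠ stepPrime F i :=
  fun e => h (e ▸ Models.stepPrime_mem_Sk_succ F Q i)

include hπ hst hop hup hdn

/-- The maps at the prime added after node `i`. -/
def stepMaps (i : Fin F.m) :
    Models.StepMaps (node i) (node (i + 1)) (stepPrime F i) (F.q_prime _) where
  up j := (stepBelow F i).upMat (nodeLevel F Q (i + 1)) (b i) (b (i + 1)) (π (i + 1)) j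
  down j := (stepBelow F i).dnMat (nodeLevel F Q (i + 1)) (b i) (π i) (b (i + 1)) j
  up_comm j ℓ hℓ := by
    rw [hop _ ℓ hℓ, hop _ ℓ (not_mem_Sk_of_succ i hℓ)]
    exact (stepBelow F i).upMat_comm (nodeLevel F Q (i + 1)) (hπ i) (hπ (i + 1))
      (hup i) (ne_stepPrime i hℓ) (hst i ℓ (not_mem_Sk_of_succ i hℓ)) j
  down_comm j ℓ hℓ := by
    rw [hop _ ℓ hℓ, hop _ ℓ (not_mem_Sk_of_succ i hℓ)]
    exact (stepBelow F i).dnMat_comm (nodeLevel F Q (i + 1)) (hπ i) (hπ (i + 1))
      (hdn i) (ne_stepPrime i hℓ) (hst (i + 1) ℓ hℓ) j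
  comp_eq j l := by
    rw [hop _ _ (Models.stepPrime_not_mem_Sk F Q i)]
    exact (stepBelow F i).dnMat_upMat (nodeLevel F Q (i + 1)) (hπ i) (hπ (i + 1)) (hup i) j l
  up_injective v hv j a :=
    (stepBelow F i).upMat_injective (nodeLevel F Q (i + 1)) (hπ i) (hπ (i + 1)) (hup i) v hv j a
  newAt S₁ hS _ V _ _ _ _ _ _ _ _ _ ξ c y hy hc hker L' _ hex hnew :=
    (stepBelow F i).dvd_level_of_dnMat (nodeLevel F Q (i + 1)) (hπ i) (hπ (i + 1))
      (hdn i) (hst (i + 1)) S₁ hS ξ c y hy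
      (fun ℓ hℓ => (congrArg (fun M : Matrix (Fin (DM (i + 1))) (Fin (DM (i + 1))) Q.Λ =>
        (M.map ξ).mulVec y) (hop (i + 1) ℓ fun h => hℓ (hS h)).symm).trans (hc ℓ hℓ))
      hker hex hnew

/-- The summands give the models of all nodes with the maps between them. -/
theorem exists_levelModels_of_summands
    (hsurj : ¬ Peu W p L → ∀ i : Fin F.m, P (i + 1) = ⊤)
    (hcoker : Peu W p L → ∀ i : Fin F.m, ∃ (D' : ℕ)
      (flat : NodeModel Q (Q.Sk F (i + 1)) (Q.levOff F (i + 1)) ∅ D'),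
      ∀ X : Matrix (Fin (DM i)) (Fin (DM i)) Q.Λ,
        (X, (0 : Matrix (Fin D') (Fin D') Q.Λ)) ∈ Algebra.adjoin Q.Λ
            ((fun ℓ : Nat.Primes => ((node i).op ℓ, flat.op ℓ)) '' {ℓ | (ℓ : ℕ) ∉ Q.S'}) →
          ∃ Z : Fin 2 → Matrix (Fin (DM (i + 1))) (Fin (DM i)) Q.Λ,
            ∀ j l, (stepMaps b π hπ hst node hop hup hdn i).down j * Z l = if j = l then X else 0) :
    ∃ M : LevelModels F Q (fun k => DM k) fun i => Models.cokerRank (DM i) (DM (i + 1)),
      M.node = fun k : Fin (F.m + 1) => node k := by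
  have hS : ∀ (k : ℕ) {ℓ : Nat.Primes}, (ℓ : ℕ) ∉ Q.S' → (ℓ : ℕ) ∉ Q.Sk F k :=
    fun k ℓ hℓ h => hℓ (Models.Sk_subset' F Q k h)
  choose Ck quot sec split hqc hse hs hqu using fun i : Fin F.m =>
    (Models.exists_coker (stepMaps b π hπ hst node hop hup hdn i) B.hpO (Models.Sk_subset' F Q _)
      (Models.stepPrime_not_mem_Sk F Q i) (Models.stepPrime_not_dvd_level F Q i)).2
  exact ⟨
    { node := fun k : Fin (F.m + 1) => node k
      coker := Ck
      up := fun i => (stepMaps b π hπ hst node hop hup hdn i).up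
      down := fun i => (stepMaps b π hπ hst node hop hup hdn i).down
      quot := quot
      sec := sec
      split := split
      up_comm := fun i j ℓ hℓ => (stepMaps b π hπ hst node hop hup hdn i).up_comm j ℓ (hS _ hℓ)
      down_comm := fun i j ℓ hℓ => (stepMaps b π hπ hst node hop hup hdn i).down_comm j ℓ (hS _ hℓ)
      quot_comm := fun i ℓ hℓ => hqc i ℓ (hS _ hℓ)
      split_eq := hse
      sec_eq := hs
      comp_eq := fun i => (stepMaps b π hπ hst node hop hup hdn i).comp_eq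
      down_surj := fun hP i => (stepBelow F i).exists_dnMat_preimages (nodeLevel F Q (i + 1))
        (hπ i) (hsurj hP i)
      down_coker := hcoker }, rfl⟩

end Steps

/-- The top is fixed at the augmentation, the summands being the whole parts. -/
theorem exists_levelModels_full (hP : ¬ Peu W p L) :
    ∃ M : LevelModels F Q (fun k => (nodeBase F k).baseRank)
        (fun i => Models.cokerRank (nodeBase F i).baseRank (nodeBase F (i + 1)).baseRank),
      ∀ ℓ : Nat.Primes, (ℓ : ℕ) ∉ Q.S' →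
        ((M.node (Fin.last F.m)).op ℓ).map (aug O (ppow p Q.e)) = (nodeBase F F.m).baseOp ℓ := by
  choose b _ hb' using fun k : ℕ => (nodeLevel F Q k).exists_augBasis
  let node : ∀ k : ℕ, NodeModel Q (Q.Sk F k) (Q.lev F k) (nodeNew W p L) (nodeBase F k).baseRank :=
    fun k => Models.toContract F Q (Models.Summand.nodeModel (Models.Summand.full (b k))
      fun q hq => absurd hq (by simp [nodeNew, if_neg hP]))
  obtain ⟨M, hM⟩ := exists_levelModels_of_summands (F := F) (Q := Q) (P := fun _ => ⊤)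
    (fun k => (b k).map Submodule.topEquiv.symm)
    (fun k => (LinearMap.id (R := (nodeLevel F Q k).Λ) (M := (nodeLevel F Q k).part)).codRestrict ⊤
      fun _ => Submodule.mem_top)
    (fun _ _ => rfl) (fun _ _ _ _ _ => Submodule.mem_top) node
    (fun k ℓ hℓ => (Models.Summand.full_op (b k) hℓ).trans
      (Models.subOp_top_eq_opMat (nodeLevel F Q k) (b k) ℓ).symm)
    (fun _ _ _ _ => trivial) (fun _ _ _ _ => trivial)
    (fun _ _ => rfl) (fun h => absurd h hP)
  refine ⟨M, fun ℓ hℓ => ?_⟩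
  rw [hM]
  exact Models.map_full_op (nodeLevel F Q F.m) (hb' F.m) fun h => hℓ (Models.Sk_subset' F Q _ h)

/-- The same for a peu ramifiée `p`, with the classes killed by the transfers at `p`. -/
theorem exists_levelModels_pNew (hP : Peu W p L) :
    ∃ M : LevelModels F Q (fun k => (offBelow F hP.1 k).newRank)
        (fun i => Models.cokerRank (offBelow F hP.1 i).newRank (offBelow F hP.1 (i + 1)).newRank),
      ∀ ℓ : Nat.Primes, (ℓ : ℕ) ∉ Q.S' →
        ((M.node (Fin.last F.m)).op ℓ).map (aug O (ppow p Q.e)) = (offBelow F hP.1 F.m).newOp ℓ := by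
  choose b hb _ using fun k : ℕ => (offBelow F hP.1 k).exists_newBasis (nodeLevel F Q k)
  let node : ∀ k : ℕ, NodeModel Q (Q.Sk F k) (Q.lev F k) (nodeNew W p L) (offBelow F hP.1 k).newRank :=
    fun k => Models.toContract F Q (by
      rw [nodeNew, if_pos hP]
      exact (offBelow F hP.1 k).nodeModel_pNew _ ((offBelow F hP.1 k).pNewSummand _ (b k))
        ((offBelow F hP.1 k).pNewSummand_mem _ (b k)))
  let π := fun k => ((offBelow F hP.1 k).exists_pNewRetraction (nodeLevel F Q k)).choose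
  have hπ := fun k => ((offBelow F hP.1 k).exists_pNewRetraction (nodeLevel F Q k)).choose_spec
  have hst : ∀ k : ℕ, ∀ ℓ : Nat.Primes, (ℓ : ℕ) ∉ Q.Sk F k → ∀ x ∈ (offBelow F hP.1 k).pNew (nodeLevel F Q k),
      twPart (nodeLevel F Q k) ℓ x ∈ (offBelow F hP.1 k).pNew (nodeLevel F Q k) := fun k ℓ hℓ x hx => by
    rw [show twPart (nodeLevel F Q k) ℓ x = ⟨_, (nodeLevel F Q k).twOp_mem_part ℓ x.2⟩ from
      Subtype.ext (Models.NodeBelow.coe_twPart _ ℓ x)]
    exact (offBelow F hP.1 k).twOp_mem_pNew _ ((offBelow F hP.1 k).ne_of_good (nodeLevel F Q k) hℓ) hx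
  have hop : ∀ k : ℕ, ∀ ℓ : Nat.Primes, (ℓ : ℕ) ∉ Q.Sk F k →
      (node k).op ℓ = subOp (nodeLevel F Q k) (b k) (π k) ℓ := fun k ℓ hℓ =>
    Models.Summand.ofBasis_op ((offBelow F hP.1 k).pNew (nodeLevel F Q k)) (b k) (π k) (hπ k) _ hℓ
  have hS : ∀ (k : ℕ) {ℓ : Nat.Primes}, (ℓ : ℕ) ∉ Q.S' → (ℓ : ℕ) ∉ Q.Sk F k :=
    fun k ℓ hℓ h => hℓ (Models.Sk_subset' F Q k h)
  obtain ⟨M, hM⟩ := exists_levelModels_of_summands (F := F) (Q := Q) b π hπ hst node hop
    (fun i j _ hx => Models.NodeBelow.upPart_mem_pNew (nodeLevel F Q (i + 1)) (stepBelow F i)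
      (offBelow F hP.1 (i + 1)) (stepOffBelow F hP.1 i) (F.q_ne _).symm j hx)
    (fun i j _ hx => Models.NodeBelow.dnPart_mem_pNew (nodeLevel F Q (i + 1)) (stepBelow F i)
      (offBelow F hP.1 (i + 1)) (stepOffBelow F hP.1 i) (F.q_ne _).symm j hx)
    (fun h => absurd hP h) fun _ i => by
      obtain ⟨b', -, -⟩ := (nodeLevelOff F Q (i + 1)).exists_augBasis
      let flat : NodeModel Q (Q.Sk F (i + 1)) (Q.levOff F (i + 1)) ∅ _ :=
        Models.toContractOff F Q (k := i + 1) (Models.Summand.full b').nodeModel_empty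
      refine ⟨_, flat, fun X hX => ?_⟩
      have himg : (fun ℓ : Nat.Primes => ((node i).op ℓ, flat.op ℓ)) '' {ℓ | (ℓ : ℕ) ∉ Q.S'} =
          (fun ℓ : Nat.Primes => (subOp (nodeLevel F Q i) (b i) (π i) ℓ,
            (nodeLevelOff F Q (i + 1)).opMat b' ℓ)) '' {ℓ | (ℓ : ℕ) ∉ Q.S'} :=
        Set.image_congr fun ℓ hℓ =>
          Prod.ext (hop _ ℓ (hS _ hℓ)) (Models.Summand.full_op b' (hS _ hℓ))
      rw [himg] at hX
      exact (stepBelow F i).down_coker (offBelow F hP.1 (i + 1)) (stepOffBelow F hP.1 i)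
        (nodeLevel F Q (i + 1)) (G := {ℓ | (ℓ : ℕ) ∉ Q.S'})
        (fun ℓ hℓ => ne_stepPrime i (hS _ hℓ))
        (fun ℓ hℓ e => hS (i + 1) hℓ (e ▸ Models.mem_raiseExcluded_p_Sk F Q (i + 1)))
        (b i) (b (i + 1)) b' _
        (fun ℓ hℓ y => Models.NodeBelow.subOp_spec (nodeLevel F Q i) (hπ i) (hst i ℓ (hS _ hℓ)) y)
        _ (fun j x => (stepBelow F i).dnMat_spec (nodeLevel F Q (i + 1)) (hπ i)
          (fun j' y hy => Models.NodeBelow.dnPart_mem_pNew (nodeLevel F Q (i + 1)) (stepBelow F i)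
            (offBelow F hP.1 (i + 1)) (stepOffBelow F hP.1 i) (F.q_ne _).symm j' hy) j x) X hX
  refine ⟨M, fun ℓ hℓ => ?_⟩
  rw [hM]
  exact (offBelow F hP.1 F.m).map_pNewSummand_op (nodeLevel F Q F.m) (hb F.m) (hS F.m hℓ)

/-- **Models exist at all levels**, with a fixed top at the augmentation. -/
theorem raiseModelsExist : RaiseModelsExist := by
  intro W hΔ p L _ O _ _ _ _ _ _ _ _ _ hb B F
  by_cases hP : Peu W p L
  · exact ⟨fun k => (offBelow F hP.1 k).newRank,
      fun i => Models.cokerRank (offBelow F hP.1 i).newRank (offBelow F hP.1 (i + 1)).newRank,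
      (offBelow F hP.1 F.m).newOp, Models.newRank_zero_pos F hb hP,
      fun c w hw h => Models.exists_peuTopHom F hP c w hw h,
      fun r n Q => exists_levelModels_pNew F Q hP⟩
  · exact ⟨fun k => (nodeBase F k).baseRank,
      fun i => Models.cokerRank (nodeBase F i).baseRank (nodeBase F (i + 1)).baseRank,
      (nodeBase F F.m).baseOp, Models.baseRank_nodeBase_pos F,
      fun c w hw h => Models.exists_topHom F c w hw h,
      fun r n Q => exists_levelModels_full F Q hP⟩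

end Fermat.Agent.Lifting.Raise

end
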