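import Fermat.Agent.Lifting.Raise.Contracts
import Fermat.Agent.Lifting.Patching.Raise.Main
import Fermat.Agent.Lifting.Rings.RaiseRings
import Fermat.Agent.Lifting.Squarefree.Descent
import Fermat.Agent.Lifting.Squarefree.Witness
import Fermat.Agent.Semistable.BaseSite

/-!
# The raising argument from its producers

`liftFromRaisingBase`: finitely many good primes decide the eigen system at the top; models, rings
and systems at all levels avoiding them give an eigenvector with the eigenvalues of the curve,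
hence an eigen class of level `L r₀ ∏ t_i`.
-/

set_option autoImplicit false

noncomputable section

open IsLocalRing

namespace Fermat.Agent.Lifting.Raise

open RT.Diamond Patching

variable {W : WeierstrassCurve ℤ} {hΔ : W.Δ ≠ 0} {p L : ℕ} [Fact p.Prime]
  {O : Type} [CommRing O] [IsDomain O] [IsDiscreteValuationRing O]
  [IsAdicComplete (maximalIdeal O) O] [Finite (ResidueField O)] [CharZero O]

/-- Frames exist. -/
theorem exists_raiseFrames (B : RaiseData W hΔ p L O) (hss : W.IsSemistableModel)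
    (hirr : W.ModRepIsIrreducible p) (hbad : ∃ q : ℕ, q.Prime ∧ q ≠ p ∧ (q : ℤ) ∣ W.Δ) :
    Nonempty (RaiseFrames B) := by
  classical
  obtain ⟨s, hs, ⟨fr⟩⟩ := Rings.exists_raiseFrames B hss hirr hbad
  let T' : Finset (Fin s) := Finset.univ.filter fun j => ¬ fr.q j ∣ L
  exact ⟨{
    bbar := fr.bbar
    s := s
    s_pos := hs
    q := fr.q
    q_inj := fr.inj
    q_cover := fr.mem_iff
    q_prime := fr.prime
    q_ne := fr.ne
    m := T'.card
    t := fun i => (T'.equivFin.symm i : Fin s)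
    t_inj := Subtype.val_injective.comp T'.equivFin.symm.injective
    t_cover := fun j => ⟨fun ⟨i, hi⟩ => hi ▸ (Finset.mem_filter.1 (T'.equivFin.symm i).2).2,
      fun h => ⟨T'.equivFin ⟨j, Finset.mem_filter.2 ⟨Finset.mem_univ _, h⟩⟩, by simp⟩⟩
    T := fr.T
    cs := fr.site }⟩

variable {B : RaiseData W hΔ p L O} (F : RaiseFrames B)

theorem RaiseFrames.q_bad (j : Fin F.s) : (F.q j : ℤ) ∣ W.Δ :=
  ((mem_raiseSites_iff hΔ).1 ((F.q_cover _).2 ⟨j, rfl⟩)).2.2

/-- The fixed data of the patching argument are valid. -/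
theorem valid_patchData (hL : IsRaisingBase W p L) (g : ℕ) {DM : Fin (F.m + 1) → ℕ}
    {DC : Fin F.m → ℕ} (hDM : 0 < DM 0)
    (T₀ : Nat.Primes → Matrix (Fin (DM (Fin.last F.m))) (Fin (DM (Fin.last F.m))) O)
    (ℒ : Finset Nat.Primes) : (patchData F g DM DC T₀ ℒ).Valid where
  two := by
    have := natCast_isUnit_of_not_dvd (O := O) B.ι (n := 2) fun h =>
      B.hp2 ((Nat.prime_dvd_prime_iff_eq Fact.out Nat.prime_two).1 h)
    simpa using this
  t_injective := F.t_inj
  opp_base j hj := (F.cs j).not_allowed_opp hL <| by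
    by_contra hd
    obtain ⟨i, hi⟩ := (F.t_cover j).2 hd
    exact hj i hi
  b₀_mem k := (F.cs (F.t k)).b₀_mem hL ((F.t_cover _).1 ⟨k, rfl⟩)
  det_mem k := by
    rw [Ideal.mem_span_singleton]
    refine ⟨-(((Algebra.universalFamily F.site (Fin g)).1 (F.t k)).1.trace +
      algebraMap O _ ((F.site (F.t k)).sgn * (((F.site (F.t k)).q : O) + 1))), ?_⟩
    have hs : (algebraMap O (RT.LocalRing.PSR (Fin F.s) (Fin g) O) (F.site (F.t k)).sgn) *
        algebraMap O _ (F.site (F.t k)).sgn = 1 := by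
      rw [← map_mul, (F.site (F.t k)).sgn_sq, map_one]
    simp only [Patching.RaiseData.traceRel, patchData, stepMatrix, degMatrix, Matrix.det_fin_two,
      Matrix.of_apply, Matrix.cons_val', Matrix.cons_val_zero, Matrix.cons_val_one,
      Matrix.empty_val', Matrix.cons_val_fin_one, map_mul, map_add, map_natCast, map_one]
    linear_combination (-(((F.q (F.t k) : ℕ) : RT.LocalRing.PSR (Fin F.s) (Fin g) O) + 1) ^ 2) * hs
  DM_pos := hDM

theorem RaiseFrames.added_last_iff {x : ℕ} :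
    x ∈ F.added F.m ↔ ∃ j, F.q j = x ∧ ¬ F.q j ∣ L := by
  simp only [RaiseFrames.added, Finset.mem_image, Finset.mem_filter, Finset.mem_univ, true_and]
  constructor
  · rintro ⟨i, -, rfl⟩
    exact ⟨_, rfl, (F.t_cover _).1 ⟨i, rfl⟩⟩
  · rintro ⟨j, rfl, hj⟩
    obtain ⟨i, rfl⟩ := (F.t_cover j).2 hj
    exact ⟨i, i.2, rfl⟩

theorem RaiseFrames.squarefree_topLevel : Squarefree F.topLevel := by
  refine Nat.squarefree_mul_iff.2 ⟨Nat.Coprime.prod_right fun x hx => ?_, B.squarefree,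
    squarefree_prod_primes fun x hx => F.added_prime hx⟩
  obtain ⟨j, rfl, hj⟩ := F.added_last_iff.1 hx
  rw [Nat.coprime_comm, (F.q_prime j).coprime_iff_not_dvd]
  rintro hd
  rcases (F.q_prime j).dvd_mul.1 hd with h | h
  · exact hj h
  · exact (B.aux _ (F.q_prime j) h).2.1 (F.q_bad j)

theorem RaiseFrames.dvd_topLevel (hL : IsRaisingBase W p L) {x : ℕ} (hx : x.Prime)
    (hbad : (x : ℤ) ∣ W.Δ) : x ∣ F.topLevel := by
  by_cases hd : x ∣ L
  · exact (hd.mul_right _).mul_right _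
  have hxp : x ≠ p := fun h => hd (h ▸ hL.p_dvd_iff.2 (h ▸ hbad))
  obtain ⟨j, rfl⟩ := (F.q_cover x).1 ((mem_raiseSites_iff hΔ).2 ⟨hx, hxp, hbad⟩)
  exact (Finset.dvd_prod_of_mem _ (F.added_last_iff.2 ⟨j, rfl, hd⟩)).mul_left _

/-- **Lifting from a raising base**, from the producers. -/
theorem liftFromRaisingBase (hS29 : RT.EigenformResidualRep) (h35 : BadPrime.NewformMultRep)
    (hmodels : RaiseModelsExist) (hrings : RaiseRingsExist) (hsys : RaiseSystemsExist) :
    LiftFromRaisingBase := by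
  classical
  intro p hp W hΔ hss hirr hlift L hL
  have : Fact p.Prime := ⟨by rcases hp with rfl | rfl <;> norm_num⟩
  obtain ⟨O, iC, iD, iV, iA, iF, iZ, ⟨ζ, hζ⟩, ⟨B⟩⟩ :=
    exists_raiseData_of_liftable hS29 h35 hp hΔ hss hirr hL 1
  rw [pow_one] at hζ
  obtain ⟨q, hq, hqp, -, hqΔ⟩ := Semistable.exists_site_of_isRaisingBase hL hp
  obtain ⟨F⟩ := exists_raiseFrames B hss hirr ⟨q, hq, hqp, hqΔ⟩
  obtain ⟨DM, DC, T₀, hDM, htop, hM⟩ := hmodels W hΔ p L O hss hirr hlift hL B F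
  obtain ⟨ℒ, hℒ, hwit⟩ := exists_finite_witness
    {ℓ : Nat.Primes | (ℓ : ℕ) ∉ raiseExcluded W p B.r₀} T₀
    (fun ℓ => ((W.apOfModel ℓ : ℤ) : O))
  obtain ⟨r, hr⟩ := hrings W hΔ p L O hss hirr hlift hL B F (ℒ.image fun ℓ : Nat.Primes => (ℓ : ℕ))
  obtain ⟨w, hw0, hw⟩ := Patching.RaiseData.exists_eigenvector
    (valid_patchData F hL (numGlobal r F.s) hDM T₀ ℒ) fun n => by
      obtain ⟨Q, hQ, ⟨R⟩⟩ := hr n
      obtain ⟨M, hMT⟩ := hM r n Q
      refine hsys W hΔ p L O hp hss hirr hlift hL B F ζ hζ r n Q R DM DC hDM M T₀ hMT ℒ fun ℓ hℓ => ?_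
      rw [RaiseLevel.S', Finset.mem_union, not_or]
      refine ⟨hℒ hℓ, fun h => ?_⟩
      obtain ⟨i, -, hi⟩ := Finset.mem_image.1 h
      exact hQ i (hi ▸ Finset.mem_image_of_mem _ hℓ)
  obtain ⟨φ, hφ, hφT⟩ := htop (fun ℓ => ((W.apOfModel ℓ : ℤ) : O)) w hw0 fun ℓ hℓ =>
    hwit w (fun l hl => hw ⟨l, hl⟩) ℓ hℓ
  have : CharZero (FractionRing O) :=
    charZero_of_injective_algebraMap (IsFractionRing.injective O (FractionRing O))
  refine exists_squarefree_modular_of_eigenHom hΔ F.squarefree_topLevel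
    (fun q hq hqd => F.dvd_topLevel hL hq hqd) (raiseExcluded W p B.r₀)
    (fun ℓ hℓ => ?_) hφ fun ℓ hℓ _ _ hℓS => AddMonoidHom.ext fun x => ?_
  · rcases Finset.mem_insert.1 hℓ with rfl | h
    · exact Fact.out
    · rcases Finset.mem_union.1 h with h | h <;> exact Nat.prime_of_mem_primeFactors h
  · rw [hφT ℓ hℓ hℓS x, map_intCast]
    simp

end Fermat.Agent.Lifting.Raise

end
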