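import Fermat.Agent.Lifting.Raise.NodeRing
import Fermat.Agent.RT.Assembly.Eigen
import Fermat.Agent.RT.Assembly.ComponentPoints

/-!
# The points of the ring of a family of nodes

* `nodeRing.isReduced`: the ring is reduced.
* `nodeRing.exists_component`, `nodeRing.exists_exactLevel`: a point factors through a component and
  gives there a newform system of exact level at the node.
* `nodeRing.eq_zero_of_points`: an element vanishing at the points through a component has zero
  component.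
* `nodeRing.exists_point_of_singular`: a singular specialisation gives a point.
-/

set_option autoImplicit false
set_option linter.style.haveILetI false

noncomputable section

open IsLocalRing

namespace Fermat.Agent.Lifting.Raise

open RT.Diamond
open RT.Assembly (IsExactLevel IsNewformSystem formOp)

/-- A subalgebra inside a larger one, over a smaller ring. -/
def subMap {O' A X : Type} [CommSemiring O'] [CommSemiring A] [Semiring X] [Algebra O' A]
    [Algebra A X] [Algebra O' X] [IsScalarTower O' A X] {U V : Subalgebra A X} (h : U ≤ V) :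
    U →ₐ[O'] V :=
  (Subalgebra.inclusion h).restrictScalars O'

theorem coe_subMap {O' A X : Type} [CommSemiring O'] [CommSemiring A] [Semiring X] [Algebra O' A]
    [Algebra A X] [Algebra O' X] [IsScalarTower O' A X] {U V : Subalgebra A X} (h : U ≤ V) (x : U) :
    (subMap (O' := O') h x : X) = x :=
  rfl

variable {W : WeierstrassCurve ℤ} {hΔ : W.Δ ≠ 0} {p L : ℕ} [Fact p.Prime]
  {O : Type} [CommRing O] [IsDomain O] [IsDiscreteValuationRing O]
  [IsAdicComplete (maximalIdeal O) O] [Finite (ResidueField O)] [CharZero O]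
  {B : RaiseData W hΔ p L O} {r n : ℕ} {Q : RaiseLevel B r n} {J : Type}
  {S : J → Finset ℕ} {Lev : J → ℕ} [∀ j, NeZero (Lev j)] {new : J → Finset ℕ} {D : J → ℕ}
  (M : ∀ j, NodeModel Q (S j) (Lev j) (new j) (D j))

namespace nodeRing

variable {R R' : Finset ℕ}

/-- The operators as a function on all primes. -/
def op (R : Finset ℕ) (ℓ : Nat.Primes) : nodeRing M R :=
  if h : (ℓ : ℕ) ∉ R then T M ℓ h else 0

theorem op_of_not_mem {ℓ : Nat.Primes} (h : (ℓ : ℕ) ∉ R) : op M R ℓ = T M ℓ h := dif_pos h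

theorem proj_op (j : J) {ℓ : Nat.Primes} (h : (ℓ : ℕ) ∉ R) :
    proj M R j (op M R ℓ) = (M j).op ℓ := by
  rw [op_of_not_mem M h, proj_T]

/-- Excluding fewer primes gives a larger ring. -/
abbrev incl (h : R' ⊆ R) : nodeRing M R →ₐ[O] nodeRing M R' :=
  subMap (O' := O) (le_of_subset M h)

theorem proj_incl (h : R' ⊆ R) (j : J) (x : nodeRing M R) :
    proj M R' j (incl M h x) = proj M R j x :=
  congrFun (coe_subMap (O' := O) (le_of_subset M h) x) j

theorem incl_injective (h : R' ⊆ R) : Function.Injective (incl M h) := fun x y hxy => by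
  have h1 := congrArg Subtype.val hxy
  rw [coe_subMap, coe_subMap] at h1
  exact Subtype.ext h1

theorem incl_T (h : R' ⊆ R) (ℓ : Nat.Primes) (hℓ : (ℓ : ℕ) ∉ R) :
    incl M h (T M ℓ hℓ) = T M ℓ fun hmem => hℓ (h hmem) :=
  Subtype.ext (coe_subMap _ _)

theorem incl_lam (h : R' ⊆ R) (c : Q.Λ) : incl M h (lam M R c) = lam M R' c := by
  refine sub_eq_zero.1 (eq_zero_of_proj M fun j => ?_)
  rw [map_sub, proj_incl, proj_lam, proj_lam, sub_self]

/-! ### Reducedness -/

theorem exists_heckeHom (hS : ∀ j, S j ⊆ R) (hR : R ⊆ Q.S') (j : J)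
    (hlev : ∀ q : ℕ, q.Prime → q ∣ Lev j * Q.N → q ∈ R) :
    ∃ ψ : CuspForm.heckeAlgebra (Lev j * Q.N) 2 (↑R : Set ℕ) →+*
        nodeRing (fun _ : Unit => M j) R,
      ∀ (ℓ : Nat.Primes) (h : (ℓ : ℕ) ∉ R),
        ψ (formOp (Lev j * Q.N) R ℓ) = T (fun _ : Unit => M j) ℓ h := by
  classical
  let G : Type := {ℓ : Nat.Primes // (ℓ : ℕ) ∉ R}
  let M₁ := fun _ : Unit => M j
  let e₀ : MvPolynomial G ℤ →+* CuspForm.heckeAlgebra (Lev j * Q.N) 2 (↑R : Set ℕ) :=
    MvPolynomial.eval₂Hom (Int.castRingHom _) fun ℓ => formOp (Lev j * Q.N) R ℓ.1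
  have hsurj : Function.Surjective e₀ := by
    intro x
    obtain ⟨x, hx⟩ := x
    induction hx using Algebra.adjoin_induction with
    | mem x hx =>
      rcases hx with ⟨ℓ, hℓ, hℓN, hℓS, rfl⟩ | ⟨q, hqN, hq, hqS, rfl⟩
      · refine ⟨MvPolynomial.X ⟨⟨ℓ, hℓ⟩, fun h => hℓS (Finset.mem_coe.2 h)⟩, ?_⟩
        rw [MvPolynomial.eval₂Hom_X', formOp, dif_pos ⟨hℓN, hℓS⟩]
        rfl
      · exact absurd (Finset.mem_coe.2 (hlev q hq hqN)) hqS
    | algebraMap c =>
      refine ⟨(c : MvPolynomial G ℤ), ?_⟩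
      rw [map_intCast]
      exact Subtype.ext (by simp)
    | add a b _ _ iha ihb =>
      obtain ⟨u, hu⟩ := iha
      obtain ⟨v, hv⟩ := ihb
      exact ⟨u + v, by rw [map_add, hu, hv]; rfl⟩
    | mul a b _ _ iha ihb =>
      obtain ⟨u, hu⟩ := iha
      obtain ⟨v, hv⟩ := ihb
      exact ⟨u * v, by rw [map_mul, hu, hv]; rfl⟩
  let e : MvPolynomial G ℤ →+* nodeRing M₁ R :=
    MvPolynomial.eval₂Hom (Int.castRingHom _) fun ℓ => T M₁ ℓ.1 ℓ.2
  have hle : RingHom.ker e₀ ≤ RingHom.ker e := by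
    intro F hF
    rw [RingHom.mem_ker] at hF ⊢
    have hinj : Function.Injective (proj M₁ R ()) := fun x y hxy =>
      Subtype.ext (funext fun _ => hxy)
    have hrel := (M j).relation R (hS j) hR (MvPolynomial.rename Subtype.val F) (fun ℓ hℓ => by
        obtain ⟨ℓ', -, rfl⟩ := Finset.mem_image.1 (MvPolynomial.vars_rename _ _ hℓ)
        exact ℓ'.2)
      (by rw [MvPolynomial.eval₂Hom_rename]; exact hF) (nodeRing M₁ R) (op M₁ R)
      (proj M₁ R ()).toRingHom hinj (fun ℓ hℓ => proj_op M₁ () hℓ)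
    rw [MvPolynomial.eval₂Hom_rename] at hrel
    have hcomp : e = MvPolynomial.eval₂Hom (Int.castRingHom _) (op M₁ R ∘ Subtype.val) :=
      MvPolynomial.ringHom_ext (fun c => by simp [e]) fun ℓ => by
        simp [e, op_of_not_mem M₁ ℓ.2]
    rw [hcomp]
    exact hrel
  refine ⟨RingHom.liftOfSurjective e₀ hsurj ⟨e, hle⟩, fun ℓ h => ?_⟩
  have h1 : e₀ (MvPolynomial.X ⟨ℓ, h⟩) = formOp (Lev j * Q.N) R ℓ := MvPolynomial.eval₂Hom_X' ..
  rw [← h1, RingHom.liftOfRightInverse_comp_apply]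
  exact MvPolynomial.eval₂Hom_X' ..

theorem isReduced_single (hS : ∀ j, S j ⊆ R) (hR : R ⊆ Q.S') (j : J)
    (hlev : ∀ q : ℕ, q.Prime → q ∣ Lev j * Q.N → q ∈ R) :
    IsReduced (nodeRing (fun _ : Unit => M j) R) := by
  classical
  let M₁ := fun _ : Unit => M j
  let h₀ := CuspForm.heckeAlgebra (Lev j * Q.N) 2 (↑R : Set ℕ)
  haveI : IsReduced h₀ := Hecke.isReduced_heckeAlgebra _ 2 _
    fun q hq hd => Finset.mem_coe.2 (hlev q hq hd)
  haveI : Module.Finite ℤ h₀ := HeckeFinite.moduleFinite_heckeAlgebra _ 2 _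
  haveI : IsReduced (MonoidAlgebra h₀ (Grp (ppow p Q.e))) :=
    RT.Assembly.isReduced_monoidAlgebra h₀ _
  haveI : Module.Finite h₀ (MonoidAlgebra h₀ (Grp (ppow p Q.e))) :=
    Module.Finite.of_basis (MonoidAlgebra.basis _ _)
  haveI : Module.Finite ℤ (MonoidAlgebra h₀ (Grp (ppow p Q.e))) := Module.Finite.trans h₀ _
  haveI : IsAddTorsionFree (MonoidAlgebra h₀ (Grp (ppow p Q.e))) :=
    ⟨fun n hn a b hab => MonoidAlgebra.ext (Finsupp.ext fun g =>
      nsmul_right_injective hn (by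
        have h2 := congrArg (MonoidAlgebra.coeffAddEquiv (R := h₀)) hab
        rw [map_nsmul, map_nsmul] at h2
        exact DFunLike.congr_fun h2 g))⟩
  obtain ⟨ψ, hψ⟩ := exists_heckeHom M hS hR j hlev
  haveI : Module.Flat O (nodeRing M₁ R) := Module.Flat.of_free
  refine FiniteFlat.isReduced_of_adjoin_range_eq_top O (MonoidAlgebra h₀ (Grp (ppow p Q.e)))
    (nodeRing M₁ R) (MonoidAlgebra.liftNCRingHom ψ
      ((lam M₁ R).toMonoidHom.comp (MonoidAlgebra.of O (Grp (ppow p Q.e))))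
      fun _ _ => Commute.all _ _) ?_
  rw [eq_top_iff, ← adjoin_eq_top M₁]
  refine Algebra.adjoin_mono ?_
  rintro x (⟨g, rfl⟩ | ⟨ℓ, rfl⟩)
  · refine ⟨MonoidAlgebra.single g 1, ?_⟩
    exact (MonoidAlgebra.liftNC_single _ _ g (1 : h₀)).trans
      ((congrArg (· * _) (map_one ψ)).trans (one_mul _))
  · refine ⟨MonoidAlgebra.single 1 (formOp (Lev j * Q.N) R ℓ.1), ?_⟩
    exact (MonoidAlgebra.liftNC_single _ _ 1 _).trans
      ((congrArg₂ (· * ·) (hψ ℓ.1 ℓ.2) (map_one _)).trans (mul_one _))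

/-- The component of an element lies in the ring of that node. -/
theorem proj_mem_single (j : J) (x : nodeRing M R) :
    (fun _ : Unit => proj M R j x) ∈ nodeRing (fun _ : Unit => M j) R := by
  let π : (∀ j, Matrix (Fin (D j)) (Fin (D j)) Q.Λ) →ₐ[Q.Λ]
      (Unit → Matrix (Fin (D j)) (Fin (D j)) Q.Λ) :=
    AlgHom.pi fun _ => Pi.evalAlgHom Q.Λ (fun j => Matrix (Fin (D j)) (Fin (D j)) Q.Λ) j
  have h : π x.1 ∈ (nodeRing M R).map π := Subalgebra.mem_map.2 ⟨x.1, x.2, rfl⟩
  rw [show (nodeRing M R).map π = _ from AlgHom.map_adjoin π _] at h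
  refine Algebra.adjoin_mono ?_ h
  rintro _ ⟨_, ⟨ℓ, hℓ, rfl⟩, rfl⟩
  exact ⟨ℓ, hℓ, rfl⟩

/-- The kernel of a component is radical. -/
theorem isRadical_ker_proj (hS : ∀ j, S j ⊆ R) (hR : R ⊆ Q.S') (j : J)
    (hlev : ∀ q : ℕ, q.Prime → q ∣ Lev j * Q.N → q ∈ R) :
    (RingHom.ker (proj M R j)).IsRadical := by
  haveI := isReduced_single M hS hR j hlev
  intro x hx
  obtain ⟨k, hk⟩ := hx
  have hnil : IsNilpotent
      (⟨_, proj_mem_single M j x⟩ : nodeRing (fun _ : Unit => M j) R) := by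
    refine ⟨k, Subtype.ext (funext fun _ => ?_)⟩
    show proj M R j x ^ k = 0
    rw [← map_pow]
    exact hk
  exact congrFun (congrArg Subtype.val hnil.eq_zero) ()

/-- The ring is reduced. -/
theorem isReduced (hS : ∀ j, S j ⊆ R) (hR : R ⊆ Q.S')
    (hlev : ∀ j, ∀ q : ℕ, q.Prime → q ∣ Lev j * Q.N → q ∈ R) : IsReduced (nodeRing M R) := by
  refine ⟨fun x hx => eq_zero_of_proj M fun j => RingHom.mem_ker.1
    (isRadical_ker_proj M hS hR j (hlev j) ?_)⟩
  obtain ⟨k, hk⟩ := hx
  exact ⟨k, by rw [hk]; exact zero_mem _⟩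

/-! ### Points -/

variable [Finite J]

/-- A point factors through a component. -/
theorem exists_component {V : Type} [CommRing V] [IsDomain V] [Algebra O V]
    (f : nodeRing M R →ₐ[O] V) : ∃ j, RingHom.ker (proj M R j) ≤ RingHom.ker f := by
  classical
  haveI := Fintype.ofFinite J
  have hprime : (RingHom.ker f).IsPrime := RingHom.ker_isPrime f
  obtain ⟨j, -, hj⟩ := hprime.inf_le'.1 (show (Finset.univ : Finset J).inf
      (fun j => RingHom.ker (proj M R j)) ≤ RingHom.ker f from fun x hx => by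
    rw [Submodule.mem_finsetInf] at hx
    rw [eq_zero_of_proj M fun j => hx j (Finset.mem_univ j)]
    exact zero_mem _)
  exact ⟨j, hj⟩

omit [Finite J] in
/-- A point through a component gives a newform system of exact level at that node. -/
theorem exists_exactLevel (hS : ∀ j, S j ⊆ R) (hR : R ⊆ Q.S') {V : Type} [CommRing V]
    [IsDomain V] [IsDiscreteValuationRing V] [IsAdicComplete (maximalIdeal V) V]
    [Finite (ResidueField V)] [CharZero V] [Algebra O V] [IsLocalHom (algebraMap O V)]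
    (hinj : Function.Injective (algebraMap O V)) (f : nodeRing M R →ₐ[O] V) (j : J)
    (hj : RingHom.ker (proj M R j) ≤ RingHom.ker f) :
    ∃ (L' : ℕ) (_ : NeZero L'),
      IsExactLevel (Q.θ.ringHomComp (f.comp (lam M R)).toRingHom) R (fun ℓ => f (op M R ℓ))
        (Lev j) L' ∧
      IsNewformSystem R L' (fun ℓ => f (op M R ℓ)) ∧ ∀ q ∈ new j, q ∣ L' := by
  classical
  let π := proj M R j
  let f' : nodeRing M R ⧸ RingHom.ker π →ₐ[O] V :=
    Ideal.Quotient.liftₐ (RingHom.ker π) f fun a ha => hj ha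
  obtain ⟨w, hw, hwe⟩ := RT.Assembly.Eigen.exists_eigenvector_groupAlgebra (O := O)
    (Ideal.kerLiftAlg π) (Ideal.kerLiftAlg_injective π)
    ((Ideal.Quotient.mkₐ O (RingHom.ker π)).comp (lam M R))
    (fun c => proj_lam (R := R) M j c) hinj f'
  refine (M j).eigen R (hS j) hR V hinj (f.comp (lam M R)) _ w hw fun ℓ hℓ => ?_
  rw [op_of_not_mem M hℓ]
  exact hwe (Ideal.Quotient.mk _ (T M ℓ hℓ))

/-- An element vanishing at all points through a component has zero component. -/
theorem eq_zero_of_points (hS : ∀ j, S j ⊆ R) (hR : R ⊆ Q.S') (j : J)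
    (hlev : ∀ q : ℕ, q.Prime → q ∣ Lev j * Q.N → q ∈ R) (x : nodeRing M R)
    (h : ∀ (V : Type) [CommRing V] [IsDomain V] [IsDiscreteValuationRing V]
      [IsAdicComplete (maximalIdeal V) V] [Finite (ResidueField V)] [CharZero V] [Algebra O V]
      [Module.Finite O V] [IsLocalHom (algebraMap O V)], Function.Injective (algebraMap O V) →
      ∀ f : nodeRing M R →ₐ[O] V, RingHom.ker (proj M R j) ≤ RingHom.ker f → f x = 0) :
    proj M R j x = 0 := by
  by_contra hx
  let U : Submonoid (nodeRing M R) :=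
    Submonoid.closure ((algebraMap O (nodeRing M R)) '' {o | o ≠ 0} ∪ {x})
  have hU : ∀ y ∈ U, ∃ (o : O) (k : ℕ), o ≠ 0 ∧ y = algebraMap O _ o * x ^ k := by
    intro y hy
    induction hy using Submonoid.closure_induction with
    | mem y hy =>
      rcases hy with ⟨o, ho, rfl⟩ | rfl
      · exact ⟨o, 0, ho, by simp⟩
      · exact ⟨1, 1, one_ne_zero, by simp⟩
    | one => exact ⟨1, 0, one_ne_zero, by simp⟩
    | mul a b _ _ iha ihb =>
      obtain ⟨o, k, ho, rfl⟩ := iha
      obtain ⟨o', k', ho', rfl⟩ := ihb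
      exact ⟨o * o', k + k', mul_ne_zero ho ho', by rw [map_mul, pow_add]; ring⟩
  have hdisj : Disjoint (RingHom.ker (proj M R j) : Set (nodeRing M R)) U := by
    rw [Set.disjoint_left]
    intro y hy hyU
    obtain ⟨o, k, ho, rfl⟩ := hU y hyU
    rw [SetLike.mem_coe, RingHom.mem_ker, map_mul, AlgHom.commutes, ← Algebra.smul_def] at hy
    refine hx (isRadical_ker_proj M hS hR j hlev ⟨k, ?_⟩)
    refine Matrix.ext fun a b => MonoidAlgebra.ext (Finsupp.ext fun g => ?_)
    have := congrArg (fun Z : Matrix (Fin (D j)) (Fin (D j)) Q.Λ => (Z a b).coeff g) hy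
    simpa [ho] using this
  obtain ⟨P, hP, hle, hdis⟩ := Ideal.exists_le_prime_disjoint _ U hdisj
  have hP0 : ∀ o : O, algebraMap O (nodeRing M R) o ∈ P → o = 0 := fun o ho => by_contra fun hne =>
    Set.disjoint_left.1 hdis ho (Submonoid.subset_closure (Or.inl ⟨o, hne, rfl⟩))
  obtain ⟨V, _, _, _, _, _, _, _, _, _, hinj, f, hf⟩ :=
    EichlerShimura.exists_finiteDVR_extension O (nodeRing M R) P hP0
  have hfx := h V hinj f (hf.symm ▸ hle)
  exact Set.disjoint_left.1 hdis (hf ▸ hfx : x ∈ P) (Submonoid.subset_closure (Or.inr rfl))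

/-- A singular specialisation of a component gives a point through it. -/
theorem exists_point_of_singular (j : J) (ξ : Q.Λ →ₐ[O] O) (y : nodeRing M R)
    (hy : ((proj M R j y).map ξ).det = 0) :
    ∃ (V : Type) (_ : CommRing V) (_ : IsDomain V) (_ : IsDiscreteValuationRing V)
      (_ : IsAdicComplete (maximalIdeal V) V) (_ : Finite (ResidueField V)) (_ : CharZero V)
      (_ : Algebra O V) (_ : Module.Finite O V) (_ : IsLocalHom (algebraMap O V)),
      Function.Injective (algebraMap O V) ∧ ∃ f : nodeRing M R →ₐ[O] V,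
        RingHom.ker (proj M R j) ≤ RingHom.ker f ∧ f y = 0 ∧
        ∀ c, f (lam M R c) = algebraMap O V (ξ c) := by
  classical
  let spec : nodeRing M R →ₐ[O] Matrix (Fin (D j)) (Fin (D j)) O := ξ.mapMatrix.comp (proj M R j)
  let I : Ideal (nodeRing M R) := RingHom.ker spec ⊔ Ideal.span {y}
  let U : Submonoid (nodeRing M R) := (nonZeroDivisors O).map (algebraMap O (nodeRing M R))
  have hdisj : Disjoint (I : Set (nodeRing M R)) U := by
    rw [Set.disjoint_left]
    rintro _ hI ⟨o, ho, rfl⟩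
    obtain ⟨k, hk, t, ht, hkt⟩ := Submodule.mem_sup.1 hI
    obtain ⟨t, rfl⟩ := Ideal.mem_span_singleton.1 ht
    have h1 := congrArg spec hkt
    rw [map_add, RingHom.mem_ker.1 hk, zero_add, map_mul, AlgHom.commutes] at h1
    have h2 := congrArg Matrix.det h1
    rw [Matrix.det_mul, show (spec y).det = 0 from hy, zero_mul, Matrix.algebraMap_eq_diagonal,
      Matrix.det_diagonal] at h2
    simp only [Pi.algebraMap_apply, Algebra.algebraMap_self, RingHom.id_apply,
      Finset.prod_const] at h2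
    exact nonZeroDivisors.coe_ne_zero (⟨o, ho⟩ : nonZeroDivisors O) (eq_zero_of_pow_eq_zero h2.symm)
  obtain ⟨P, hP, hle, hdis⟩ := Ideal.exists_le_prime_disjoint I U hdisj
  have hP0 : ∀ o : O, algebraMap O (nodeRing M R) o ∈ P → o = 0 := fun o ho => by_contra fun hne =>
    Set.disjoint_left.1 hdis ho ⟨o, mem_nonZeroDivisors_of_ne_zero hne, rfl⟩
  obtain ⟨V, i1, i2, i3, i4, i5, i6, i7, i8, i9, hinj, f, hf⟩ :=
    EichlerShimura.exists_finiteDVR_extension O (nodeRing M R) P hP0
  have hker : RingHom.ker spec ≤ RingHom.ker f := hf.symm ▸ (le_sup_left.trans hle)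
  refine ⟨V, i1, i2, i3, i4, i5, i6, i7, i8, i9, hinj, f, fun x hx => hker ?_, ?_, fun c => ?_⟩
  · show ξ.mapMatrix (proj M R j x) = 0
    rw [RingHom.mem_ker.1 hx, map_zero]
  · exact RingHom.mem_ker.1 (hf.symm ▸ hle (Submodule.mem_sup_right
      (Ideal.mem_span_singleton_self y)) : y ∈ RingHom.ker f)
  · have : lam M R c - algebraMap O (nodeRing M R) (ξ c) ∈ RingHom.ker spec := by
      rw [RingHom.mem_ker, map_sub, AlgHom.commutes, sub_eq_zero]
      show ξ.mapMatrix (Matrix.scalar (Fin (D j)) c) = _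
      rw [Matrix.algebraMap_eq_diagonal]
      ext a b
      by_cases hab : a = b <;> simp [hab]
    have h' := RingHom.mem_ker.1 (hker this)
    rwa [map_sub, AlgHom.commutes, sub_eq_zero] at h'

end nodeRing

end Fermat.Agent.Lifting.Raise

end
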