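import Fermat.Agent.Lifting.Raise.NodePoints
import Fermat.Agent.Lifting.Raise.NodeRingPoints
import Fermat.Agent.RT.LocalAtP.Conditions
import Fermat.Agent.RT.LocalQ.Points
import Fermat.Agent.BadPrime.TateRep

/-!
# The operator at a prime to be added is the trace of Frobenius

A representation whose traces of Frobenius outside `Q.S'` are the values of an eigen system of a
node takes at a Frobenius element at a further prime `t` outside the excluded set of the node the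
value of the system at `t`: compare with the representation of the newform system outside that
set.
-/

set_option autoImplicit false
set_option linter.style.haveILetI false

noncomputable section

open IsLocalRing Polynomial

namespace Fermat.Agent.Lifting.Raise

open RT.Assembly (LocalInputs IsNewformSystem)

local notation "ℚ̄" => AlgebraicClosure ℚ
local notation "Γℚ" => (AlgebraicClosure ℚ ≃ₐ[ℚ] AlgebraicClosure ℚ)

/-- A homomorphism from a local algebra through a finite one is local. -/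
theorem isLocalHom_comp_of_finite {O R A V : Type} [CommRing O] [IsNoetherianRing O]
    [IsLocalRing O] [CommRing R] [IsLocalRing R] [CommRing A] [CommRing V] [IsLocalRing V]
    [Algebra O R] [Algebra O A] [Module.Finite O A] [Algebra O V] [IsLocalHom (algebraMap O V)]
    (act : R →ₐ[O] A) (f : A →ₐ[O] V) : IsLocalHom ((f.comp act : R →ₐ[O] V) : R →+* V) := by
  haveI : Nontrivial act.range := RingHom.domain_nontrivial (f.comp act.range.val).toRingHom
  haveI : IsLocalRing act.range :=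
    IsLocalRing.of_surjective' (act.rangeRestrict : R →+* act.range) act.rangeRestrict_surjective
  haveI : Module.Finite O act.range :=
    Module.Finite.of_injective act.range.val.toLinearMap Subtype.val_injective
  haveI := RT.isLocalHom_of_algHom (f.comp act.range.val)
  haveI : IsLocalHom (act.rangeRestrict : R →+* act.range) :=
    IsLocalHom.of_surjective _ act.rangeRestrict_surjective
  exact RingHom.isLocalHom_comp (f.comp act.range.val : act.range →+* V)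
    (act.rangeRestrict : R →+* act.range)

section Point

variable {p : ℕ} [Fact p.Prime]

/-- The characteristic polynomial at a Frobenius element of a representation with cyclotomic
determinant. -/
theorem charpoly_frobenius_of_det {A : Type} [CommRing A] [IsLocalRing A]
    [IsHausdorff (maximalIdeal A) A] {ρ : GaloisRepAdic A} (hdet : ρ.DetIsCyclotomic p) {ℓ : ℕ}
    (hℓ : ℓ.Prime) (hℓp : ℓ ≠ p) {P : ValuationSubring ℚ̄} (hP : P.LiesOverPrime ℓ) {σ : Γℚ}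
    (hσ : P.IsFrobeniusAt σ ℓ) :
    LinearMap.charpoly (ρ.ρ σ) = X ^ 2 - C (ρ.trace σ) * X + C (ℓ : A) :=
  BadPrime.charpoly_of_trace_det (Module.finBasisOfFinrankEq A ρ.V ρ.finrank_eq) (ρ.ρ σ) rfl
    (RT.det_eq_natCast_of_isFrobeniusAt hdet Fact.out hℓ hℓp.symm hP hσ)

omit [Fact p.Prime] in
/-- A representation with the traces of a newform system outside a larger set has at every good
prime the value of the system. -/
theorem charpoly_eq_of_newformSystem {V : Type} [CommRing V] [IsDomain V]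
    [IsDiscreteValuationRing V] [IsAdicComplete (maximalIdeal V) V] [Finite (ResidueField V)]
    [CharZero V] (hpV : (p : V) ∈ maximalIdeal V) (inputs : LocalInputs p) {L' : ℕ} [NeZero L']
    {S S' : Finset ℕ} (hSS : S ⊆ S') (hpS : p ∈ S)
    (hS : ∀ q : ℕ, q.Prime → q ∣ L' → q ∈ S) {c : Nat.Primes → V}
    (hc : IsNewformSystem S L' c) (ρV : GaloisRepAdic V)
    (hρ : ∀ (ℓ : ℕ) (hℓ : ℓ.Prime), ℓ ∉ S' → ∀ A : ValuationSubring ℚ̄, A.LiesOverPrime ℓ →
      ∀ σ : Γℚ, A.IsFrobeniusAt σ ℓ →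
        LinearMap.charpoly (ρV.ρ σ) = X ^ 2 - C (c ⟨ℓ, hℓ⟩) * X + C (ℓ : V))
    {t : ℕ} (ht : t.Prime) (htS : t ∉ S) {P : ValuationSubring ℚ̄} (hP : P.LiesOverPrime t)
    {σ : Γℚ} (hσ : P.IsFrobeniusAt σ t) :
    LinearMap.charpoly (ρV.ρ σ) = X ^ 2 - C (c ⟨t, ht⟩) * X + C (t : V) := by
  obtain ⟨g, chig, emb, -, -, hemb⟩ := hc
  let χ : CuspForm.heckeAlgebra L' 2 (↑S : Set ℕ) →+* V := emb.comp chig.rangeRestrict
  have hχ : ∀ (ℓ : ℕ) (hℓ : ℓ.Prime) (hℓL : ¬ ℓ ∣ L') (hℓS : ℓ ∉ (↑S : Set ℕ)),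
      χ (CuspForm.heckeAlgebra.T hℓ hℓL hℓS) = c ⟨ℓ, hℓ⟩ := hemb
  have hnd : ∀ {ℓ : ℕ}, ℓ.Prime → ℓ ∉ S → ¬ ℓ ∣ L' := fun hℓ hℓS h => hℓS (hS _ hℓ h)
  have hmem : ∀ {ℓ : ℕ}, ℓ ∉ S → ℓ ∉ (↑S : Set ℕ) := fun h h' => h (Finset.mem_coe.mp h')
  obtain ⟨V₂, _, _, _, _, _, _, _, _, hloc, hinj, r, hr, -⟩ :=
    inputs.galoisRep L' S hpS hS V hpV χ
  have hall := Density.adic_charpoly_eq_of_frobenius (ρV.baseChangeAlong (algebraMap V V₂) hloc) r
    S' (fun ℓ hℓ hℓS A hA τ hτ => by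
      have hℓS₀ : ℓ ∉ S := fun h => hℓS (hSS h)
      rw [RT.charpoly_adic_baseChangeAlong, hρ ℓ hℓ hℓS A hA τ hτ,
        hr ℓ hℓ (hnd hℓ hℓS₀) (hmem hℓS₀) A hA τ hτ, hχ]
      simp) σ
  rw [RT.charpoly_adic_baseChangeAlong,
    hr t ht (hnd ht htS) (hmem htS) P hP σ hσ, hχ] at hall
  refine Polynomial.map_injective _ hinj (hall.trans ?_)
  simp

end Point

variable {W : WeierstrassCurve ℤ} {hΔ : W.Δ ≠ 0} {p L : ℕ} [Fact p.Prime]
  {O : Type} [CommRing O] [IsDomain O] [IsDiscreteValuationRing O]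
  [IsAdicComplete (maximalIdeal O) O] [Finite (ResidueField O)] [CharZero O]
  {B : RaiseData W hΔ p L O} {r n : ℕ} {Q : RaiseLevel B r n} {S : Finset ℕ} {Lev : ℕ}
  [NeZero Lev] {new : Finset ℕ} {D : ℕ}

open Deformation (matOf)

include B in
/-- The value at a further prime of a newform system is the trace there of a representation with
the traces of the system outside `S'`. -/
theorem value_eq_trace_of_newformSystem (inputs : LocalInputs p) {S' : Finset ℕ} (hSS : S ⊆ S')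
    (hpS : p ∈ S) {L' : ℕ} [NeZero L'] (hlev : ∀ q : ℕ, q.Prime → q ∣ L' → q ∈ S)
    {R : Type} [CommRing R] [IsLocalRing R] [IsHausdorff (maximalIdeal R) R] [Algebra O R]
    (ρ : GaloisRepAdic R) (hdet : ρ.DetIsCyclotomic p)
    {V : Type} [CommRing V] [IsDomain V] [IsDiscreteValuationRing V]
    [IsAdicComplete (maximalIdeal V) V] [Finite (ResidueField V)] [CharZero V] [Algebra O V]
    [IsLocalHom (algebraMap O V)] (gV : R →ₐ[O] V) (hg : IsLocalHom (gV : R →+* V))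
    {c : Nat.Primes → V} (hnew : IsNewformSystem S L' c)
    (htr : ∀ ℓ : Nat.Primes, (ℓ : ℕ) ∉ S' → ∀ A : ValuationSubring ℚ̄,
      A.LiesOverPrime (ℓ : ℕ) → ∀ σ : Γℚ, A.IsFrobeniusAt σ (ℓ : ℕ) →
        gV (ρ.trace σ) = c ℓ)
    (t : Nat.Primes) (htS : (t : ℕ) ∉ S) {P : ValuationSubring ℚ̄}
    (hP : P.LiesOverPrime (t : ℕ)) {σ : Γℚ} (hσ : P.IsFrobeniusAt σ (t : ℕ)) :
    gV (ρ.trace σ) = c t := by
  have hcp : ∀ (ℓ : ℕ), ℓ.Prime → ℓ ∉ S → ∀ A : ValuationSubring ℚ̄, A.LiesOverPrime ℓ →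
      ∀ τ : Γℚ, A.IsFrobeniusAt τ ℓ →
        LinearMap.charpoly ((ρ.baseChangeAlong (gV : R →+* V) hg).ρ τ) =
          X ^ 2 - C (gV (ρ.trace τ)) * X + C (ℓ : V) := by
    intro ℓ hℓ hℓS A hA τ hτ
    rw [RT.charpoly_adic_baseChangeAlong,
      charpoly_frobenius_of_det hdet hℓ (fun h => hℓS (h ▸ hpS)) hA hτ]
    simp
  have hpV : (p : V) ∈ maximalIdeal V := RaiseLevel.natCast_mem_maximalIdeal (B := B)
  have hmain := charpoly_eq_of_newformSystem hpV inputs hSS hpS hlev hnew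
    (ρ.baseChangeAlong (gV : R →+* V) hg)
    (fun ℓ hℓ hℓS A hA τ hτ => by
      rw [hcp ℓ hℓ (fun h => hℓS (hSS h)) A hA τ hτ, htr ⟨ℓ, hℓ⟩ hℓS A hA τ hτ])
    t.2 htS hP hσ
  rw [hcp (t : ℕ) t.2 htS P hP σ hσ] at hmain
  have h1 := congrArg (fun q : V[X] => q.coeff 1) hmain
  simp at h1
  exact h1

/-- **The operator of a node at a prime outside its excluded set** is the action of the trace of
Frobenius there. -/
theorem NodeModel.op_eq_trace (M : NodeModel Q S Lev new D) (inputs : LocalInputs p)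
    (hSS : S ⊆ Q.S') (hpS : p ∈ S)
    (hlev : ∀ q : ℕ, q.Prime → q ∣ Lev * Q.N → q ∈ S)
    {R : Type} [CommRing R] [IsLocalRing R] [IsHausdorff (maximalIdeal R) R] [Algebra O R]
    (ρ : GaloisRepAdic R) (hdet : ρ.DetIsCyclotomic p)
    (act : R →ₐ[O] Matrix (Fin D) (Fin D) Q.Λ)
    (hrange : ∀ x, act x ∈ Algebra.adjoin Q.Λ (M.op '' {ℓ | (ℓ : ℕ) ∉ Q.S'}))
    (hT : ∀ ℓ : Nat.Primes, (ℓ : ℕ) ∉ Q.S' → ∀ A : ValuationSubring ℚ̄,
      A.LiesOverPrime (ℓ : ℕ) → ∀ σ : Γℚ, A.IsFrobeniusAt σ (ℓ : ℕ) →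
        act (ρ.trace σ) = M.op ℓ)
    (t : Nat.Primes) (htS : (t : ℕ) ∉ S) {P : ValuationSubring ℚ̄}
    (hP : P.LiesOverPrime (t : ℕ)) {σ : Γℚ} (hσ : P.IsFrobeniusAt σ (t : ℕ)) :
    act (ρ.trace σ) = M.op t := by
  let M₁ := fun _ : Unit => M
  let π : Matrix (Fin D) (Fin D) Q.Λ →ₐ[Q.Λ] (Unit → Matrix (Fin D) (Fin D) Q.Λ) :=
    AlgHom.pi fun _ => AlgHom.id Q.Λ _
  have hmem : ∀ x, π (act x) ∈ nodeRing M₁ S := fun x => by
    have h : π (act x) ∈ (Algebra.adjoin Q.Λ (M.op '' {ℓ | (ℓ : ℕ) ∉ Q.S'})).map π :=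
      Subalgebra.mem_map.2 ⟨_, hrange x, rfl⟩
    rw [AlgHom.map_adjoin] at h
    refine Algebra.adjoin_mono ?_ h
    rintro _ ⟨_, ⟨ℓ, hℓ, rfl⟩, rfl⟩
    exact ⟨ℓ, fun hS => hℓ (hSS hS), rfl⟩
  let act₁ : R →ₐ[O] nodeRing M₁ S :=
    ((π.restrictScalars O).comp act).codRestrict ((nodeRing M₁ S).restrictScalars O) hmem
  have hact : ∀ x, nodeRing.proj M₁ S () (act₁ x) = act x := fun _ => rfl
  have hinj : ∀ {x y : nodeRing M₁ S},
      nodeRing.proj M₁ S () x = nodeRing.proj M₁ S () y → x = y :=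
    fun h => Subtype.ext (funext fun _ => h)
  have h := nodeRing.eq_zero_of_points M₁ (R := S) (fun _ => subset_rfl) hSS () hlev
    (act₁ (ρ.trace σ) - nodeRing.op M₁ S t) fun V _ _ _ _ _ _ _ _ _ hV f hf => by
      obtain ⟨L', _, hex, hnew, -⟩ :=
        nodeRing.exists_exactLevel M₁ (fun _ => subset_rfl) hSS hV f () hf
      rw [map_sub, sub_eq_zero]
      refine value_eq_trace_of_newformSystem (B := B) inputs hSS hpS
        (fun q hq hd => hlev q hq (hd.trans hex.dvd)) ρ hdet (f.comp act₁)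
        (isLocalHom_comp_of_finite act₁ f) hnew (fun ℓ hℓ A hA τ hτ => ?_) t htS hP hσ
      exact congrArg f (hinj ((hact _).trans ((hT ℓ hℓ A hA τ hτ).trans
        (nodeRing.proj_op M₁ () fun hS => hℓ (hSS hS)).symm)))
  rwa [map_sub, sub_eq_zero, hact, nodeRing.proj_op M₁ () htS] at h

namespace RaiseLevel

variable {F : RaiseFrames B}

theorem p_mem_Sk (k : ℕ) : p ∈ Q.Sk F k := by
  refine Finset.mem_union_left _ (Finset.mem_sdiff.2 ⟨Finset.mem_insert_self _ _, fun h => ?_⟩)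
  simp only [RaiseFrames.pending, Finset.mem_image] at h
  obtain ⟨i, -, hi⟩ := h
  exact F.q_ne _ hi

theorem not_mem_Sk_step (k : Fin F.m) : F.q (F.t k) ∉ Q.Sk F (k.castSucc : Fin (F.m + 1)) := by
  intro h
  rcases Finset.mem_union.1 h with h | h
  · refine (Finset.mem_sdiff.1 h).2 (Finset.mem_image.2 ⟨k, ?_, rfl⟩)
    simp
  · obtain ⟨i, hi⟩ := Q.mem_aux_iff.1 h
    refine Q.not_mem i ?_
    rw [hi]
    obtain ⟨-, hbad⟩ := (mem_raiseSites_iff hΔ).1 ((F.q_cover _).2 ⟨F.t k, rfl⟩) |>.2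
    exact Finset.mem_insert_of_mem (Finset.mem_union_left _ (Nat.mem_primeFactors.2
      ⟨F.q_prime _, Int.natCast_dvd.1 hbad, Int.natAbs_ne_zero.2 hΔ⟩))

end RaiseLevel

/-- **At a step the operator at the prime added is the trace of Frobenius**, for the map from the
universal ring to the ring of a family of nodes containing the lower node of the step. -/
theorem LevelRings.proj_trace_step {F : RaiseFrames B} (Rg : LevelRings F Q)
    (inputs : LocalInputs p) {J : Type} {Sf : J → Finset ℕ} {Levf : J → ℕ}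
    [∀ j, NeZero (Levf j)] {newf : J → Finset ℕ} {Df : J → ℕ}
    (M : ∀ j, NodeModel Q (Sf j) (Levf j) (newf j) (Df j))
    (φ : Rg.D.R →ₐ[O] nodeRing M Q.S')
    (hφ : ∀ (ℓ : ℕ) (hℓ : ℓ.Prime), ℓ ∉ Q.S' → ∀ P : ValuationSubring ℚ̄,
      P.LiesOverPrime ℓ → ∀ σ : Γℚ, P.IsFrobeniusAt σ ℓ →
        φ (matOf Rg.D.ρ.ρ Rg.b σ).trace = nodeRing.op M Q.S' ⟨ℓ, hℓ⟩)
    (k : Fin F.m) (j : J) (hS : Sf j = Q.Sk F (k.castSucc : Fin (F.m + 1)))
    (hlev : Levf j = Q.lev F (k.castSucc : Fin (F.m + 1))) :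
    nodeRing.proj M Q.S' j (φ (matOf Rg.D.ρ.ρ Rg.b (F.el (F.t k) 0)).trace) =
      (M j).op ⟨F.q (F.t k), F.q_prime _⟩ := by
  have htr : ∀ σ, Rg.D.ρ.trace σ = (matOf Rg.D.ρ.ρ Rg.b σ).trace := fun σ =>
    LinearMap.trace_eq_matrix_trace _ Rg.b _
  have hSS : Sf j ⊆ Q.S' := hS ▸ Q.Sk_subset F _
  rw [← htr]
  refine (M j).op_eq_trace inputs hSS (hS ▸ Q.p_mem_Sk _)
    (fun q hq hd => hS ▸ Q.mem_Sk_of_dvd F _ hq (hlev ▸ hd)) Rg.D.ρ Rg.D.isOfType.1
    ((nodeRing.proj M Q.S' j).comp φ) (fun x => ?_) (fun ℓ hℓ P hP σ hσ => ?_)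
    ⟨F.q (F.t k), F.q_prime _⟩ (hS ▸ Q.not_mem_Sk_step k) (F.T (F.t k)).hA (F.T (F.t k)).hF
  · let ev : (∀ i, Matrix (Fin (Df i)) (Fin (Df i)) Q.Λ) →ₐ[Q.Λ]
        Matrix (Fin (Df j)) (Fin (Df j)) Q.Λ :=
      Pi.evalAlgHom Q.Λ (fun i => Matrix (Fin (Df i)) (Fin (Df i)) Q.Λ) j
    have h : ev (φ x).1 ∈ (nodeRing M Q.S').map ev := Subalgebra.mem_map.2 ⟨_, (φ x).2, rfl⟩
    rw [show (nodeRing M Q.S').map ev = _ from AlgHom.map_adjoin ev _] at h
    refine Algebra.adjoin_mono ?_ h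
    rintro _ ⟨_, ⟨ℓ, hℓ, rfl⟩, rfl⟩
    exact ⟨ℓ, hℓ, rfl⟩
  · rw [AlgHom.comp_apply, htr, hφ (ℓ : ℕ) ℓ.2 hℓ P hP σ hσ]
    exact nodeRing.proj_op M j hℓ

end Fermat.Agent.Lifting.Raise

end
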