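import Fermat.Agent.Lifting.Raise.NodeFamily
import Fermat.Agent.Lifting.Patching.Raise.Node
import Fermat.Agent.RT.Assembly.LevelBuild

/-!
# The diamond elements at the auxiliary primes of a node

* `LevelRings.exists_auxElement`: at an auxiliary prime the universal representation has at a tame
  generator the eigenvalues `a, a'` with `a ^ p ^ e = 1`; `LevelRings.auxElem` is a choice of `a`.
* `LevelRings.aux_point`: at a node point the diamond operator is trivial exactly when `a` is.
* `RaiseLevel.auxChar`: the characters of order `p` of the group ring.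
* `NodeFamilyMap.old`, `NodeFamilyMap.new`: the conditions at every level and cokernel;
* `LevelRings.exists_diamondNode`: an action through an algebra whose points are node points
  satisfies the old and new conditions of the diamond trick.
-/

set_option autoImplicit false
set_option linter.unusedSectionVars false
set_option linter.style.haveILetI false

noncomputable section

open IsLocalRing Polynomial

namespace Fermat.Agent.Lifting.Raise

open RT.Diamond Patching
open RT (residueMat)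
open Deformation (Mat matOf mapRep matOf_apply isCont_matOf)

local notation "ℚ̄" => AlgebraicClosure ℚ
local notation "Γℚ" => (AlgebraicClosure ℚ ≃ₐ[ℚ] AlgebraicClosure ℚ)

variable {W : WeierstrassCurve ℤ} {hΔ : W.Δ ≠ 0} {p L : ℕ} [Fact p.Prime]
  {O : Type} [CommRing O] [IsDomain O] [IsDiscreteValuationRing O]
  [IsAdicComplete (maximalIdeal O) O] [Finite (ResidueField O)] [CharZero O]
  {B : RaiseData W hΔ p L O} {r n : ℕ} (Q : RaiseLevel B r n)

namespace RaiseLevel

theorem qv_ne_p (i : Fin r) : (Q.qv i : ℕ) ≠ p :=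
  ((not_mem_raiseExcluded_iff hΔ B.r₀_ne_zero (Q.qv i).2).1 (Q.not_mem i)).1

theorem qv_not_mem_sites (i : Fin r) : (Q.qv i : ℕ) ∉ raiseSites W p := fun h =>
  ((not_mem_raiseExcluded_iff hΔ B.r₀_ne_zero (Q.qv i).2).1 (Q.not_mem i)).2.1
    ((mem_raiseSites_iff hΔ).1 h).2.2

theorem qv_mem_auxSet (i : Fin r) : (Q.qv i : ℕ) ∈ Q.auxSet :=
  Finset.mem_union_left _ (Q.mem_aux_iff.2 ⟨i, rfl⟩)

/-- The residual representations are unramified at the auxiliary primes. -/
theorem raiseRep_inertia {k : Type} [Field k] [Finite k] (ι : ZMod p →+* k)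
    (i : Fin r) {A : ValuationSubring ℚ̄} (hA : A.LiesOverPrime (Q.qv i)) {τ : Γℚ}
    (hτ : τ ∈ A.inertiaSubgroupIn ℚ) : (raiseRep hΔ ι).ρ τ = 1 :=
  Minimal.torsRep_baseChange_isUnramifiedAt hΔ ι (fun A hA σ hσ x =>
    haveI := EC.Reducible.isElliptic_rat W hΔ
    Subtype.ext (EC.smul_eq_of_mem_inertia W A (Q.qv i).2 hA
      (fun h => Q.qv_not_mem_sites i ((mem_raiseSites_iff hΔ).2 ⟨(Q.qv i).2, Q.qv_ne_p i, h⟩)) hσ
      (fun h => Q.qv_ne_p i
        ((Nat.prime_dvd_prime_iff_eq (Q.qv i).2 (Fact.out : p.Prime)).1 h))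
      (EC.Reducible.nsmul_coe_eq_zero x))) A hA τ hτ

/-- A specialisation of the twist is ramified at an auxiliary prime exactly when it moves the
diamond operator. -/
theorem nontrivialAt_θ_iff {V : Type} [CommRing V] [Algebra O V] (ξ : Q.Λ →ₐ[O] V) (i : Fin r) :
    RT.Assembly.NontrivialAt (Q.θ.ringHomComp ξ.toRingHom) (Q.qv i) ↔
      ξ (delta O (N := ppow p Q.e) i) ≠ 1 := by
  rw [RaiseLevel.θ, RT.Assembly.nontrivialAt_tautTwist_iff Q.twistData squarefree_one 1
    ξ.toRingHom i]
  constructor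
  · rintro ⟨x, hx⟩ h1
    refine hx ?_
    have e : (Multiplicative.ofAdd (Pi.single i x) : Grp (ppow p Q.e)) = gen i ^ x.val := by
      apply Multiplicative.toAdd.injective
      funext j
      rcases eq_or_ne j i with rfl | hj
      · simp [gen]
      · simp [gen, hj]
    show ξ (MonoidAlgebra.of O (Grp (ppow p Q.e)) (Multiplicative.ofAdd (Pi.single i x))) = 1
    rw [e, map_pow, map_pow, show MonoidAlgebra.of O (Grp (ppow p Q.e)) (gen i) =
      delta O (N := ppow p Q.e) i from rfl, h1, one_pow]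
  · exact fun h => ⟨1, h⟩

theorem isPrimitiveRoot_pow_ppow {ζ : O} (hζ : IsPrimitiveRoot ζ p) (i k : Fin r) :
    (Pi.mulSingle i ζ : Fin r → O) k ^ ppow p Q.e k = 1 := by
  rcases eq_or_ne k i with rfl | hk
  · rw [Pi.mulSingle_eq_same]
    exact (hζ.pow_eq_one_iff_dvd _).2 (dvd_pow_self p (Q.pos_e k).ne')
  · rw [Pi.mulSingle_eq_of_ne hk, one_pow]

/-- The character of order `p` at the `i`-th auxiliary prime. -/
def auxChar {ζ : O} (hζ : IsPrimitiveRoot ζ p) (i : Fin r) : Q.Λ →ₐ[O] O :=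
  MonoidAlgebra.lift O O (Grp (ppow p Q.e))
    (homOf (Pi.mulSingle i ζ) (Q.isPrimitiveRoot_pow_ppow hζ i))

theorem auxChar_delta {ζ : O} (hζ : IsPrimitiveRoot ζ p) (i : Fin r) :
    Q.auxChar hζ i (delta O (N := ppow p Q.e) i) = ζ := by
  show MonoidAlgebra.lift O O _ _ (MonoidAlgebra.of O _ (gen i)) = ζ
  rw [MonoidAlgebra.lift_of, homOf_gen, Pi.mulSingle_eq_same]

end RaiseLevel

namespace LevelRings

variable {Q} {F : RaiseFrames B} (R : LevelRings F Q)

/-- At an auxiliary prime: a tame pair and the diagonal character at its generator. -/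
theorem exists_auxElement (i : Fin r) :
    ∃ (T : RT.TamePair p (Q.qv i)) (a a' : R.D.R), a ^ p ^ Q.e i = 1 ∧
      (matOf R.D.ρ.ρ R.b T.σ).trace = a + a' ∧ a * a' = 1 := by
  have hp : p.Prime := Fact.out
  have hqp := Q.qv_ne_p i
  have hq := (Q.qv i).2
  obtain ⟨A, -, hA, -⟩ := Galois.exists_valuationSubring_isFrobeniusAt hq
  obtain ⟨T, rfl⟩ := RT.exists_tamePair hp hq hqp.symm A hA
  let ι := ResidueField.map (algebraMap O R.D.R)
  have hmat : ∀ τ, (matOf R.D.ρ.ρ R.b τ).map (residue R.D.R) =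
      (matOf (raiseRep hΔ B.ι).ρ F.bbar τ).map ι :=
    fun τ => DFunLike.congr_fun R.residueMat_eq τ
  have hI : ∀ τ ∈ T.A.inertiaSubgroupIn ℚ, (matOf R.D.ρ.ρ R.b τ).map (residue R.D.R) = 1 := by
    intro τ hτ
    rw [hmat, (RT.matOf_eq_one_iff (raiseRep hΔ B.ι).ρ F.bbar τ).2
      (Q.raiseRep_inertia B.ι i T.hA hτ), Matrix.map_one _ (map_zero _) (map_one _)]
  have hdvd : p ∣ (Q.qv i : ℕ) - 1 := (dvd_pow_self p (Q.pos_e i).ne').trans (Q.dvd_sub i)
  have hpR : (p : R.D.R) ∈ maximalIdeal R.D.R := by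
    simpa using map_nonunit (algebraMap O R.D.R) _ B.hpO
  have hcp : (matOf (raiseRep hΔ B.ι).ρ F.bbar T.F).charpoly =
      X ^ 2 - C (B.a (Q.qv i)) * X + C ((Q.qv i : ℕ) : ResidueField O) := by
    rw [matOf_apply, LinearMap.charpoly_toMatrix,
      B.charpoly_frob _ hq (Q.not_mem i) T.A T.hA T.F T.hF]
    rfl
  have hqk : ((Q.qv i : ℕ) : ResidueField O) = 1 := by
    obtain ⟨d, hd⟩ := hdvd
    rw [show (Q.qv i : ℕ) = p * d + 1 by have := hq.two_le; omega, Nat.cast_add, Nat.cast_mul,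
      ← map_natCast (residue O) p, (residue_eq_zero_iff _).2 B.hpO, zero_mul, zero_add,
      Nat.cast_one]
  have hdet0 : (matOf (raiseRep hΔ B.ι).ρ F.bbar T.F).det = 1 := by
    rw [Matrix.det_eq_sign_charpoly_coeff, hcp]
    simp [hqk, coeff_X_pow, coeff_one]
  have hα0 : Q.α i ≠ 0 := fun h => one_ne_zero (α := ResidueField O) (by
    simpa [h] using Q.root i)
  have htrR : ι (Q.α i) + ι (Q.α i)⁻¹ = residue R.D.R (matOf R.D.ρ.ρ R.b T.F).trace := by
    rw [← map_add, show residue R.D.R (matOf R.D.ρ.ρ R.b T.F).trace =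
      ((matOf R.D.ρ.ρ R.b T.F).map (residue R.D.R)).trace from
      AddMonoidHom.map_trace (residue R.D.R).toAddMonoidHom _, hmat]
    refine (congrArg ι ?_).trans (AddMonoidHom.map_trace ι.toAddMonoidHom _)
    rw [RT.Assembly.trace_of_charpoly hcp]
    field_simp
    linear_combination Q.root i
  have hdR : ι (Q.α i) * ι (Q.α i)⁻¹ = residue R.D.R (matOf R.D.ρ.ρ R.b T.F).det := by
    rw [← map_mul, mul_inv_cancel₀ hα0, RingHom.map_det, RingHom.mapMatrix_apply, hmat,
      ← RingHom.mapMatrix_apply, ← RingHom.map_det, hdet0]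
  obtain ⟨u, χ₁, χ₂, hdiag, -, -, hσ⟩ := T.exists_diagonal hp hq hqp.symm hdvd hpR
    (isCont_matOf R.D.ρ R.b) hI
    (fun h => Q.distinct i (by nth_rw 2 [ι.injective h]; exact mul_inv_cancel₀ hα0)) htrR hdR
  let σ' : T.A.decompositionSubgroup ℚ :=
    ⟨T.σ, EC.Mult.mem_decompositionSubgroup_of_mem_inertia T.hσ⟩
  obtain ⟨hpow, -, hres1, -⟩ := hσ σ' rfl
  refine ⟨T, χ₁ σ', χ₂ σ', ?_, ?_, ?_⟩
  · obtain ⟨k, hk⟩ := Q.dvd_sub i
    refine RT.Assembly.eq_one_of_pow_eq_one (k := k) (by rw [map_pow, hres1, one_pow])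
      (fun h0 => ?_) ?_
    · have hchar : CharP (ResidueField R.D.R) p := (CharP.charP_iff_prime_eq_zero hp).2 (by
        rw [← map_natCast (residue R.D.R), residue_eq_zero_iff]; exact hpR)
      obtain ⟨d, hd⟩ := (CharP.cast_eq_zero_iff (ResidueField R.D.R) p k).1 h0
      exact Q.e_max i ⟨d, by rw [hk, hd, pow_succ, mul_assoc]⟩
    · rw [← pow_mul, ← hk, ← Units.val_pow_eq_pow_val, hpow, Units.val_one]
  · rw [← Matrix.trace_units_conj' u, hdiag σ', Matrix.trace_diagonal, Fin.sum_univ_two]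
    rfl
  · have h := congrArg Matrix.det (hdiag σ')
    rw [Matrix.det_units_conj', Matrix.det_diagonal, Fin.prod_univ_two, matOf_apply,
      LinearMap.det_toMatrix] at h
    exact h.symm.trans (RT.det_eq_one_of_mem_inertia R.D.isOfType.1 hp hq hqp.symm T.hA T.hσ)

/-- A tame pair at an auxiliary prime. -/
def auxPair (i : Fin r) : RT.TamePair p (Q.qv i) := (R.exists_auxElement i).choose

/-- The diamond element at an auxiliary prime. -/
def auxElem (i : Fin r) : R.D.R := (R.exists_auxElement i).choose_spec.choose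

/-- Its inverse. -/
def auxElem' (i : Fin r) : R.D.R := (R.exists_auxElement i).choose_spec.choose_spec.choose

theorem auxElem_pow (i : Fin r) : R.auxElem i ^ p ^ Q.e i = 1 :=
  (R.exists_auxElement i).choose_spec.choose_spec.choose_spec.1

theorem auxElem_trace (i : Fin r) :
    (matOf R.D.ρ.ρ R.b (R.auxPair i).σ).trace = R.auxElem i + R.auxElem' i :=
  (R.exists_auxElement i).choose_spec.choose_spec.choose_spec.2.1

theorem auxElem_mul (i : Fin r) : R.auxElem i * R.auxElem' i = 1 :=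
  (R.exists_auxElement i).choose_spec.choose_spec.choose_spec.2.2

/-- The diamond element at a node point: trivial exactly with the diamond operator. -/
theorem aux_point {V : Type} [CommRing V] [IsDomain V] [IsDiscreteValuationRing V]
    [IsAdicComplete (maximalIdeal V) V] [Finite (ResidueField V)] [CharZero V] [Algebra O V]
    [IsLocalHom (algebraMap O V)] (g : R.D.R →ₐ[O] V) {ξ : Q.Λ →ₐ[O] V} {L₁ L' : ℕ}
    {c : Nat.Primes → V} {ρV : GaloisRepAdic V}
    (hρ : IsNodePoint p Q.S' (raiseSites W p) Q.auxSet (Q.θ.ringHomComp ξ.toRingHom) L₁ L' c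
      (RaiseLevel.rhoAt B V) ρV)
    (hch : ∀ τ, LinearMap.charpoly (ρV.ρ τ) =
      (LinearMap.charpoly (R.D.ρ.ρ τ)).map (g : R.D.R →+* V))
    {i : Fin r} (T : RT.TamePair p (Q.qv i)) {a a' : R.D.R}
    (ht : (matOf R.D.ρ.ρ R.b T.σ).trace = a + a') (hd : a * a' = 1) :
    ξ (delta O (N := ppow p Q.e) i) = 1 ↔ g a = 1 := by
  have hp : p.Prime := Fact.out
  have hqp := Q.qv_ne_p i
  have hq := (Q.qv i).2
  have bV : Module.Basis (Fin 2) V ρV.V := Module.finBasisOfFinrankEq V ρV.V ρV.finrank_eq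
  have htrV : (matOf ρV.ρ bV T.σ).trace = g a + g a' := by
    rw [(RT.Assembly.matrix_eq_of_charpoly_eq (show (matOf ρV.ρ bV T.σ).charpoly =
      ((matOf R.D.ρ.ρ R.b T.σ).map (g : R.D.R →+* V)).charpoly by
        rw [RT.Assembly.matrix_charpoly_matOf, hch, Matrix.charpoly_map,
          RT.Assembly.matrix_charpoly_matOf])).1, ← map_add, ← ht]
    exact (AddMonoidHom.map_trace (g : R.D.R →+* V).toAddMonoidHom _).symm
  have hga : g a * g a' = 1 := by rw [← map_mul, hd, map_one]
  constructor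
  · intro h
    have h2 := T.trace_eq_two ρV bV (hρ.aux_trivial _ (Q.qv_mem_auxSet i) hq
      fun hnt => (Q.nontrivialAt_θ_iff ξ i).1 hnt h)
    rw [htrV] at h2
    exact sub_eq_zero.1 (pow_eq_zero_iff two_ne_zero |>.1
      (show (g a - 1) ^ 2 = 0 by linear_combination (g a) * h2 - hga))
  · intro h
    by_contra hne
    rw [h, one_mul] at hga
    obtain ⟨σ, hσ, hσne⟩ := hρ.aux_nontrivial _ (Q.qv_mem_auxSet i) hq
      ((Q.nontrivialAt_θ_iff ξ i).2 hne) T.A T.hA
    refine hσne ?_
    rw [← RT.Assembly.matrix_charpoly_matOf ρV bV]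
    refine T.charpoly_inertia_of_trace hp hq hqp.symm
      (by simpa using map_nonunit (algebraMap O V) _ B.hpO) (isCont_matOf ρV bV)
      (RT.isResTame_matOf ρV bV fun τ hτ => ⟨0, RT.pow_eq_one_of_isEquiv hρ.residual_isEquiv (by
        rw [Q.raiseRep_inertia _ i T.hA hτ, one_pow])⟩) (fun τ hτ => ?_) ?_ T.hA hσ
    · rw [matOf_apply, LinearMap.det_toMatrix]
      exact RT.det_eq_one_of_mem_inertia hρ.det hp hq hqp.symm T.hA hτ
    · rw [htrV, h, hga, one_add_one_eq_two]

end LevelRings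

/-- An action by matrices over the group ring with the old and new conditions, as a node of the
diamond trick. -/
def diamondNodeOfMatrix {e : Fin r → ℕ} {A : Type} [CommRing A] [Algebra O A] {a : Fin r → A}
    {χ : Fin r → (Alg O (ppow p e) →ₐ[O] O)} {D : ℕ}
    (π : A →ₐ[O] Matrix (Fin D) (Fin D) (Alg O (ppow p e)))
    (hold : ∀ i k l, (π (a i) - 1) k l ∈ Ideal.span {delta O (N := ppow p e) i - 1})
    (hnew : ∀ i, ((π (a i) - 1).map (χ i)).det ≠ 0) : DiamondNode A a χ D where
  ρ := ((Matrix.toLinAlgEquiv' (R := Alg O (ppow p e)) (n := Fin D)).toAlgHom.restrictScalars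
    O).comp π
  old i v := by
    choose C hC using fun k l => Ideal.mem_span_singleton.1 (hold i k l)
    refine ⟨(Matrix.of C).mulVec v, ?_⟩
    show (π (a i)).mulVec v - v = _
    rw [← Matrix.smul_mulVec, show (delta O (N := ppow p e) i - 1) • Matrix.of C = π (a i) - 1 from
      Matrix.ext fun k l => (hC k l).symm, Matrix.sub_mulVec, Matrix.one_mulVec]
  new i v hv := by
    rw [RT.Assembly.mem_ker_smul_top_iff] at hv ⊢
    by_contra hne
    refine hnew i (Matrix.exists_mulVec_eq_zero_iff.1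
      ⟨fun k => χ i (v k), fun h => hne fun k => congrFun h k, funext fun k => ?_⟩)
    have h := hv k
    rw [Pi.zero_apply, ← h]
    refine ((χ i).toRingHom.map_mulVec _ v k).symm.trans (congrArg (χ i) ?_)
    rw [Matrix.sub_mulVec, Matrix.one_mulVec]
    rfl

theorem diamondNodeOfMatrix_apply {e : Fin r → ℕ} {A : Type} [CommRing A] [Algebra O A]
    {a : Fin r → A} {χ : Fin r → (Alg O (ppow p e) →ₐ[O] O)} {D : ℕ}
    (π : A →ₐ[O] Matrix (Fin D) (Fin D) (Alg O (ppow p e)))
    (hold : ∀ i k l, (π (a i) - 1) k l ∈ Ideal.span {delta O (N := ppow p e) i - 1})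
    (hnew : ∀ i, ((π (a i) - 1).map (χ i)).det ≠ 0) (f : A) (v : Fin D → Alg O (ppow p e)) :
    (diamondNodeOfMatrix π hold hnew).ρ f v = (π f).mulVec v := rfl

section Points

variable {T : Type} [CommRing T] [Algebra O T] [Module.Finite O T] {e : Fin r → ℕ} {D : ℕ}

/-- A singular specialisation of a component gives a point through it. -/
theorem exists_point_of_det_eq_zero
    (proj : T →ₐ[O] Matrix (Fin D) (Fin D) (Alg O (ppow p e))) (lam : Alg O (ppow p e) →ₐ[O] T)
    (hlam : ∀ c, proj (lam c) = Matrix.scalar (Fin D) c) (χ : Alg O (ppow p e) →ₐ[O] O) (y : T)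
    (hy : ((proj y).map χ).det = 0) :
    ∃ (V : Type) (_ : CommRing V) (_ : IsDomain V) (_ : IsDiscreteValuationRing V)
      (_ : IsAdicComplete (maximalIdeal V) V) (_ : Finite (ResidueField V)) (_ : CharZero V)
      (_ : Algebra O V) (_ : Module.Finite O V) (_ : IsLocalHom (algebraMap O V)),
      Function.Injective (algebraMap O V) ∧ ∃ f : T →ₐ[O] V,
        RingHom.ker proj ≤ RingHom.ker f ∧ f y = 0 ∧ ∀ c, f (lam c) = algebraMap O V (χ c) := by
  classical
  obtain ⟨w, hw, hyw⟩ := Matrix.exists_mulVec_eq_zero_iff.2 hy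
  let spec : T →ₐ[O] Matrix (Fin D) (Fin D) O := χ.mapMatrix.comp proj
  let J : Ideal T :=
    { carrier := {t | (spec t).mulVec w = 0}
      add_mem' := fun {a b} ha hb => by
        simp only [Set.mem_setOf_eq, map_add, Matrix.add_mulVec] at ha hb ⊢
        rw [ha, hb, add_zero]
      zero_mem' := by simp
      smul_mem' := fun c a ha => by
        simp only [Set.mem_setOf_eq, smul_eq_mul, map_mul] at ha ⊢
        rw [← Matrix.mulVec_mulVec, ha, Matrix.mulVec_zero] }
  have hdisj : Disjoint (J : Set T) ((nonZeroDivisors O).map (algebraMap O T) : Set T) := by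
    rw [Set.disjoint_left]
    rintro _ h1 ⟨o, ho, rfl⟩
    change (spec (algebraMap O T o)).mulVec w = 0 at h1
    rw [AlgHom.commutes, Algebra.algebraMap_eq_smul_one, Matrix.smul_mulVec,
      Matrix.one_mulVec] at h1
    exact hw ((smul_eq_zero.1 h1).resolve_left (nonZeroDivisors.ne_zero ho))
  obtain ⟨P, hP, hJP, hdis⟩ := Ideal.exists_le_prime_disjoint J _ hdisj
  have hP0 : ∀ o : O, algebraMap O T o ∈ P → o = 0 := fun o ho => by_contra fun hne =>
    Set.disjoint_left.1 hdis ho ⟨o, mem_nonZeroDivisors_of_ne_zero hne, rfl⟩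
  obtain ⟨V, iV₁, iV₂, iV₃, iV₄, iV₅, iV₆, iV₇, iV₈, iV₉, hinj, f, hf⟩ :=
    EichlerShimura.exists_finiteDVR_extension O T P hP0
  refine ⟨V, iV₁, iV₂, iV₃, iV₄, iV₅, iV₆, iV₇, iV₈, iV₉, hinj, f, fun t ht => ?_, ?_, fun c => ?_⟩
  · refine hf ▸ hJP ?_
    show (spec t).mulVec w = 0
    rw [show spec t = χ.mapMatrix (proj t) from rfl, RingHom.mem_ker.1 ht, map_zero,
      Matrix.zero_mulVec]
  · exact RingHom.mem_ker.1 (hf ▸ hJP hyw)
  · rw [← f.commutes, ← sub_eq_zero, ← map_sub]
    refine RingHom.mem_ker.1 (hf ▸ hJP ?_)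
    show (spec (lam c - algebraMap O T (χ c))).mulVec w = 0
    have e1 : spec (lam c) = algebraMap O (Matrix (Fin D) (Fin D) O) (χ c) := by
      show χ.mapMatrix (proj (lam c)) = _
      rw [hlam, Matrix.scalar_apply, AlgHom.mapMatrix_apply, Matrix.diagonal_map (map_zero χ)]
      rfl
    rw [map_sub, AlgHom.commutes, e1, sub_self, Matrix.zero_mulVec]

variable {Q} {F : RaiseFrames B} (R : LevelRings F Q)

/-- **The diamond node of a component**: `R` acts through a finite algebra whose points through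
the component are node points at which the representation is that of `R`. -/
theorem LevelRings.exists_diamondNode {ζ : O} (hζ : IsPrimitiveRoot ζ p)
    (proj : T →ₐ[O] Matrix (Fin D) (Fin D) Q.Λ) (lam : Q.Λ →ₐ[O] T)
    (hlam : ∀ c, proj (lam c) = Matrix.scalar (Fin D) c) (φ : R.D.R →ₐ[O] T)
    (hzero : ∀ x : T, (∀ (V : Type) [CommRing V] [IsDomain V] [IsDiscreteValuationRing V]
      [IsAdicComplete (maximalIdeal V) V] [Finite (ResidueField V)] [CharZero V] [Algebra O V]
      [Module.Finite O V] [IsLocalHom (algebraMap O V)], Function.Injective (algebraMap O V) →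
      ∀ f : T →ₐ[O] V, RingHom.ker proj ≤ RingHom.ker f → f x = 0) → proj x = 0)
    (hpt : ∀ (V : Type) [CommRing V] [IsDomain V] [IsDiscreteValuationRing V]
      [IsAdicComplete (maximalIdeal V) V] [Finite (ResidueField V)] [CharZero V] [Algebra O V]
      [Module.Finite O V] [IsLocalHom (algebraMap O V)], Function.Injective (algebraMap O V) →
      ∀ f : T →ₐ[O] V, RingHom.ker proj ≤ RingHom.ker f →
        ∃ (L₁ L' : ℕ) (c : Nat.Primes → V) (ρV : GaloisRepAdic V),
          IsNodePoint p Q.S' (raiseSites W p) Q.auxSet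
            (Q.θ.ringHomComp (f.comp lam).toRingHom) L₁ L' c (RaiseLevel.rhoAt B V) ρV ∧
          ∀ τ, LinearMap.charpoly (ρV.ρ τ) =
            (LinearMap.charpoly (R.D.ρ.ρ τ)).map (f.comp φ : R.D.R →+* V)) :
    ∃ N : DiamondNode R.D.R R.auxElem (Q.auxChar hζ) D,
      ∀ x v, N.ρ x v = (proj (φ x)).mulVec v := by
  have hp : p.Prime := Fact.out
  have hiff : ∀ (V : Type) [CommRing V] [IsDomain V] [IsDiscreteValuationRing V]
      [IsAdicComplete (maximalIdeal V) V] [Finite (ResidueField V)] [CharZero V] [Algebra O V]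
      [Module.Finite O V] [IsLocalHom (algebraMap O V)], Function.Injective (algebraMap O V) →
      ∀ f : T →ₐ[O] V, RingHom.ker proj ≤ RingHom.ker f → ∀ i,
        f (lam (delta O (N := ppow p Q.e) i)) = 1 ↔ f (φ (R.auxElem i)) = 1 := by
    intro V _ _ _ _ _ _ _ _ _ hinj f hf i
    obtain ⟨L₁, L', c, ρV, hρ, hch⟩ := hpt V hinj f hf
    exact R.aux_point (f.comp φ) hρ hch (R.auxPair i) (R.auxElem_trace i) (R.auxElem_mul i)
  have hold : ∀ i k l, ((proj.comp φ) (R.auxElem i) - 1) k l ∈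
      Ideal.span {delta O (N := ppow p Q.e) i - 1} := fun i k l => by
    have h0 : proj (lam (RT.Assembly.deltaNorm O (ppow p Q.e) i) * (φ (R.auxElem i) - 1)) = 0 := by
      refine hzero _ fun V _ _ _ _ _ _ _ _ _ hinj f hf => ?_
      rw [map_mul, map_sub, map_one]
      by_cases h1 : f (lam (delta O (N := ppow p Q.e) i)) = 1
      · exact mul_eq_zero_of_right _ (sub_eq_zero.2 ((hiff V hinj f hf i).1 h1))
      · refine mul_eq_zero_of_left ?_ _
        have h := congrArg (fun c => f (lam c))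
          (RT.Assembly.delta_mul_deltaNorm (O := O) (N := ppow p Q.e) i)
        rw [map_mul, map_mul] at h
        exact (mul_left_eq_self₀.1 h).resolve_left h1
    rw [map_mul, hlam, map_sub, map_one] at h0
    refine RT.Assembly.mem_span_delta_sub_one i ?_
    have h := congrFun (congrFun h0 k) l
    rwa [Matrix.scalar_apply, Matrix.diagonal_mul] at h
  refine ⟨diamondNodeOfMatrix (proj.comp φ) hold fun i hdet => ?_, fun x v => rfl⟩
  obtain ⟨V, _, _, _, _, _, _, _, _, _, hinj, f, hf, hfy, hflam⟩ :=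
    exists_point_of_det_eq_zero proj lam hlam (Q.auxChar hζ i) (φ (R.auxElem i) - 1)
      (by rw [map_sub, map_one]; exact hdet)
  rw [map_sub, map_one, sub_eq_zero] at hfy
  have h1 := (hiff V hinj f hf i).2 hfy
  rw [hflam, Q.auxChar_delta hζ i] at h1
  exact hζ.ne_one hp.one_lt (hinj (h1.trans (map_one _).symm))

/-- **The diamond node of a component of a ring of nodes** with its map from the universal ring. -/
theorem LevelRings.exists_diamondNode_of_systems [IsLocalRing T] [IsLocalHom (algebraMap O T)]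
    (hS29 : RT.EigenformResidualRep) (inputs : RT.Assembly.LocalInputs p)
    (hso : RT.Assembly.StrictOrdinaryOfNewform p) (htres : TresPrimeInLevel)
    (hW : W.IsSemistableModel) (hirr : W.ModRepIsIrreducible p) (hb : IsRaisingBase W p L)
    {ζ : O} (hζ : IsPrimitiveRoot ζ p)
    (proj : T →ₐ[O] Matrix (Fin D) (Fin D) Q.Λ) (lam : Q.Λ →ₐ[O] T)
    (hlam : ∀ c, proj (lam c) = Matrix.scalar (Fin D) c) (φ : R.D.R →ₐ[O] T)
    (op : Nat.Primes → T)
    (hT : ∀ ℓ : Nat.Primes, (ℓ : ℕ) ∉ Q.S' →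
      residue T (op ℓ) = ResidueField.map (algebraMap O T) (B.a ℓ))
    (hφ : ∀ (V : Type) [CommRing V] [IsDomain V] [IsDiscreteValuationRing V]
      [IsAdicComplete (maximalIdeal V) V] [Finite (ResidueField V)] [CharZero V] [Algebra O V]
      [IsLocalHom (algebraMap O V)],
      ∀ (f : T →ₐ[O] V) (ρV : GaloisRepAdic V), ρV.residual.IsAbsolutelyIrreducible →
        Rings.HasFrobenius ρV Q.S' (fun ℓ => f (op ℓ)) →
        ∃ hf : IsLocalHom (f.comp φ : R.D.R →+* V),
          (R.D.ρ.baseChangeAlong (f.comp φ : R.D.R →+* V) hf).IsEquiv ρV)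
    (hzero : ∀ x : T, (∀ (V : Type) [CommRing V] [IsDomain V] [IsDiscreteValuationRing V]
      [IsAdicComplete (maximalIdeal V) V] [Finite (ResidueField V)] [CharZero V] [Algebra O V]
      [Module.Finite O V] [IsLocalHom (algebraMap O V)], Function.Injective (algebraMap O V) →
      ∀ f : T →ₐ[O] V, RingHom.ker proj ≤ RingHom.ker f → f x = 0) → proj x = 0)
    (hsys : ∀ (V : Type) [CommRing V] [IsDomain V] [IsDiscreteValuationRing V]
      [IsAdicComplete (maximalIdeal V) V] [Finite (ResidueField V)] [CharZero V] [Algebra O V]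
      [IsLocalHom (algebraMap O V)], Function.Injective (algebraMap O V) →
      ∀ f : T →ₐ[O] V, RingHom.ker proj ≤ RingHom.ker f →
        ∃ k : ℕ, Q.IsNodeSystem F k (f.comp lam) fun ℓ => f (op ℓ)) :
    ∃ N : DiamondNode R.D.R R.auxElem (Q.auxChar hζ) D,
      ∀ x v, N.ρ x v = (proj (φ x)).mulVec v := by
  refine R.exists_diamondNode hζ proj lam hlam φ hzero fun V _ _ _ _ _ _ _ _ _ hinj f hf => ?_
  obtain ⟨k, S, L', _, hS, hex, hnew, hnewAt⟩ := hsys V hinj f hf
  obtain ⟨-, -, ρV, hρ, -⟩ := Q.exists_nodePoint F hS29 inputs hso htres hW hirr hb k (f.comp lam)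
    _ (Q.residue_point hT f) hS hex hnew hnewAt
  obtain ⟨hloc, he⟩ := hφ V f ρV hρ.residual_absIrr hρ.charpoly_frob
  refine ⟨Q.lev F k, L', _, ρV, hρ, fun τ => ?_⟩
  exact (Density.adic_charpoly_eq_of_isEquiv he τ).trans
    (RT.charpoly_adic_baseChangeAlong _ hloc R.D.ρ τ)

end Points

namespace NodeFamilyMap

variable {Q} {F : RaiseFrames B} {DM : Fin (F.m + 1) → ℕ} {DC : Fin F.m → ℕ}
  {M : LevelModels F Q DM DC} {R : LevelRings F Q} (N : NodeFamilyMap M R.D)

/-- **The old and new conditions at every node**, levels and cokernels. -/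
theorem exists_diamondNode (hS29 : RT.EigenformResidualRep) (inputs : RT.Assembly.LocalInputs p)
    (hso : RT.Assembly.StrictOrdinaryOfNewform p) (htres : TresPrimeInLevel)
    (hW : W.IsSemistableModel) (hirr : W.ModRepIsIrreducible p) (hb : IsRaisingBase W p L)
    {ζ : O} (hζ : IsPrimitiveRoot ζ p) (j : FamIdx F) :
    ∃ X : DiamondNode R.D.R R.auxElem (Q.auxChar hζ) (famDim DM DC j),
      ∀ x v, X.ρ x v = (N.act j x).mulVec v := by
  haveI := N.isLocalRing
  exact R.exists_diamondNode_of_systems hS29 inputs hso htres hW hirr hb hζ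
    (nodeRing.proj (famModel M) Q.S' j) (nodeRing.lam (famModel M) Q.S')
    (nodeRing.proj_lam (R := Q.S') (famModel M) j) N.φ (nodeRing.op (famModel M) Q.S')
    (op_residue (M := M)) N.point
    (fun x hx => nodeRing.eq_zero_of_points (famModel M) famS_subset (Finset.Subset.refl _) j
      (famLev_mem j) x hx)
    fun V _ _ _ _ _ _ _ _ hinj f hf => ⟨_, famRing_system M hinj f j hf⟩

theorem old (hS29 : RT.EigenformResidualRep) (inputs : RT.Assembly.LocalInputs p)
    (hso : RT.Assembly.StrictOrdinaryOfNewform p) (htres : TresPrimeInLevel)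
    (hW : W.IsSemistableModel) (hirr : W.ModRepIsIrreducible p) (hb : IsRaisingBase W p L)
    {ζ : O} (hζ : IsPrimitiveRoot ζ p) (j : FamIdx F) (i : Fin r)
    (v : Fin (famDim DM DC j) → Q.Λ) :
    ∃ w : Fin (famDim DM DC j) → Q.Λ,
      (N.act j (R.auxElem i)).mulVec v - v = (delta O (N := ppow p Q.e) i - 1) • w := by
  obtain ⟨X, hX⟩ := N.exists_diamondNode hS29 inputs hso htres hW hirr hb hζ j
  rw [← hX]
  exact X.old i v

theorem new (hS29 : RT.EigenformResidualRep) (inputs : RT.Assembly.LocalInputs p)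
    (hso : RT.Assembly.StrictOrdinaryOfNewform p) (htres : TresPrimeInLevel)
    (hW : W.IsSemistableModel) (hirr : W.ModRepIsIrreducible p) (hb : IsRaisingBase W p L)
    {ζ : O} (hζ : IsPrimitiveRoot ζ p) (j : FamIdx F) (i : Fin r)
    (v : Fin (famDim DM DC j) → Q.Λ)
    (hv : (N.act j (R.auxElem i)).mulVec v - v ∈
      RingHom.ker (Q.auxChar hζ i) • (⊤ : Submodule Q.Λ (Fin (famDim DM DC j) → Q.Λ))) :
    v ∈ RingHom.ker (Q.auxChar hζ i) • (⊤ : Submodule Q.Λ (Fin (famDim DM DC j) → Q.Λ)) := by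
  obtain ⟨X, hX⟩ := N.exists_diamondNode hS29 inputs hso htres hW hirr hb hζ j
  rw [← hX] at hv
  exact X.new i v hv

end NodeFamilyMap

end Fermat.Agent.Lifting.Raise

end
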