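import Fermat.Agent.Lifting.Raise.NodePoints
import Fermat.Agent.Lifting.Rings.PointsRep

/-!
# The representation over a ring of the nodes and the map from the universal ring

* `IsNodeSystem`, `IsFlatSystem`: eigen systems of a node, of a node without `p`.
* `exists_ringRep`: over a finite reduced local algebra all of whose points are systems of nodes
  there is a representation of the type `raiseCond`, and the universal ring maps to the algebra,
  Frobenius traces going to the Hecke operators.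
* `exists_flatRep`: the same for nodes without `p`, with a flat representation.
-/

set_option autoImplicit false
set_option linter.style.haveILetI false

noncomputable section

open IsLocalRing Polynomial

namespace Fermat.Agent.Lifting.Raise

open RT.Diamond
open RT.Assembly (IsExactLevel IsNewformSystem LocalInputs StrictOrdinaryOfNewform)
open Rings (HasFrobenius nodeCond)
open Deformation (Mat matOf)

local notation "ℚ̄" => AlgebraicClosure ℚ
local notation "Γℚ" => (AlgebraicClosure ℚ ≃ₐ[ℚ] AlgebraicClosure ℚ)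

variable {W : WeierstrassCurve ℤ} {hΔ : W.Δ ≠ 0} {p L : ℕ} [Fact p.Prime]
  {O : Type} [CommRing O] [IsDomain O] [IsDiscreteValuationRing O]
  [IsAdicComplete (maximalIdeal O) O] [Finite (ResidueField O)] [CharZero O]
  {B : RaiseData W hΔ p L O} {r n : ℕ} (Q : RaiseLevel B r n) (F : RaiseFrames B)

namespace RaiseLevel

section Systems

variable {V : Type} [CommRing V] [Algebra O V]

/-- An eigen system of node `k`. -/
def IsNodeSystem (k : ℕ) (ξ : Q.Λ →ₐ[O] V) (c : Nat.Primes → V) : Prop :=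
  ∃ (S : Finset ℕ) (L' : ℕ) (_ : NeZero L'), S ⊆ Q.S' ∧
    IsExactLevel (Q.θ.ringHomComp ξ.toRingHom) S c (Q.lev F k) L' ∧ IsNewformSystem S L' c ∧
    ∀ q ∈ nodeNew W p L, q ∣ L'

/-- An eigen system of node `k` without `p`. -/
def IsFlatSystem (k : ℕ) (ξ : Q.Λ →ₐ[O] V) (c : Nat.Primes → V) : Prop :=
  ∃ (S : Finset ℕ) (L' : ℕ) (_ : NeZero L'), S ⊆ Q.S' ∧
    IsExactLevel (Q.θ.ringHomComp ξ.toRingHom) S c (Q.levOff F k) L' ∧ IsNewformSystem S L' c

end Systems

theorem levOff_dvd_lev (k : ℕ) : Q.levOff F k ∣ Q.lev F k := by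
  refine Nat.mul_dvd_mul_right (Nat.mul_dvd_mul_right (Nat.mul_dvd_mul_right ?_ _) _) _
  split_ifs with h
  exacts [Nat.div_dvd_of_dvd h, dvd_rfl]

theorem not_dvd_levOff (hpL : p ∣ L) (k : ℕ) : ¬ p ∣ Q.levOff F k := by
  have hp : p.Prime := Fact.out
  intro hd
  rw [levOff, if_pos hpL] at hd
  rcases hp.dvd_mul.1 hd with hd | hd
  · rcases hp.dvd_mul.1 hd with hd | hd
    · rcases hp.dvd_mul.1 hd with hd | hd
      · obtain ⟨c, hc⟩ := hd
        have h2 : p * p ∣ L * B.r₀ :=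
          (Dvd.intro c (by rw [mul_assoc, ← hc, Nat.mul_div_cancel' hpL])).mul_right _
        exact hp.ne_one (Nat.isUnit_iff.1 (B.squarefree p h2))
      · exact (B.aux p hp hd).1 rfl
    · obtain ⟨x, hx, hpx⟩ := (Prime.dvd_finsetProd_iff hp.prime _).1 hd
      obtain rfl := (Nat.prime_dvd_prime_iff_eq hp (F.added_prime hx)).1 hpx
      exact ((mem_raiseSites_iff hΔ).1 (mem_raiseSites_of_mem_added F hx)).2.1 rfl
  · obtain ⟨i, -, hi⟩ := (Prime.dvd_finsetProd_iff hp.prime _).1 hd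
    have e := (Nat.prime_dvd_prime_iff_eq hp (Q.qv i).2).1 hi
    exact Q.not_mem i (by rw [← e]; exact Finset.mem_insert_self _ _)

section Points

variable {V : Type} [CommRing V] [IsDomain V] [IsDiscreteValuationRing V] [Algebra O V]
  [IsLocalHom (algebraMap O V)] [IsAdicComplete (maximalIdeal V) V] [Finite (ResidueField V)]
  [CharZero V]

/-- The representation of a system of a node is of the type of the raising argument. -/
theorem exists_pointRep (hS29 : RT.EigenformResidualRep) (inputs : LocalInputs p)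
    (hso : StrictOrdinaryOfNewform p) (htres : TresPrimeInLevel)
    (hW : W.IsSemistableModel) (hirr : W.ModRepIsIrreducible p) (hb : IsRaisingBase W p L)
    {k : ℕ} {ξ : Q.Λ →ₐ[O] V} {c : Nat.Primes → V}
    (hc : ∀ ℓ : Nat.Primes, (ℓ : ℕ) ∉ Q.S' →
      residue V (c ℓ) = ResidueField.map (algebraMap O V) (B.a ℓ))
    (h : Q.IsNodeSystem F k ξ c) :
    ∃ ρ : GaloisRepAdic V, raiseCond W p L O Q.aux ρ ∧ ρ.residual.IsAbsolutelyIrreducible ∧
      HasFrobenius ρ Q.S' c := by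
  obtain ⟨S, L', _, hS, hex, hnew, hnewAt⟩ := h
  obtain ⟨-, -, ρ, hρ, hunr⟩ := Q.exists_nodePoint F hS29 inputs hso htres hW hirr hb k ξ c hc
    hS hex hnew hnewAt
  exact ⟨ρ, ⟨hρ.det, fun h => hρ.flat_at fun hd => h ((Q.dvd_lev_iff_dvd F k).1 hd),
    fun h => hρ.strictOrdinary_at ((Q.dvd_lev_iff_dvd F k).2 h), hunr⟩, hρ.residual_absIrr,
    hρ.charpoly_frob⟩

/-- The representation of a system of a node without `p` is flat. -/
theorem exists_flatPointRep (inputs : LocalInputs p) (hso : StrictOrdinaryOfNewform p)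
    (hirr : W.ModRepIsIrreducible p) (hb : IsRaisingBase W p L) (hpL : p ∣ L)
    {k : ℕ} {ξ : Q.Λ →ₐ[O] V} {c : Nat.Primes → V}
    (hc : ∀ ℓ : Nat.Primes, (ℓ : ℕ) ∉ Q.S' →
      residue V (c ℓ) = ResidueField.map (algebraMap O V) (B.a ℓ))
    (h : Q.IsFlatSystem F k ξ c) :
    ∃ ρ : GaloisRepAdic V, nodeCond O p True False (raiseSites W p) Q.auxSet ρ ∧
      ρ.residual.IsAbsolutelyIrreducible ∧ HasFrobenius ρ Q.S' c := by
  obtain ⟨S, L', _, hS, hex, hnew⟩ := h
  have hp2 : p ≠ 2 := B.hp2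
  have hpnd := Q.not_dvd_levOff F hpL k
  have hsh : NodeShape p Q.S' (raiseSites W p) Q.auxSet Q.N (Q.levOff F k) :=
    { Q.nodeShape F hb k with
      level := fun q hq hd => Q.prime_dvd_lev F hb hq (hd.trans (Q.levOff_dvd_lev F k)) }
  obtain ⟨ρ, hρ⟩ := Lifting.exists_nodePoint hp2 (natCast_mem_maximalIdeal (B := B)) inputs hso hsh
    (isExactLevel_mono hS hex) (isNewformSystem_mono hS hnew) (ρbar := rhoAt B V)
    (Residual.torsRep_baseChangeAlong_isAbsolutelyIrreducible hΔ hp2 hirr _)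
    (fun ℓ hℓ hℓS A hA σ hσ => by
      obtain ⟨hℓp, hgood, -⟩ := (not_mem_raiseExcluded_iff hΔ B.r₀_ne_zero hℓ).1
        fun h => hℓS (Finset.mem_union_left _ h)
      rw [Q.residue_eq_apOfModel hc ⟨ℓ, hℓ⟩ hℓS]
      exact Minimal.torsRep_baseChange_charpoly_frob hΔ _ ⟨ℓ, hℓ⟩ hℓp hgood A hA σ hσ)
    (fun h => absurd h hpnd) (fun h => absurd h hpnd)
  exact ⟨ρ, ⟨hρ.det, fun _ => hρ.flat_at hpnd, fun h => h.elim, hρ.unramified_outside⟩,
    hρ.residual_absIrr, hρ.charpoly_frob⟩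

end Points

section Ring

variable {R : Type} [CommRing R] [IsLocalRing R] [IsReduced R] [Algebra O R] [Module.Finite O R]
  [Module.IsTorsionFree O R] [IsLocalHom (algebraMap O R)]

omit [IsReduced R] [Module.Finite O R] [Module.IsTorsionFree O R] in
/-- The residual Hecke polynomials of the ring. -/
theorem residual_frobenius {T : Nat.Primes → R}
    (hT : ∀ ℓ : Nat.Primes, (ℓ : ℕ) ∉ Q.S' →
      residue R (T ℓ) = ResidueField.map (algebraMap O R) (B.a ℓ))
    (ℓ : ℕ) (hℓ : ℓ.Prime) (hℓS : ℓ ∉ Q.S') (P : ValuationSubring ℚ̄) (hP : P.LiesOverPrime ℓ)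
    (σ : Γℚ) (hσ : P.IsFrobeniusAt σ ℓ) :
    LinearMap.charpoly
        (((raiseRep hΔ B.ι).baseChangeAlong (ResidueField.map (algebraMap O R))).ρ σ) =
      X ^ 2 - C (residue R (T ⟨ℓ, hℓ⟩)) * X + C (ℓ : ResidueField R) := by
  rw [RT.charpoly_baseChangeAlong,
    B.charpoly_frob ℓ hℓ (fun h => hℓS (Finset.mem_union_left _ h)) P hP σ hσ,
    hT ⟨ℓ, hℓ⟩ hℓS]
  simp

omit [IsReduced R] [Module.IsTorsionFree O R] in
/-- The values of a point have the residual values of the base. -/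
theorem residue_point {T : Nat.Primes → R}
    (hT : ∀ ℓ : Nat.Primes, (ℓ : ℕ) ∉ Q.S' →
      residue R (T ℓ) = ResidueField.map (algebraMap O R) (B.a ℓ))
    {V : Type} [CommRing V] [IsLocalRing V] [Algebra O V] [IsLocalHom (algebraMap O V)]
    (f : R →ₐ[O] V) (ℓ : Nat.Primes) (hℓ : (ℓ : ℕ) ∉ Q.S') :
    residue V (f (T ℓ)) = ResidueField.map (algebraMap O V) (B.a ℓ) := by
  have hloc := RT.isLocalHom_of_algHom f
  obtain ⟨o, ho⟩ := residue_surjective (B.a ℓ)
  have h := hT ℓ hℓ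
  rw [← ho, ResidueField.map_residue, ← sub_eq_zero, ← map_sub, residue_eq_zero_iff] at h
  rw [← ho, ResidueField.map_residue, ← f.commutes o, ← sub_eq_zero, ← map_sub,
    residue_eq_zero_iff, ← map_sub]
  exact map_nonunit (f : R →+* V) _ h

/-- **The representation over the ring of the nodes and the map from the universal ring.** -/
theorem exists_ringRep (hS29 : RT.EigenformResidualRep) (inputs : LocalInputs p)
    (hso : StrictOrdinaryOfNewform p) (htres : TresPrimeInLevel)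
    (hW : W.IsSemistableModel) (hirr : W.ModRepIsIrreducible p) (hb : IsRaisingBase W p L)
    (Dd : GaloisRep.DeformationRingData O (raiseRep hΔ B.ι) (raiseCond W p L O Q.aux))
    (hres : Function.Surjective (residue R ∘ algebraMap O R)) (T : Nat.Primes → R)
    (hT : ∀ ℓ : Nat.Primes, (ℓ : ℕ) ∉ Q.S' →
      residue R (T ℓ) = ResidueField.map (algebraMap O R) (B.a ℓ))
    (hsys : ∀ (V : Type) [CommRing V] [IsDomain V] [IsDiscreteValuationRing V]
      [IsAdicComplete (maximalIdeal V) V] [Finite (ResidueField V)] [CharZero V] [Algebra O V]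
      [IsLocalHom (algebraMap O V)], Function.Injective (algebraMap O V) →
      ∀ f : R →ₐ[O] V, ∃ (k : ℕ) (ξ : Q.Λ →ₐ[O] V), Q.IsNodeSystem F k ξ fun ℓ => f (T ℓ)) :
    ∃ φ : Dd.R →ₐ[O] R, ∃ hφ : IsLocalHom (φ : Dd.R →+* R),
      (∃ ρ : GaloisRepAdic R, raiseCond W p L O Q.aux ρ ∧
        (Dd.ρ.baseChangeAlong (φ : Dd.R →+* R) hφ).IsEquiv ρ) ∧
      (∀ (ℓ : ℕ) (hℓ : ℓ.Prime), ℓ ∉ Q.S' → ∀ P : ValuationSubring ℚ̄, P.LiesOverPrime ℓ →
        ∀ σ : Γℚ, P.IsFrobeniusAt σ ℓ →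
          (LinearMap.charpoly (Dd.ρ.ρ σ)).map (φ : Dd.R →+* R) =
              X ^ 2 - C (T ⟨ℓ, hℓ⟩) * X + C (ℓ : R) ∧
            ∀ b : Module.Basis (Fin 2) Dd.R Dd.ρ.V, φ (matOf Dd.ρ.ρ b σ).trace = T ⟨ℓ, hℓ⟩) ∧
      ∀ (V : Type) [CommRing V] [IsDomain V] [IsDiscreteValuationRing V]
        [IsAdicComplete (maximalIdeal V) V] [Finite (ResidueField V)] [CharZero V] [Algebra O V]
        [IsLocalHom (algebraMap O V)],
        ∀ (f : R →ₐ[O] V) (ρV : GaloisRepAdic V), ρV.residual.IsAbsolutelyIrreducible →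
          HasFrobenius ρV Q.S' (fun ℓ => f (T ℓ)) →
          ∃ hf : IsLocalHom (f.comp φ : Dd.R →+* V),
            (Dd.ρ.baseChangeAlong (f.comp φ : Dd.R →+* V) hf).IsEquiv ρV := by
  obtain ⟨ρ, hcond, hres', hch, hpt⟩ := Rings.exists_pointsRep (p := p) B.hp2 B.hpO hres
    (raiseRep hΔ B.ι) B.absIrr Q.S' T (Q.residual_frobenius hT) (¬ p ∣ L) (p ∣ L) (raiseSites W p)
    Q.aux fun V _ _ _ _ _ _ _ _ _ hinj f _ => by
      obtain ⟨k, ξ, h⟩ := hsys V hinj f
      obtain ⟨ρV, hρV, -, hf⟩ := Q.exists_pointRep F hS29 inputs hso htres hW hirr hb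
        (Q.residue_point hT f) h
      exact ⟨ρV, hρV, hf⟩
  haveI : IsNoetherianRing R := IsNoetherianRing.of_finite O _
  haveI : IsAdicComplete (maximalIdeal R) R :=
    IsLocalRing.isAdicComplete_of_module_finite (𝒪 := O)
  obtain ⟨φ, ⟨hφ, ⟨e⟩⟩, -⟩ := Dd.universal R hres ρ hcond hres'
  have hchD : ∀ (ℓ : ℕ) (hℓ : ℓ.Prime), ℓ ∉ Q.S' → ∀ P : ValuationSubring ℚ̄, P.LiesOverPrime ℓ →
      ∀ σ : Γℚ, P.IsFrobeniusAt σ ℓ → (LinearMap.charpoly (Dd.ρ.ρ σ)).map (φ : Dd.R →+* R) =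
        X ^ 2 - C (T ⟨ℓ, hℓ⟩) * X + C (ℓ : R) := by
    intro ℓ hℓ hℓS P hP σ hσ
    rw [← RT.charpoly_adic_baseChangeAlong (φ : Dd.R →+* R) hφ, ← hch ℓ hℓ hℓS P hP σ hσ]
    exact (Density.adic_charpoly_eq_of_isEquiv ⟨e⟩ σ).symm
  refine ⟨φ, hφ, ⟨ρ, hcond, ⟨e⟩⟩, fun ℓ hℓ hℓS P hP σ hσ => ⟨hchD ℓ hℓ hℓS P hP σ hσ, fun b => ?_⟩,
    ?_⟩
  · have h := hchD ℓ hℓ hℓS P hP σ hσ
    have h1 : LinearMap.charpoly (Dd.ρ.ρ σ) = (matOf Dd.ρ.ρ b σ).charpoly :=
      (LinearMap.charpoly_toMatrix (Dd.ρ.ρ σ) b).symm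
    rw [h1, Matrix.charpoly_fin_two] at h
    have h2 := congrArg (fun P => Polynomial.coeff P 1) h
    simpa [Polynomial.coeff_X_pow, Polynomial.coeff_C, Polynomial.coeff_X] using h2
  · intro V _ _ _ _ _ _ _ _ f ρV habsV hfV
    have hf : IsLocalHom (f : R →+* V) := RT.isLocalHom_of_algHom f
    haveI := hφ
    refine ⟨RingHom.isLocalHom_comp (f : R →+* V) (φ : Dd.R →+* R), ?_⟩
    obtain ⟨e'⟩ := Density.adic_isEquiv_of_frobenius ρV
      (Dd.ρ.baseChangeAlong (f.comp φ : Dd.R →+* V)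
        (RingHom.isLocalHom_comp (f : R →+* V) (φ : Dd.R →+* R))) Q.S' habsV
      fun ℓ hℓ hℓS P hP σ hσ => by
        rw [hfV ℓ hℓ hℓS P hP σ hσ]
        refine Eq.trans ?_ (RT.charpoly_adic_baseChangeAlong _ _ Dd.ρ σ).symm
        show _ = (LinearMap.charpoly (Dd.ρ.ρ σ)).map ((f : R →+* V).comp (φ : Dd.R →+* R))
        rw [← Polynomial.map_map, hchD ℓ hℓ hℓS P hP σ hσ, RT.Assembly.map_frobPoly]
        rfl
    exact ⟨e'.symm⟩

/-- **The flat representation over the ring of the nodes without `p`.** -/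
theorem exists_flatRep (inputs : LocalInputs p) (hso : StrictOrdinaryOfNewform p)
    (hirr : W.ModRepIsIrreducible p) (hb : IsRaisingBase W p L) (hpL : p ∣ L)
    (hres : Function.Surjective (residue R ∘ algebraMap O R)) (T : Nat.Primes → R)
    (hT : ∀ ℓ : Nat.Primes, (ℓ : ℕ) ∉ Q.S' →
      residue R (T ℓ) = ResidueField.map (algebraMap O R) (B.a ℓ))
    (hsys : ∀ (V : Type) [CommRing V] [IsDomain V] [IsDiscreteValuationRing V]
      [IsAdicComplete (maximalIdeal V) V] [Finite (ResidueField V)] [CharZero V] [Algebra O V]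
      [IsLocalHom (algebraMap O V)], Function.Injective (algebraMap O V) →
      ∀ f : R →ₐ[O] V, ∃ (k : ℕ) (ξ : Q.Λ →ₐ[O] V), Q.IsFlatSystem F k ξ fun ℓ => f (T ℓ)) :
    ∃ ρ : GaloisRepAdic R, ρ.IsFlatAt p ∧
      nodeCond O p True False (raiseSites W p) Q.auxSet ρ ∧
      ρ.residual.IsEquiv ((raiseRep hΔ B.ι).baseChangeAlong
        (ResidueField.map (algebraMap O R))) ∧
      HasFrobenius ρ Q.S' T := by
  obtain ⟨ρ, hcond, hres', hch, -⟩ := Rings.exists_pointsRep (p := p) B.hp2 B.hpO hres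
    (raiseRep hΔ B.ι) B.absIrr Q.S' T (Q.residual_frobenius hT) True False (raiseSites W p)
    Q.auxSet fun V _ _ _ _ _ _ _ _ _ hinj f _ => by
      obtain ⟨k, ξ, h⟩ := hsys V hinj f
      obtain ⟨ρV, hρV, -, hf⟩ := Q.exists_flatPointRep F inputs hso hirr hb hpL
        (Q.residue_point hT f) h
      exact ⟨ρV, hρV, hf⟩
  exact ⟨ρ, hcond.2.1 trivial, hcond, hres', hch⟩

end Ring

end RaiseLevel

end Fermat.Agent.Lifting.Raise

end
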