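import Fermat.Agent.Lifting.Raise.KillsComponent
import Fermat.Agent.Lifting.Raise.NodeRep
import Fermat.Agent.Lifting.Raise.NodeRingPoints

/-!
# The ring of all nodes of a level and the map from the universal ring

* `famModel`: the levels and the cokernels of `LevelModels` as one family; `famRing`: their ring of
  operators outside all excluded primes.
* `nodeRing.proj_intertwine`: a matrix commuting with the operators commutes with the actions.
* `NodeFamilyMap`: the map from the universal ring with Frobenius traces going to the operators and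
  determining the representations of the points; it exists (`nonempty_nodeFamilyMap`).
* `NodeFamilyMap.act`: the actions on the nodes; the degeneracy maps are equivariant.
* `NodeFamilyMap.pairsKill_base`, `NodeFamilyMap.pairsKill_coker`: the two kills.
* `exists_flatNodeRep`: the flat representation over the ring of a node without `p`.
-/

set_option autoImplicit false
set_option linter.style.haveILetI false

noncomputable section

open IsLocalRing Polynomial

namespace Fermat.Agent.Lifting.Raise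

open RT.Diamond
open RT.Assembly (IsExactLevel IsNewformSystem LocalInputs StrictOrdinaryOfNewform)
open Rings (HasFrobenius nodeCond)
open Deformation (Mat matOf)

local notation "ℚ̄" => AlgebraicClosure ℚ
local notation "Γℚ" => (AlgebraicClosure ℚ ≃ₐ[ℚ] AlgebraicClosure ℚ)

variable {W : WeierstrassCurve ℤ} {hΔ : W.Δ ≠ 0} {p L : ℕ} [Fact p.Prime]
  {O : Type} [CommRing O] [IsDomain O] [IsDiscreteValuationRing O]
  [IsAdicComplete (maximalIdeal O) O] [Finite (ResidueField O)] [CharZero O]
  {B : RaiseData W hΔ p L O} {r n : ℕ}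

/-- A matrix commuting with the operators of two nodes commutes with their actions. -/
theorem nodeRing.proj_intertwine {Q : RaiseLevel B r n} {J : Type} {S : J → Finset ℕ}
    {Lev : J → ℕ} [∀ j, NeZero (Lev j)] {new : J → Finset ℕ} {D : J → ℕ}
    (M : ∀ j, NodeModel Q (S j) (Lev j) (new j) (D j)) {R : Finset ℕ} {a b : J}
    (X : Matrix (Fin (D b)) (Fin (D a)) Q.Λ)
    (h : ∀ ℓ : Nat.Primes, (ℓ : ℕ) ∉ R → X * (M a).op ℓ = (M b).op ℓ * X) (y : nodeRing M R) :
    X * nodeRing.proj M R a y = nodeRing.proj M R b y * X := by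
  obtain ⟨y, hy⟩ := y
  show X * y a = y b * X
  induction hy using Algebra.adjoin_induction with
  | mem y hy =>
    obtain ⟨ℓ, hℓ, rfl⟩ := hy
    exact h ℓ hℓ
  | algebraMap c =>
    show X * algebraMap Q.Λ (Matrix (Fin (D a)) (Fin (D a)) Q.Λ) c =
      algebraMap Q.Λ (Matrix (Fin (D b)) (Fin (D b)) Q.Λ) c * X
    rw [Algebra.algebraMap_eq_smul_one, Algebra.algebraMap_eq_smul_one, Matrix.mul_smul,
      Matrix.smul_mul, Matrix.mul_one, Matrix.one_mul]
  | add y z _ _ ihy ihz => rw [Pi.add_apply, Pi.add_apply, Matrix.mul_add, ihy, ihz, Matrix.add_mul]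
  | mul y z _ _ ihy ihz =>
    rw [Pi.mul_apply, Pi.mul_apply, ← Matrix.mul_assoc, ihy, Matrix.mul_assoc, ihz,
      ← Matrix.mul_assoc]

section Family

variable {F : RaiseFrames B} {Q : RaiseLevel B r n} {DM : Fin (F.m + 1) → ℕ} {DC : Fin F.m → ℕ}

/-- The index of a node: a level or the cokernel of a step. -/
abbrev FamIdx (F : RaiseFrames B) : Type := Fin (F.m + 1) ⊕ Fin F.m

/-- The level a node belongs to. -/
abbrev famNode (F : RaiseFrames B) : FamIdx F → ℕ :=
  Sum.elim (fun k => (k : ℕ)) fun k => ((k.succ : Fin (F.m + 1)) : ℕ)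

/-- The primes at which a node is new. -/
abbrev famNew (F : RaiseFrames B) : FamIdx F → Finset ℕ :=
  Sum.elim (fun _ => nodeNew W p L) fun k => insert (F.q (F.t k)) (nodeNew W p L)

/-- The rank of a node. -/
abbrev famDim (DM : Fin (F.m + 1) → ℕ) (DC : Fin F.m → ℕ) : FamIdx F → ℕ := Sum.elim DM DC

/-- The levels and the cokernels as one family. -/
def famModel (M : LevelModels F Q DM DC) : ∀ j : FamIdx F,
    NodeModel Q (Q.Sk F (famNode F j)) (Q.lev F (famNode F j)) (famNew F j) (famDim DM DC j)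
  | .inl k => M.node k
  | .inr k => M.coker k

variable (M : LevelModels F Q DM DC)

/-- The ring of all nodes. -/
abbrev famRing : Subalgebra Q.Λ (∀ j, Matrix (Fin (famDim DM DC j)) (Fin (famDim DM DC j)) Q.Λ) :=
  nodeRing (famModel M) Q.S'

theorem famS_subset (j : FamIdx F) : Q.Sk F (famNode F j) ⊆ Q.S' := Q.Sk_subset F _

theorem famLev_mem (j : FamIdx F) (q : ℕ) (hq : q.Prime) (hd : q ∣ Q.lev F (famNode F j) * Q.N) :
    q ∈ Q.S' :=
  Q.Sk_subset F _ (Q.mem_Sk_of_dvd F _ hq hd)

theorem isLocalRing_famRing (hDM : 0 < DM 0) : IsLocalRing (famRing M) :=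
  nodeRing.isLocalRing (famModel M) famS_subset Q.raisePrimes_subset ⟨.inl 0, hDM.ne'⟩

theorem isReduced_famRing : IsReduced (famRing M) :=
  nodeRing.isReduced (famModel M) famS_subset (Finset.Subset.refl _) famLev_mem

/-- A point through a component is a system of that node. -/
theorem famRing_system {V : Type} [CommRing V] [IsDomain V] [IsDiscreteValuationRing V]
    [IsAdicComplete (maximalIdeal V) V] [Finite (ResidueField V)] [CharZero V] [Algebra O V]
    [IsLocalHom (algebraMap O V)] (hinj : Function.Injective (algebraMap O V))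
    (f : famRing M →ₐ[O] V) (j : FamIdx F)
    (hj : RingHom.ker (nodeRing.proj (famModel M) Q.S' j) ≤ RingHom.ker f) :
    Q.IsNodeSystem F (famNode F j) (f.comp (nodeRing.lam (famModel M) Q.S'))
      fun ℓ => f (nodeRing.op (famModel M) Q.S' ℓ) := by
  obtain ⟨L', hL', hex, hnew, hat⟩ := nodeRing.exists_exactLevel (famModel M) famS_subset
    (Finset.Subset.refl _) hinj f j hj
  refine ⟨Q.S', L', hL', Finset.Subset.refl _, hex, hnew, fun q hq => hat q ?_⟩
  cases j with
  | inl k => exact hq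
  | inr k => exact Finset.mem_insert_of_mem hq

/-- The map from a universal ring to the ring of all nodes. -/
structure NodeFamilyMap
    (Dd : GaloisRep.DeformationRingData O (raiseRep hΔ B.ι) (raiseCond W p L O Q.aux)) where
  isLocalRing : IsLocalRing (famRing M)
  φ : Dd.R →ₐ[O] famRing M
  isLocalHom : IsLocalHom (φ : Dd.R →+* famRing M)
  /-- Frobenius goes to the Hecke polynomial, its trace to the operator -/
  frobenius : ∀ (ℓ : ℕ) (hℓ : ℓ.Prime), ℓ ∉ Q.S' → ∀ P : ValuationSubring ℚ̄, P.LiesOverPrime ℓ →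
    ∀ σ : Γℚ, P.IsFrobeniusAt σ ℓ →
      (LinearMap.charpoly (Dd.ρ.ρ σ)).map (φ : Dd.R →+* famRing M) =
          X ^ 2 - C (nodeRing.op (famModel M) Q.S' ⟨ℓ, hℓ⟩) * X + C (ℓ : famRing M) ∧
        ∀ b : Module.Basis (Fin 2) Dd.R Dd.ρ.V,
          φ (matOf Dd.ρ.ρ b σ).trace = nodeRing.op (famModel M) Q.S' ⟨ℓ, hℓ⟩
  /-- the representation of a point is a base change of the universal one -/
  point : ∀ (V : Type) [CommRing V] [IsDomain V] [IsDiscreteValuationRing V]
    [IsAdicComplete (maximalIdeal V) V] [Finite (ResidueField V)] [CharZero V] [Algebra O V]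
    [IsLocalHom (algebraMap O V)],
    ∀ (f : famRing M →ₐ[O] V) (ρV : GaloisRepAdic V), ρV.residual.IsAbsolutelyIrreducible →
      HasFrobenius ρV Q.S' (fun ℓ => f (nodeRing.op (famModel M) Q.S' ℓ)) →
      ∃ hf : IsLocalHom (f.comp φ : Dd.R →+* V),
        (Dd.ρ.baseChangeAlong (f.comp φ : Dd.R →+* V) hf).IsEquiv ρV

/-- The map from the universal ring exists. -/
theorem nonempty_nodeFamilyMap (hS29 : RT.EigenformResidualRep) (inputs : LocalInputs p)
    (hso : StrictOrdinaryOfNewform p) (htres : TresPrimeInLevel)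
    (hW : W.IsSemistableModel) (hirr : W.ModRepIsIrreducible p) (hb : IsRaisingBase W p L)
    (hDM : 0 < DM 0)
    (Dd : GaloisRep.DeformationRingData O (raiseRep hΔ B.ι) (raiseCond W p L O Q.aux)) :
    Nonempty (NodeFamilyMap M Dd) := by
  haveI hloc := isLocalRing_famRing M hDM
  haveI := isReduced_famRing M
  obtain ⟨φ, hφ, -, hfrob, hpt⟩ := Q.exists_ringRep F hS29 inputs hso htres hW hirr hb Dd
    (nodeRing.residue_surjective' (famModel M) famS_subset Q.raisePrimes_subset)
    (nodeRing.op (famModel M) Q.S')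
    (fun ℓ hℓ => by
      rw [nodeRing.op_of_not_mem (famModel M) hℓ]
      exact nodeRing.residue_T (famModel M) famS_subset Q.raisePrimes_subset ℓ hℓ)
    fun V _ _ _ _ _ _ _ _ hinj f => by
      obtain ⟨j, hj⟩ := nodeRing.exists_component (famModel M) f
      exact ⟨_, _, famRing_system M hinj f j hj⟩
  exact ⟨⟨hloc, φ, hφ, hfrob, hpt⟩⟩

namespace NodeFamilyMap

variable {M} {Dd : GaloisRep.DeformationRingData O (raiseRep hΔ B.ι) (raiseCond W p L O Q.aux)}
  (N : NodeFamilyMap M Dd)

/-- The action on a node. -/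
def act (j : FamIdx F) : Dd.R →ₐ[O] Matrix (Fin (famDim DM DC j)) (Fin (famDim DM DC j)) Q.Λ :=
  (nodeRing.proj (famModel M) Q.S' j).comp N.φ

theorem act_apply (j : FamIdx F) (x : Dd.R) :
    N.act j x = nodeRing.proj (famModel M) Q.S' j (N.φ x) := rfl

theorem act_trace (j : FamIdx F) {ℓ : ℕ} (hℓ : ℓ.Prime) (hℓS : ℓ ∉ Q.S') {P : ValuationSubring ℚ̄}
    (hP : P.LiesOverPrime ℓ) {σ : Γℚ} (hσ : P.IsFrobeniusAt σ ℓ)
    (b : Module.Basis (Fin 2) Dd.R Dd.ρ.V) :
    N.act j (matOf Dd.ρ.ρ b σ).trace = (famModel M j).op ⟨ℓ, hℓ⟩ := by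
  rw [act_apply, (N.frobenius ℓ hℓ hℓS P hP σ hσ).2 b]
  exact (congrArg _ (nodeRing.op_of_not_mem (famModel M) (ℓ := (⟨ℓ, hℓ⟩ : Nat.Primes)) hℓS)).trans
    (nodeRing.proj_T (famModel M) j (⟨ℓ, hℓ⟩ : Nat.Primes) hℓS)

/-- The action on a level. -/
def actLev (k : Fin (F.m + 1)) : Dd.R →ₐ[O] Matrix (Fin (DM k)) (Fin (DM k)) Q.Λ := N.act (.inl k)

/-- The action on the cokernel of a step. -/
def actCok (k : Fin F.m) : Dd.R →ₐ[O] Matrix (Fin (DC k)) (Fin (DC k)) Q.Λ := N.act (.inr k)

theorem actLev_trace (k : Fin (F.m + 1)) {ℓ : ℕ} (hℓ : ℓ.Prime) (hℓS : ℓ ∉ Q.S')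
    {P : ValuationSubring ℚ̄} (hP : P.LiesOverPrime ℓ) {σ : Γℚ} (hσ : P.IsFrobeniusAt σ ℓ)
    (b : Module.Basis (Fin 2) Dd.R Dd.ρ.V) :
    N.actLev k (matOf Dd.ρ.ρ b σ).trace = (M.node k).op ⟨ℓ, hℓ⟩ :=
  N.act_trace (.inl k) hℓ hℓS hP hσ b

theorem up_comm (k : Fin F.m) (i : Fin 2) (x : Dd.R) :
    M.up k i * N.actLev k.castSucc x = N.actLev k.succ x * M.up k i :=
  nodeRing.proj_intertwine (famModel M) (a := .inl k.castSucc) (b := .inl k.succ) (M.up k i)
    (M.up_comm k i) (N.φ x)

theorem down_comm (k : Fin F.m) (i : Fin 2) (x : Dd.R) :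
    M.down k i * N.actLev k.succ x = N.actLev k.castSucc x * M.down k i :=
  nodeRing.proj_intertwine (famModel M) (a := .inl k.succ) (b := .inl k.castSucc) (M.down k i)
    (M.down_comm k i) (N.φ x)

theorem quot_comm (k : Fin F.m) (x : Dd.R) :
    M.quot k * N.actLev k.succ x = N.actCok k x * M.quot k :=
  nodeRing.proj_intertwine (famModel M) (a := .inl k.succ) (b := .inr k) (M.quot k)
    (M.quot_comm k) (N.φ x)

/-- The kernel of a component is saturated. -/
theorem component_saturated (j : FamIdx F) (o : O) (a : famRing M) (ho : o ≠ 0)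
    (h : o • a ∈ RingHom.ker (nodeRing.proj (famModel M) Q.S' j)) :
    a ∈ RingHom.ker (nodeRing.proj (famModel M) Q.S' j) := by
  haveI : Module.Finite O Q.Λ := Module.Finite.of_basis (MonoidAlgebra.basis _ O)
  haveI : Module.Free O Q.Λ := Module.Free.of_basis (MonoidAlgebra.basis _ O)
  rw [RingHom.mem_ker, map_smul] at h
  exact (smul_eq_zero.1 h).resolve_left ho

/-- The kernel of a component is radical. -/
theorem component_isRadical (j : FamIdx F) :
    (RingHom.ker (nodeRing.proj (famModel M) Q.S' j)).IsRadical :=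
  nodeRing.isRadical_ker_proj (famModel M) famS_subset (Finset.Subset.refl _) j (famLev_mem j)

theorem op_residue [IsLocalRing (famRing M)] (ℓ : Nat.Primes) (hℓ : (ℓ : ℕ) ∉ Q.S') :
    residue (famRing M) (nodeRing.op (famModel M) Q.S' ℓ) =
      ResidueField.map (algebraMap O (famRing M)) (B.a ℓ) := by
  rw [nodeRing.op_of_not_mem (famModel M) hℓ]
  exact nodeRing.residue_T (famModel M) famS_subset Q.raisePrimes_subset ℓ hℓ

/-- The points through a component carry systems of that node. -/
theorem pointsSystems [IsLocalRing (famRing M)] (j : FamIdx F) :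
    PointsSystems Q (RingHom.ker (nodeRing.proj (famModel M) Q.S' j))
      (nodeRing.op (famModel M) Q.S') (Q.lev F (famNode F j)) (famNew F j) := by
  intro V _ _ _ _ _ _ _ _ _ hinj f hf
  obtain ⟨L', hL', hex, hnew, hat⟩ := nodeRing.exists_exactLevel (famModel M) famS_subset
    (Finset.Subset.refl _) hinj f j hf
  exact ⟨f.comp (nodeRing.lam (famModel M) Q.S'), _, L', hL', Q.S', Finset.Subset.refl _,
    fun ℓ _ => rfl, hex, hnew, hat⟩

variable {g : ℕ}
  {T₀ : Nat.Primes → Matrix (Fin (DM (Fin.last F.m))) (Fin (DM (Fin.last F.m))) O}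
  {ℒ : Finset Nat.Primes}

/-- **The kill at the lowest level.** -/
theorem pairsKill_base (hS29 : RT.EigenformResidualRep) (inputs : LocalInputs p)
    (hso : StrictOrdinaryOfNewform p) (htres : TresPrimeInLevel) (hord : OrdinaryTpFive)
    (hp : p = 3 ∨ p = 5) (hW : W.IsSemistableModel) (hirr : W.ModRepIsIrreducible p)
    (hlift : IsRaisableAt W p) (hb : IsRaisingBase W p L)
    (bR : Module.Basis (Fin 2) Dd.R Dd.ρ.V) :
    Patching.PairsKill (O := O) (fun x v => (N.actLev 0 x).mulVec v)
      (fun j => (matOf Dd.ρ.ρ bR (F.T j).F, matOf Dd.ρ.ρ bR (F.T j).σ))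
      (patchData F g DM DC T₀ ℒ).BasePred := by
  haveI := N.isLocalRing
  have hact : ∀ x, N.φ x ∈ RingHom.ker (nodeRing.proj (famModel M) Q.S' (.inl 0)) →
      ∀ v : Fin (DM 0) → Q.Λ, (N.actLev 0 x).mulVec v = 0 := fun x hx v => by
    rw [show N.actLev 0 x = 0 from RingHom.mem_ker.1 hx, Matrix.zero_mulVec]
  exact pairsKill_base_of_component (component_isRadical (M := M) (.inl 0))
    (component_saturated (M := M) (.inl 0)) N.isLocalHom hact (op_residue (M := M))
    (pointsSystems (M := M) (.inl 0)) N.point hS29 inputs hso htres hord hp hW hirr hlift hb bR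

/-- **The kill at the cokernel of a step.** -/
theorem pairsKill_coker (k : Fin F.m) (hS29 : RT.EigenformResidualRep) (inputs : LocalInputs p)
    (hso : StrictOrdinaryOfNewform p) (htres : TresPrimeInLevel) (hW : W.IsSemistableModel)
    (hirr : W.ModRepIsIrreducible p) (hlift : IsRaisableAt W p) (hb : IsRaisingBase W p L)
    (bR : Module.Basis (Fin 2) Dd.R Dd.ρ.V) :
    Patching.PairsKill (O := O) (fun x v => (N.actCok k x).mulVec v)
      (fun j => (matOf Dd.ρ.ρ bR (F.T j).F, matOf Dd.ρ.ρ bR (F.T j).σ))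
      ((patchData F g DM DC T₀ ℒ).CokerPred k) := by
  haveI := N.isLocalRing
  have hact : ∀ x, N.φ x ∈ RingHom.ker (nodeRing.proj (famModel M) Q.S' (.inr k)) →
      ∀ v : Fin (DC k) → Q.Λ, (N.actCok k x).mulVec v = 0 := fun x hx v => by
    rw [show N.actCok k x = 0 from RingHom.mem_ker.1 hx, Matrix.zero_mulVec]
  exact pairsKill_coker_of_component k (component_isRadical (M := M) (.inr k))
    (component_saturated (M := M) (.inr k)) N.isLocalHom hact (op_residue (M := M))
    (pointsSystems (M := M) (.inr k)) N.point hS29 inputs hso htres hW hirr hlift hb bR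

end NodeFamilyMap

end Family

/-- **The flat representation over the ring of a node without `p`.** -/
theorem exists_flatNodeRep (Q : RaiseLevel B r n) (F : RaiseFrames B) (inputs : LocalInputs p)
    (hso : StrictOrdinaryOfNewform p) (hirr : W.ModRepIsIrreducible p)
    (hb : IsRaisingBase W p L) (hpL : p ∣ L) {k D' : ℕ}
    (flat : NodeModel Q (Q.Sk F k) (Q.levOff F k) ∅ D') (hD' : D' ≠ 0) :
    ∃ (_ : IsLocalRing (nodeRing (fun _ : Unit => flat) Q.S'))
      (ρ : GaloisRepAdic (nodeRing (fun _ : Unit => flat) Q.S')),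
      ρ.IsFlatAt p ∧ nodeCond O p True False (raiseSites W p) Q.auxSet ρ ∧
      ρ.residual.IsEquiv ((raiseRep hΔ B.ι).baseChangeAlong
        (ResidueField.map (algebraMap O (nodeRing (fun _ : Unit => flat) Q.S')))) ∧
      HasFrobenius ρ Q.S' (nodeRing.op (fun _ : Unit => flat) Q.S') := by
  haveI hloc : IsLocalRing (nodeRing (fun _ : Unit => flat) Q.S') :=
    nodeRing.isLocalRing (fun _ : Unit => flat) (fun _ => Q.Sk_subset F k) Q.raisePrimes_subset
      ⟨(), hD'⟩
  haveI : IsReduced (nodeRing (fun _ : Unit => flat) Q.S') :=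
    nodeRing.isReduced (fun _ : Unit => flat) (fun _ => Q.Sk_subset F k) (Finset.Subset.refl _)
      fun _ q hq hd => Q.Sk_subset F k (Q.mem_Sk_of_dvd_levOff F k hq hd)
  have hres := nodeRing.residue_surjective' (R := Q.S') (fun _ : Unit => flat)
    (fun _ => Q.Sk_subset F k) Q.raisePrimes_subset
  have hT : ∀ ℓ : Nat.Primes, (ℓ : ℕ) ∉ Q.S' →
      residue (nodeRing (fun _ : Unit => flat) Q.S')
          (nodeRing.op (fun _ : Unit => flat) Q.S' ℓ) =
        ResidueField.map (algebraMap O (nodeRing (fun _ : Unit => flat) Q.S')) (B.a ℓ) :=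
    fun ℓ hℓ => by
      rw [nodeRing.op_of_not_mem (fun _ : Unit => flat) hℓ]
      exact nodeRing.residue_T (fun _ : Unit => flat) (fun _ => Q.Sk_subset F k)
        Q.raisePrimes_subset ℓ hℓ
  refine ⟨hloc, Q.exists_flatRep F inputs hso hirr hb hpL hres
    (nodeRing.op (fun _ : Unit => flat) Q.S') hT fun V _ _ _ _ _ _ _ _ hinj f => ?_⟩
  obtain ⟨j, hj⟩ := nodeRing.exists_component (fun _ : Unit => flat) f
  obtain ⟨L', hL', hex, hnew, -⟩ := nodeRing.exists_exactLevel (fun _ : Unit => flat)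
    (fun _ => Q.Sk_subset F k) (Finset.Subset.refl _) hinj f j hj
  exact ⟨k, f.comp (nodeRing.lam (fun _ : Unit => flat) Q.S'), Q.S', L', hL',
    Finset.Subset.refl _, hex, hnew⟩

end Fermat.Agent.Lifting.Raise

end
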