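import Fermat.Agent.Lifting.Raise.Contracts
import Fermat.Agent.Lifting.Rings.SharpSites

/-!
# The ring of a level over the coordinates of the sites

From `LevelRings`: a surjection from the series in the coordinates of the sites to the framed
ring under which the universal pairs go to the pairs of the representation up to conjugation,
the composites of the degeneracy maps to constants, and, at a peu ramifiée `p`, a series solving
for one free variable which vanishes at every deformation that is also flat.
-/

set_option autoImplicit false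

noncomputable section

open IsLocalRing

namespace Fermat.Agent.Lifting.Raise

open RT.LocalRing (PSR cj Mat)
open RT (FrameVar)
open Deformation (matOf)

variable {W : WeierstrassCurve ℤ} {hΔ : W.Δ ≠ 0} {p L : ℕ} [Fact p.Prime]
  {O : Type} [CommRing O] [IsDomain O] [IsDiscreteValuationRing O]
  [IsAdicComplete (maximalIdeal O) O] [Finite (ResidueField O)] [CharZero O]
  {B : RaiseData W hΔ p L O} {r n : ℕ} {F : RaiseFrames B} {Q : RaiseLevel B r n}

/-- The frames from the residual lifts to the centres of the sites. -/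
def toCentre (F : RaiseFrames B) (j : Fin F.s) : (Mat O)ˣ := (F.cs j).frame⁻¹

theorem cj_toCentre_lift0 (F : RaiseFrames B) (j : Fin F.s) :
    cj (toCentre F j) (F.lift0 j 0) = (F.site j).centre.1 ∧
      cj (toCentre F j) (F.lift0 j 1) = (F.site j).centre.2 := by
  constructor <;>
    simp [toCentre, RaiseFrames.lift0, ← RT.LocalRing.cj_mul, RT.LocalRing.cj_one]

namespace LevelRings

variable (R : LevelRings F Q)

/-- The pair of the representation at a site. -/
def pair (j : Fin F.s) : Mat R.D.R × Mat R.D.R :=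
  (matOf R.D.ρ.ρ R.b (F.el j 0), matOf R.D.ρ.ρ R.b (F.el j 1))

/-- The composite of the degeneracy maps of a step in the ring. -/
def stepR (k : Fin F.m) : Matrix (Fin 2) (Fin 2) R.D.R :=
  degMatrix (F.q (F.t k)) (R.pair (F.t k)).1.trace

/-- **The presentation of a level over the coordinates of the sites.** -/
theorem exists_presentation :
    ∃ Ψ : PSR (Fin F.s) (Fin (numGlobal r F.s)) O →ₐ[O] MvPowerSeries (FrameVar F.s) R.D.R,
      Function.Surjective Ψ ∧
      (∀ j, ∃ u : (Mat (MvPowerSeries (FrameVar F.s) R.D.R))ˣ,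
        (Algebra.univPair F.site (Fin (numGlobal r F.s)) j).1.map Ψ =
            cj u ((R.pair j).1.map MvPowerSeries.C) ∧
          (Algebra.univPair F.site (Fin (numGlobal r F.s)) j).2.map Ψ =
            cj u ((R.pair j).2.map MvPowerSeries.C)) ∧
      (∀ k a c, Ψ (stepMatrix F (numGlobal r F.s) k a c) = MvPowerSeries.C (R.stepR k a c)) ∧
      (Peu W p L → ∃ (j₀ : Fin (numGlobal r F.s))
          (x : PSR (Fin F.s) (Fin (numGlobal r F.s)) O),
        (∀ N, Patching.RaiseData.Solves (some j₀) N x) ∧
        ∀ (A : Type) [CommRing A] [IsLocalRing A] [IsNoetherianRing A]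
          [IsAdicComplete (maximalIdeal A) A] [Algebra O A] [IsLocalHom (algebraMap O A)],
          Function.Surjective (residue A ∘ algebraMap O A) →
          ∀ (f : R.D.R →ₐ[O] A) (hf : IsLocalHom (f : R.D.R →+* A)),
            Rings.nodeCond O p True True (raiseSites W p) Q.aux
              (R.D.ρ.baseChangeAlong (f : R.D.R →+* A) hf) →
            MvPowerSeries.map (f : R.D.R →+* A) (Ψ x) = 0 ∧
              ∀ d, f (MvPowerSeries.coeff d (Ψ x)) = 0) := by
  have hG0 : ∀ j, cj (toCentre F j) (F.lift0 j 0) = (F.site j).centre.1 :=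
    fun j => (cj_toCentre_lift0 F j).1
  have hG1 : ∀ j, cj (toCentre F j) (F.lift0 j 1) = (F.site j).centre.2 :=
    fun j => (cj_toCentre_lift0 F j).2
  obtain ⟨Ψ, hΨ, hΨm, hΨt, hΨS⟩ := Rings.exists_sitePresentation R.D.residue_surjective
    (matOf R.D.ρ.ρ R.b) F.el F.lift0 F.site (toCentre F) hG0 hG1 R.Φ_surjective R.Φ_X
  have hC : (algebraMap R.D.R (MvPowerSeries (FrameVar F.s) R.D.R) : R.D.R → _) =
      MvPowerSeries.C := by
    ext x; simp [MvPowerSeries.algebraMap_apply]
  have hu : ∀ j,
      (Algebra.univPair F.site (Fin (numGlobal r F.s)) j).1.map Ψ =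
          cj (Rings.siteFrame (toCentre F) j) ((R.pair j).1.map MvPowerSeries.C) ∧
        (Algebra.univPair F.site (Fin (numGlobal r F.s)) j).2.map Ψ =
          cj (Rings.siteFrame (toCentre F) j) ((R.pair j).2.map MvPowerSeries.C) := fun j => by
    rw [Algebra.univPair_map_fst, Algebra.univPair_map_snd, hΨS, Rings.sitePair, hC]
    exact ⟨rfl, rfl⟩
  refine ⟨Ψ, hΨ, fun j => ⟨_, hu j⟩, fun k a c => ?_, fun hpeu => ?_⟩
  · have htr : Ψ (Algebra.univPair F.site (Fin (numGlobal r F.s)) (F.t k)).1.trace =
        MvPowerSeries.C (R.pair (F.t k)).1.trace := by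
      rw [AddMonoidHom.map_trace, (hu (F.t k)).1, cj, Matrix.trace_mul_cycle, Units.inv_mul,
        one_mul, ← AddMonoidHom.map_trace]
    fin_cases a <;> fin_cases c <;> simp [stepMatrix, stepR, degMatrix] <;>
      exact htr
  · obtain ⟨j₀, e, he, hkill⟩ := R.redundant hpeu
    obtain ⟨x, hx, hxe⟩ := Rings.exists_solves_of_sitePresentation (matOf R.D.ρ.ρ R.b) F.el F.lift0
      F.site (toCentre F) hG0 hG1 R.Φ R.Φ_X Ψ hΨm hΨt hΨS j₀ e he
    refine ⟨j₀, x, hx, fun A _ _ _ _ _ _ hA f hf h => ?_⟩
    have h0 : MvPowerSeries.map (f : R.D.R →+* A) (Ψ x) = 0 := by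
      rw [hxe]; exact hkill A hA f hf h
    exact ⟨h0, fun d => Rings.map_coeff_eq_zero_of_map f h0 d⟩

end LevelRings

end Fermat.Agent.Lifting.Raise

end
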