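import Fermat.Agent.Lifting.Raise.NodeFamily
import Fermat.Agent.Lifting.Raise.Presentation
import Fermat.Agent.Lifting.Rings.SharpPair

/-!
# The maps down at a step

* `nodeRing.restrict`: forgetting nodes of a family.
* `NodeFamilyMap.down_surjective`: unless `p` is peu ramifiée the maps down are jointly surjective;
  if it is, they are so up to a series solving for one free variable, as the cokernel carries both
  the strictly ordinary representation and the flat one of the level without `p`.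
-/

set_option autoImplicit false
set_option linter.style.haveILetI false
set_option linter.unusedSectionVars false

noncomputable section

open IsLocalRing Polynomial

namespace Fermat.Agent.Lifting.Raise

open RT.Diamond
open RT (FrameVar)
open RT.Assembly (LocalInputs StrictOrdinaryOfNewform)
open RT.LocalRing (PSR)
open Rings (HasFrobenius nodeCond)
open Deformation (Mat matOf mapRep)

local notation "ℚ̄" => AlgebraicClosure ℚ
local notation "Γℚ" => (AlgebraicClosure ℚ ≃ₐ[ℚ] AlgebraicClosure ℚ)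

variable {W : WeierstrassCurve ℤ} {hΔ : W.Δ ≠ 0} {p L : ℕ} [Fact p.Prime]
  {O : Type} [CommRing O] [IsDomain O] [IsDiscreteValuationRing O]
  [IsAdicComplete (maximalIdeal O) O] [Finite (ResidueField O)] [CharZero O]
  {B : RaiseData W hΔ p L O} {r n : ℕ}

namespace nodeRing

variable {Q : RaiseLevel B r n} {J J' : Type} {S : J → Finset ℕ} {Lev : J → ℕ}
  [∀ j, NeZero (Lev j)] {new : J → Finset ℕ} {D : J → ℕ}
  (M : ∀ j, NodeModel Q (S j) (Lev j) (new j) (D j)) (R : Finset ℕ) (ι : J' → J)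

theorem comp_mem (x : nodeRing M R) :
    (fun j => (x : ∀ j, Matrix (Fin (D j)) (Fin (D j)) Q.Λ) (ι j)) ∈
      nodeRing (fun j => M (ι j)) R := by
  obtain ⟨x, hx⟩ := x
  show (fun j => x (ι j)) ∈ nodeRing (fun j => M (ι j)) R
  induction hx using Algebra.adjoin_induction with
  | mem x hx =>
    obtain ⟨ℓ, hℓ, rfl⟩ := hx
    exact Algebra.subset_adjoin ⟨ℓ, hℓ, rfl⟩
  | algebraMap c => exact Subalgebra.algebraMap_mem _ c
  | add a b _ _ ha hb => exact add_mem ha hb
  | mul a b _ _ ha hb => exact mul_mem ha hb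

/-- Forgetting the nodes outside the range of `ι`. -/
def restrict : nodeRing M R →ₐ[O] nodeRing (fun j => M (ι j)) R where
  toFun x := ⟨fun j => (x : ∀ j, Matrix (Fin (D j)) (Fin (D j)) Q.Λ) (ι j), comp_mem M R ι x⟩
  map_one' := rfl
  map_mul' _ _ := rfl
  map_zero' := rfl
  map_add' _ _ := rfl
  commutes' _ := rfl

theorem proj_restrict (j : J') (x : nodeRing M R) :
    proj (fun j => M (ι j)) R j (restrict M R ι x) = proj M R (ι j) x := rfl

theorem restrict_op (ℓ : Nat.Primes) (hℓ : (ℓ : ℕ) ∉ R) :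
    restrict M R ι (op M R ℓ) = op (fun j => M (ι j)) R ℓ := by
  rw [op_of_not_mem M hℓ, op_of_not_mem (fun j => M (ι j)) hℓ]
  rfl

theorem restrict_surjective : Function.Surjective (restrict M R ι) := by
  rintro ⟨y, hy⟩
  suffices ∃ x : nodeRing M R, (fun j => (x : ∀ j, Matrix (Fin (D j)) (Fin (D j)) Q.Λ) (ι j)) = y by
    obtain ⟨x, hx⟩ := this
    exact ⟨x, Subtype.ext hx⟩
  induction hy using Algebra.adjoin_induction with
  | mem y hy =>
    obtain ⟨ℓ, hℓ, rfl⟩ := hy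
    exact ⟨⟨_, Algebra.subset_adjoin ⟨ℓ, hℓ, rfl⟩⟩, rfl⟩
  | algebraMap c => exact ⟨algebraMap Q.Λ _ c, rfl⟩
  | add a b _ _ ha hb =>
    obtain ⟨x, rfl⟩ := ha
    obtain ⟨x', rfl⟩ := hb
    exact ⟨x + x', rfl⟩
  | mul a b _ _ ha hb =>
    obtain ⟨x, rfl⟩ := ha
    obtain ⟨x', rfl⟩ := hb
    exact ⟨x * x', rfl⟩

/-- The components at two nodes lie in the algebra generated by the pairs of operators. -/
theorem pair_mem (j j' : J) (y : nodeRing M R) :
    (proj M R j y, proj M R j' y) ∈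
      Algebra.adjoin Q.Λ ((fun ℓ : Nat.Primes => ((M j).op ℓ, (M j').op ℓ)) ''
        {ℓ | (ℓ : ℕ) ∉ R}) := by
  obtain ⟨y, hy⟩ := y
  show (y j, y j') ∈ _
  induction hy using Algebra.adjoin_induction with
  | mem y hy =>
    obtain ⟨ℓ, hℓ, rfl⟩ := hy
    exact Algebra.subset_adjoin ⟨ℓ, hℓ, rfl⟩
  | algebraMap a => exact Subalgebra.algebraMap_mem _ a
  | add a b _ _ ha hb =>
    rw [Pi.add_apply, Pi.add_apply, ← Prod.mk_add_mk]
    exact add_mem ha hb
  | mul a b _ _ ha hb =>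
    rw [Pi.mul_apply, Pi.mul_apply, ← Prod.mk_mul_mk]
    exact Subalgebra.mul_mem _ ha hb

end nodeRing

/-- The conditions of the nodes pass to base change along every local homomorphism with finite
residue field. -/
theorem nodeCond_baseChangeAlong {R A : Type} [CommRing R] [IsLocalRing R] [Algebra O R]
    [CommRing A] [IsLocalRing A] [Algebra O A] [Finite (ResidueField A)] (hp2 : p ≠ 2)
    (f : R →+* A) (hf : IsLocalHom f) {fl st : Prop} {Sig Q : Finset ℕ} {ρ : GaloisRepAdic R}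
    (h : nodeCond O p fl st Sig Q ρ) : nodeCond O p fl st Sig Q (ρ.baseChangeAlong f hf) :=
  ⟨(RT.isDescending_detIsCyclotomic (Fact.out : p.Prime).ne_zero).baseChange f hf h.1,
    fun hfl => RT.FlatCond.isFlatAt_baseChangeAlong f hf (h.2.1 hfl),
    fun hst => ((RT.isDescending_det_strictOrdinary (Fact.out : p.Prime) hp2).baseChange f hf
      ⟨h.1, h.2.2.1 hst⟩).2,
    fun q hq hqp hqS hqQ =>
      (RT.isDescending_isUnramifiedAt (p := p) q).baseChange f hf (h.2.2.2 q hq hqp hqS hqQ)⟩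

/-- A finite local algebra receiving a deformation and, with the same Frobenius polynomials, a
flat representation is a flat point. -/
theorem nodeCond_flat_of_frobenius {F : RaiseFrames B} {Q : RaiseLevel B r n}
    (R : LevelRings F Q) (hpL : p ∣ L) {C R₀ : Type} [CommRing C] [IsLocalRing C] [Algebra O C]
    [IsLocalHom (algebraMap O C)] [IsHausdorff (maximalIdeal C) C]
    (hC : Function.Surjective (residue C ∘ algebraMap O C))
    [CommRing R₀] [IsLocalRing R₀] (f : R.D.R →ₐ[O] C) (hf : IsLocalHom (f : R.D.R →+* C))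
    (h : R₀ →+* C) (hh : IsLocalHom h) (ρ₀ : GaloisRepAdic R₀) (hflat : ρ₀.IsFlatAt p)
    (hfrob : ∀ ℓ : ℕ, ℓ.Prime → ℓ ∉ Q.S' → ∀ P : ValuationSubring ℚ̄, P.LiesOverPrime ℓ →
      ∀ σ : Γℚ, P.IsFrobeniusAt σ ℓ →
        (LinearMap.charpoly (R.D.ρ.ρ σ)).map (f : R.D.R →+* C) =
          (LinearMap.charpoly (ρ₀.ρ σ)).map h) :
    nodeCond O p True True (raiseSites W p) Q.aux (R.D.ρ.baseChangeAlong (f : R.D.R →+* C) hf) := by
  have : Finite (ResidueField C) := Finite.of_surjective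
    (fun x : ResidueField O => ResidueField.map (algebraMap O C) x) fun z => by
      obtain ⟨c, rfl⟩ := hC z
      exact ⟨residue O c, ResidueField.map_residue _ _⟩
  have h1 : raiseCond W p L O Q.aux (R.D.ρ.baseChangeAlong (f : R.D.R →+* C) hf) :=
    nodeCond_baseChangeAlong B.hp2 _ hf R.D.isOfType
  obtain ⟨bA, hbA⟩ := Deformation.exists_basis_baseChangeAlong R.D.ρ R.b (f : R.D.R →+* C) hf
  obtain ⟨e⟩ := Rings.residual_isEquiv_baseChangeAlong R.D R.b F.bbar R.residueMat_eq f hf bA hbA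
  have hirr : (R.D.ρ.baseChangeAlong (f : R.D.R →+* C) hf).residual.IsAbsolutelyIrreducible :=
    Density.isAbsolutelyIrreducible_of_isEquiv ⟨e.symm⟩
      (RT.isAbsolutelyIrreducible_baseChangeAlong _ _ R.D.absIrr)
  obtain ⟨e'⟩ : (R.D.ρ.baseChangeAlong (f : R.D.R →+* C) hf).IsEquiv
      (ρ₀.baseChangeAlong h hh) := by
    refine Density.adic_isEquiv_of_frobenius _ _ Q.S' hirr fun ℓ hℓ hℓS P hP σ hσ => ?_
    rw [Rings.charpoly_baseChangeAlong, Rings.charpoly_baseChangeAlong]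
    exact hfrob ℓ hℓ hℓS P hP σ hσ
  exact ⟨h1.1, fun _ => Density.adic_isFlatAt_of_isEquiv ⟨e'.symm⟩
      (RT.FlatCond.isFlatAt_baseChangeAlong h hh hflat),
    fun _ => h1.2.2.1 hpL, h1.2.2.2⟩

/-- **The element lifts with zero second component.** If a finite local algebra `T` surjects to
`A`, a target of the universal ring, and to `A'`, carrying a flat representation with the same
Frobenius traces, then an element killed by all flat points lifts to `T` with image zero in `A'`. -/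
theorem exists_lift_of_flat {F : RaiseFrames B} {Q : RaiseLevel B r n} (R : LevelRings F Q)
    (hpL : p ∣ L) {T A A' : Type} [CommRing T] [IsLocalRing T] [Algebra O T] [Module.Finite O T]
    [IsLocalHom (algebraMap O T)]
    (hT : Function.Surjective (residue T ∘ algebraMap O T))
    [CommRing A] [Algebra O A] [CommRing A'] [IsLocalRing A'] [Algebra O A']
    (πN : T →ₐ[O] A) (hπN : Function.Surjective πN) (πF : T →ₐ[O] A')
    (hπF : Function.Surjective πF) (φN : R.D.R →ₐ[O] A)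
    (hφloc : Nontrivial A → ∀ x ∈ maximalIdeal R.D.R, ¬ IsUnit (φN x))
    (ρ₀ : GaloisRepAdic A') (hflat : ρ₀.IsFlatAt p) (op : Nat.Primes → T)
    (hφ : ∀ (ℓ : ℕ) (hℓ : ℓ.Prime), ℓ ∉ Q.S' → ∀ P : ValuationSubring ℚ̄, P.LiesOverPrime ℓ →
      ∀ σ : Γℚ, P.IsFrobeniusAt σ ℓ →
        (LinearMap.charpoly (R.D.ρ.ρ σ)).map (φN : R.D.R →+* A) =
          X ^ 2 - C (πN (op ⟨ℓ, hℓ⟩)) * X + C (ℓ : A))
    (hρ₀ : ∀ (ℓ : ℕ) (hℓ : ℓ.Prime), ℓ ∉ Q.S' → ∀ P : ValuationSubring ℚ̄, P.LiesOverPrime ℓ →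
      ∀ σ : Γℚ, P.IsFrobeniusAt σ ℓ →
        LinearMap.charpoly (ρ₀.ρ σ) = X ^ 2 - C (πF (op ⟨ℓ, hℓ⟩)) * X + C (ℓ : A'))
    (c : R.D.R)
    (hkill : ∀ (A : Type) [CommRing A] [IsLocalRing A] [IsNoetherianRing A]
      [IsAdicComplete (maximalIdeal A) A] [Algebra O A] [IsLocalHom (algebraMap O A)],
      Function.Surjective (residue A ∘ algebraMap O A) →
      ∀ (f : R.D.R →ₐ[O] A) (hf : IsLocalHom (f : R.D.R →+* A)),
        nodeCond O p True True (raiseSites W p) Q.aux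
          (R.D.ρ.baseChangeAlong (f : R.D.R →+* A) hf) → f c = 0) :
    ∃ v, πN v = φN c ∧ πF v = 0 := by
  obtain ⟨y, hy⟩ := hπN (φN c)
  let I : Ideal T := RingHom.ker πN ⊔ RingHom.ker πF
  suffices hI : y ∈ I by
    obtain ⟨u, hu, v, hv, huv⟩ := Submodule.mem_sup.1 hI
    refine ⟨v, ?_, RingHom.mem_ker.1 hv⟩
    rw [← hy, ← huv, map_add, RingHom.mem_ker.1 hu, zero_add]
  by_contra hyI
  haveI : Nontrivial (T ⧸ I) :=
    Ideal.Quotient.nontrivial_iff.2 fun htop => hyI (htop ▸ Submodule.mem_top)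
  let q : T →ₐ[O] T ⧸ I := Ideal.Quotient.mkₐ O I
  have hq : Function.Surjective q := Ideal.Quotient.mk_surjective
  haveI : IsLocalRing (T ⧸ I) := IsLocalRing.of_surjective' (q : T →+* T ⧸ I) hq
  haveI : IsLocalHom (q : T →+* T ⧸ I) := IsLocalHom.of_surjective _ hq
  haveI : IsLocalHom (algebraMap O (T ⧸ I)) := by
    rw [← q.comp_algebraMap]
    exact RingHom.isLocalHom_comp _ _
  haveI : Module.Finite O (T ⧸ I) := Module.Finite.of_surjective q.toLinearMap hq
  haveI : IsNoetherianRing (T ⧸ I) := IsNoetherianRing.of_finite O _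
  haveI : IsAdicComplete (maximalIdeal (T ⧸ I)) (T ⧸ I) :=
    IsLocalRing.isAdicComplete_of_module_finite (𝒪 := O)
  have hC : Function.Surjective (residue (T ⧸ I) ∘ algebraMap O (T ⧸ I)) := fun z => by
    obtain ⟨a, rfl⟩ := residue_surjective z
    obtain ⟨b, rfl⟩ := hq a
    obtain ⟨o, ho⟩ := hT (residue _ b)
    refine ⟨o, ?_⟩
    rw [Function.comp_apply, ← q.commutes, ← sub_eq_zero, ← map_sub, residue_eq_zero_iff,
      ← map_sub]
    exact map_nonunit (q : T →+* T ⧸ I) _ (by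
      rw [← residue_eq_zero_iff, map_sub, sub_eq_zero]
      exact ho)
  let qN : A →ₐ[O] T ⧸ I :=
    (Ideal.Quotient.factorₐ O (le_sup_left : RingHom.ker πN ≤ I)).comp
      (Ideal.quotientKerAlgEquivOfSurjective hπN).symm.toAlgHom
  let qF : A' →ₐ[O] T ⧸ I :=
    (Ideal.Quotient.factorₐ O (le_sup_right : RingHom.ker πF ≤ I)).comp
      (Ideal.quotientKerAlgEquivOfSurjective hπF).symm.toAlgHom
  have hqN : ∀ b, qN (πN b) = q b := fun b => by
    have e : (Ideal.quotientKerAlgEquivOfSurjective hπN).symm (πN b) =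
        Ideal.Quotient.mk (RingHom.ker πN) b :=
      (Ideal.quotientKerAlgEquivOfSurjective hπN).symm_apply_eq.2 rfl
    show Ideal.Quotient.factorₐ O (le_sup_left : RingHom.ker πN ≤ I)
      ((Ideal.quotientKerAlgEquivOfSurjective hπN).symm (πN b)) = _
    rw [e]
    rfl
  have hqF : ∀ b, qF (πF b) = q b := fun b => by
    have e : (Ideal.quotientKerAlgEquivOfSurjective hπF).symm (πF b) =
        Ideal.Quotient.mk (RingHom.ker πF) b :=
      (Ideal.quotientKerAlgEquivOfSurjective hπF).symm_apply_eq.2 rfl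
    show Ideal.Quotient.factorₐ O (le_sup_right : RingHom.ker πF ≤ I)
      ((Ideal.quotientKerAlgEquivOfSurjective hπF).symm (πF b)) = _
    rw [e]
    rfl
  have hqNs : Function.Surjective qN := fun z => by
    obtain ⟨b, rfl⟩ := hq z
    exact ⟨πN b, hqN b⟩
  have hqFs : Function.Surjective qF := fun z => by
    obtain ⟨b, rfl⟩ := hq z
    exact ⟨πF b, hqF b⟩
  haveI hnt : Nontrivial A := (qN : A →+* T ⧸ I).domain_nontrivial
  haveI : IsLocalRing A := IsLocalRing.of_surjective' (πN : T →+* A) hπN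
  let f : R.D.R →ₐ[O] T ⧸ I := qN.comp φN
  have hf : IsLocalHom (f : R.D.R →+* T ⧸ I) :=
    haveI : IsLocalHom (φN : R.D.R →+* A) :=
      ⟨fun x hx => by_contra fun hne => hφloc hnt x hne hx⟩
    haveI : IsLocalHom (qN : A →+* T ⧸ I) := IsLocalHom.of_surjective _ hqNs
    (RingHom.isLocalHom_comp (qN : A →+* T ⧸ I) (φN : R.D.R →+* A) :)
  have hh : IsLocalHom (qF : A' →+* T ⧸ I) := IsLocalHom.of_surjective _ hqFs
  have hcond : nodeCond O p True True (raiseSites W p) Q.aux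
      (R.D.ρ.baseChangeAlong (f : R.D.R →+* T ⧸ I) hf) := by
    refine nodeCond_flat_of_frobenius R hpL hC f hf _ hh ρ₀ hflat fun ℓ hℓ hℓS P hP σ hσ => ?_
    have e : (f : R.D.R →+* T ⧸ I) =
        (qN : A →+* T ⧸ I).comp (φN : R.D.R →+* A) := rfl
    rw [e, ← Polynomial.map_map, hφ ℓ hℓ hℓS P hP σ hσ, hρ₀ ℓ hℓ hℓS P hP σ hσ]
    simp only [Polynomial.map_add, Polynomial.map_sub, Polynomial.map_mul, Polynomial.map_pow,
      Polynomial.map_X, Polynomial.map_C, Polynomial.map_natCast, map_natCast, RingHom.coe_coe,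
      hqN, hqF]
  refine hyI (Ideal.Quotient.eq_zero_iff_mem.1 ?_)
  show q y = 0
  rw [← hqN, hy]
  exact hkill (T ⧸ I) hC f hf hcond

section Family

variable {F : RaiseFrames B} {Q : RaiseLevel B r n} {DM : Fin (F.m + 1) → ℕ} {DC : Fin F.m → ℕ}
  {M : LevelModels F Q DM DC} {R : LevelRings F Q}

/-- **A pair of operators with flat second component.** The flat points kill `c`, so the action
of `c` on a node pairs with zero on a model of a level without `p`. -/
theorem pair_mem_of_flat (R : LevelRings F Q) (hpL : p ∣ L) (inputs : LocalInputs p)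
    (hso : StrictOrdinaryOfNewform p) (hirr : W.ModRepIsIrreducible p) (hb : IsRaisingBase W p L)
    {i i' : ℕ} {newA : Finset ℕ} {Da D' : ℕ} (a : NodeModel Q (Q.Sk F i) (Q.lev F i) newA Da)
    (flat : NodeModel Q (Q.Sk F i') (Q.levOff F i') ∅ D')
    (φN : R.D.R →ₐ[O] nodeRing (fun _ : Unit => a) Q.S')
    (hφloc : Nontrivial (nodeRing (fun _ : Unit => a) Q.S') →
      ∀ x ∈ maximalIdeal R.D.R, ¬ IsUnit (φN x))
    (hφ : ∀ (ℓ : ℕ) (hℓ : ℓ.Prime), ℓ ∉ Q.S' → ∀ P : ValuationSubring ℚ̄, P.LiesOverPrime ℓ →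
      ∀ σ : Γℚ, P.IsFrobeniusAt σ ℓ →
        (LinearMap.charpoly (R.D.ρ.ρ σ)).map (φN : R.D.R →+* nodeRing (fun _ : Unit => a) Q.S') =
          X ^ 2 - C (nodeRing.op (fun _ : Unit => a) Q.S' ⟨ℓ, hℓ⟩) * X +
            C (ℓ : nodeRing (fun _ : Unit => a) Q.S'))
    (c : R.D.R)
    (hkill : ∀ (A : Type) [CommRing A] [IsLocalRing A] [IsNoetherianRing A]
      [IsAdicComplete (maximalIdeal A) A] [Algebra O A] [IsLocalHom (algebraMap O A)],
      Function.Surjective (residue A ∘ algebraMap O A) →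
      ∀ (f : R.D.R →ₐ[O] A) (hf : IsLocalHom (f : R.D.R →+* A)),
        nodeCond O p True True (raiseSites W p) Q.aux
          (R.D.ρ.baseChangeAlong (f : R.D.R →+* A) hf) → f c = 0) :
    (nodeRing.proj (fun _ : Unit => a) Q.S' () (φN c), (0 : Matrix (Fin D') (Fin D') Q.Λ)) ∈
      Algebra.adjoin Q.Λ ((fun ℓ : Nat.Primes => (a.op ℓ, flat.op ℓ)) ''
        {ℓ | (ℓ : ℕ) ∉ Q.S'}) := by
  classical
  let D₂ : Bool → ℕ := fun j => bif j then Da else D'
  let S₂ : Bool → Finset ℕ := fun j => bif j then Q.Sk F i else Q.Sk F i'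
  let Lev₂ : Bool → ℕ := fun j => bif j then Q.lev F i else Q.levOff F i'
  haveI : ∀ j, NeZero (Lev₂ j) := fun j => by
    cases j
    exacts [⟨Q.levOff_ne_zero F _⟩, ⟨Q.lev_ne_zero F _⟩]
  let new₂ : Bool → Finset ℕ := fun j => bif j then newA else ∅
  let M₂ : ∀ j, NodeModel Q (S₂ j) (Lev₂ j) (new₂ j) (D₂ j) := fun j =>
    match j with
    | true => a
    | false => flat
  have hS₂ : ∀ j, S₂ j ⊆ Q.S' := fun j => by cases j <;> exact Q.Sk_subset F _
  let πN : nodeRing M₂ Q.S' →ₐ[O] nodeRing (fun _ : Unit => a) Q.S' :=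
    nodeRing.restrict M₂ Q.S' (fun _ : Unit => true)
  let πF : nodeRing M₂ Q.S' →ₐ[O] nodeRing (fun _ : Unit => flat) Q.S' :=
    nodeRing.restrict M₂ Q.S' (fun _ : Unit => false)
  have hπN : Function.Surjective πN := nodeRing.restrict_surjective _ _ _
  have hπF : Function.Surjective πF := nodeRing.restrict_surjective _ _ _
  have hpair : ∀ y : nodeRing M₂ Q.S', (nodeRing.proj M₂ Q.S' true y, nodeRing.proj M₂ Q.S' false y)
      ∈ Algebra.adjoin Q.Λ ((fun ℓ : Nat.Primes => (a.op ℓ, flat.op ℓ)) ''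
        {ℓ | (ℓ : ℕ) ∉ Q.S'}) := nodeRing.pair_mem M₂ Q.S' true false
  have hlift : ∀ v : nodeRing M₂ Q.S', πN v = φN c → πF v = 0 →
      (nodeRing.proj (fun _ : Unit => a) Q.S' () (φN c), (0 : Matrix (Fin D') (Fin D') Q.Λ)) ∈
        Algebra.adjoin Q.Λ ((fun ℓ : Nat.Primes => (a.op ℓ, flat.op ℓ)) ''
          {ℓ | (ℓ : ℕ) ∉ Q.S'}) := fun v h1 h2 => by
    have e1 : nodeRing.proj M₂ Q.S' true v = nodeRing.proj (fun _ : Unit => a) Q.S' () (φN c) :=
      congrArg (nodeRing.proj (fun _ : Unit => a) Q.S' ()) h1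
    have e2 : nodeRing.proj M₂ Q.S' false v = (0 : Matrix (Fin D') (Fin D') Q.Λ) :=
      (congrArg (nodeRing.proj (fun _ : Unit => flat) Q.S' ()) h2).trans (map_zero _)
    have h3 := hpair v
    rwa [e1, e2] at h3
  by_cases hD' : D' = 0
  · subst hD'
    obtain ⟨y, hy⟩ := hπN (φN c)
    exact hlift y hy (nodeRing.eq_zero_of_proj _ fun _ => Subsingleton.elim _ _)
  haveI : IsLocalRing (nodeRing M₂ Q.S') :=
    nodeRing.isLocalRing M₂ hS₂ Q.raisePrimes_subset ⟨false, hD'⟩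
  obtain ⟨_, ρ₀, hfl, -, -, hρ₀⟩ := exists_flatNodeRep Q F inputs hso hirr hb hpL flat hD'
  have e1 : ∀ ℓ : Nat.Primes, (ℓ : ℕ) ∉ Q.S' →
      πN (nodeRing.op M₂ Q.S' ℓ) = nodeRing.op (fun _ : Unit => a) Q.S' ℓ :=
    nodeRing.restrict_op M₂ Q.S' (fun _ : Unit => true)
  have e2 : ∀ ℓ : Nat.Primes, (ℓ : ℕ) ∉ Q.S' →
      πF (nodeRing.op M₂ Q.S' ℓ) = nodeRing.op (fun _ : Unit => flat) Q.S' ℓ :=
    nodeRing.restrict_op M₂ Q.S' (fun _ : Unit => false)
  obtain ⟨v, hv1, hv2⟩ := exists_lift_of_flat R hpL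
    (nodeRing.residue_surjective' M₂ hS₂ Q.raisePrimes_subset) πN hπN πF hπF φN hφloc ρ₀ hfl
    (nodeRing.op M₂ Q.S')
    (fun ℓ hℓ hℓS P hP σ hσ => by rw [e1 ⟨ℓ, hℓ⟩ hℓS]; exact hφ ℓ hℓ hℓS P hP σ hσ)
    (fun ℓ hℓ hℓS P hP σ hσ => by rw [e2 ⟨ℓ, hℓ⟩ hℓS]; exact hρ₀ ℓ hℓ hℓS P hP σ hσ) c hkill
  exact hlift v hv1 hv2

namespace NodeFamilyMap

/-- Forgetting all nodes but one level. -/
def levRestrict (M : LevelModels F Q DM DC) (k : Fin (F.m + 1)) :
    famRing M →ₐ[O] nodeRing (fun _ : Unit => M.node k) Q.S' :=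
  nodeRing.restrict (famModel M) Q.S' (fun _ : Unit => Sum.inl k)

theorem levRestrict_surjective (M : LevelModels F Q DM DC) (k : Fin (F.m + 1)) :
    Function.Surjective (levRestrict M k) :=
  nodeRing.restrict_surjective _ _ _

theorem levRestrict_op (M : LevelModels F Q DM DC) (k : Fin (F.m + 1)) (ℓ : Nat.Primes)
    (hℓ : (ℓ : ℕ) ∉ Q.S') : levRestrict M k (nodeRing.op (famModel M) Q.S' ℓ) =
      nodeRing.op (fun _ : Unit => M.node k) Q.S' ℓ :=
  nodeRing.restrict_op (famModel M) Q.S' (fun _ : Unit => Sum.inl k) ℓ hℓ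

/-- The map to the ring of one level. -/
def levMap {Dd : GaloisRep.DeformationRingData O (raiseRep hΔ B.ι) (raiseCond W p L O Q.aux)}
    (N : NodeFamilyMap M Dd) (k : Fin (F.m + 1)) :
    Dd.R →ₐ[O] nodeRing (fun _ : Unit => M.node k) Q.S' :=
  (levRestrict M k).comp N.φ

theorem proj_levMap {Dd : GaloisRep.DeformationRingData O (raiseRep hΔ B.ι) (raiseCond W p L O Q.aux)}
    (N : NodeFamilyMap M Dd) (k : Fin (F.m + 1)) (x : Dd.R) :
    nodeRing.proj (fun _ : Unit => M.node k) Q.S' () (N.levMap k x) = N.actLev k x := rfl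

theorem levMap_nonunit
    {Dd : GaloisRep.DeformationRingData O (raiseRep hΔ B.ι) (raiseCond W p L O Q.aux)}
    (N : NodeFamilyMap M Dd) (k : Fin (F.m + 1)) (x : Dd.R) (hx : x ∈ maximalIdeal Dd.R)
    (hne : Nontrivial (nodeRing (fun _ : Unit => M.node k) Q.S')) : ¬ IsUnit (N.levMap k x) := by
  haveI := N.isLocalRing
  haveI := N.isLocalHom
  haveI := hne
  haveI : IsLocalHom (levRestrict M k : famRing M →+* nodeRing (fun _ : Unit => M.node k) Q.S') :=
    IsLocalHom.of_surjective _ (levRestrict_surjective M k)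
  intro hu
  exact (map_nonunit (N.φ : Dd.R →+* famRing M) x hx)
    (isUnit_of_map_unit
      (levRestrict M k : famRing M →+* nodeRing (fun _ : Unit => M.node k) Q.S') _ hu)

theorem levMap_frobenius
    {Dd : GaloisRep.DeformationRingData O (raiseRep hΔ B.ι) (raiseCond W p L O Q.aux)}
    (N : NodeFamilyMap M Dd) (k : Fin (F.m + 1)) (ℓ : ℕ) (hℓ : ℓ.Prime) (hℓS : ℓ ∉ Q.S')
    (P : ValuationSubring ℚ̄) (hP : P.LiesOverPrime ℓ) (σ : Γℚ) (hσ : P.IsFrobeniusAt σ ℓ) :
    (LinearMap.charpoly (Dd.ρ.ρ σ)).map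
        (N.levMap k : Dd.R →+* nodeRing (fun _ : Unit => M.node k) Q.S') =
      X ^ 2 - C (nodeRing.op (fun _ : Unit => M.node k) Q.S' ⟨ℓ, hℓ⟩) * X +
        C (ℓ : nodeRing (fun _ : Unit => M.node k) Q.S') := by
  have e : (N.levMap k : Dd.R →+* nodeRing (fun _ : Unit => M.node k) Q.S') =
      (levRestrict M k : famRing M →+* nodeRing (fun _ : Unit => M.node k) Q.S').comp
        (N.φ : Dd.R →+* famRing M) := rfl
  have h := levRestrict_op M k ⟨ℓ, hℓ⟩ hℓS
  rw [e, ← Polynomial.map_map, (N.frobenius ℓ hℓ hℓS P hP σ hσ).1]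
  simp only [Polynomial.map_add, Polynomial.map_sub, Polynomial.map_mul, Polynomial.map_pow,
    Polynomial.map_X, Polynomial.map_C, Polynomial.map_natCast, map_natCast, RingHom.coe_coe, h]

/-- **The maps down are jointly surjective up to an element outside the prime of the step.** -/
theorem down_surjective (N : NodeFamilyMap M R.D) (inputs : LocalInputs p)
    (hso : StrictOrdinaryOfNewform p) (hirr : W.ModRepIsIrreducible p) (hb : IsRaisingBase W p L)
    (Ψ : PSR (Fin F.s) (Fin (numGlobal r F.s)) O →ₐ[O] MvPowerSeries (FrameVar F.s) R.D.R)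
    (hΨ : Peu W p L → ∃ (j₀ : Fin (numGlobal r F.s))
        (x : PSR (Fin F.s) (Fin (numGlobal r F.s)) O),
      (∀ N, Patching.RaiseData.Solves (some j₀) N x) ∧
      ∀ (A : Type) [CommRing A] [IsLocalRing A] [IsNoetherianRing A]
        [IsAdicComplete (maximalIdeal A) A] [Algebra O A] [IsLocalHom (algebraMap O A)],
        Function.Surjective (residue A ∘ algebraMap O A) →
        ∀ (f : R.D.R →ₐ[O] A) (hf : IsLocalHom (f : R.D.R →+* A)),
          nodeCond O p True True (raiseSites W p) Q.aux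
            (R.D.ρ.baseChangeAlong (f : R.D.R →+* A) hf) →
          MvPowerSeries.map (f : R.D.R →+* A) (Ψ x) = 0 ∧
            ∀ d, f (MvPowerSeries.coeff d (Ψ x)) = 0)
    (k : Fin F.m) :
    ∃ x : PSR (Fin F.s) (Fin (numGlobal r F.s)) O,
      (∃ o, Patching.RaiseData.Solves o n x) ∧
      ∀ (d : FrameVar F.s →₀ ℕ) (w : Fin 2 → Fin (DM k.castSucc) → Q.Λ), ∃ v, ∀ i,
        (M.down k i).mulVec v =
          (N.actLev k.castSucc (MvPowerSeries.coeff d (Ψ x))).mulVec (w i) := by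
  classical
  by_cases hpeu : Peu W p L
  swap
  · obtain ⟨Z, hZ⟩ := M.down_surj hpeu k
    refine ⟨1, ⟨none, by simp [Patching.RaiseData.Solves]⟩, fun d w => ?_⟩
    refine Rings.exists_preimage_of_witness (M.down k)
      (fun j => Z j * N.actLev k.castSucc (MvPowerSeries.coeff d (Ψ 1))) _ (fun i j => ?_) w
    rw [← Matrix.mul_assoc, hZ]
    split_ifs with h
    · rw [Matrix.one_mul]
    · rw [Matrix.zero_mul]
  obtain ⟨j₀, x, hx, hkill⟩ := hΨ hpeu
  obtain ⟨D', flat, hflat⟩ := M.down_coker hpeu k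
  refine ⟨x, ⟨some j₀, hx n⟩, fun d w => ?_⟩
  have hmem := pair_mem_of_flat R hpeu.1 inputs hso hirr hb (M.node k.castSucc) flat
    (N.levMap k.castSucc) (fun h y hy => N.levMap_nonunit k.castSucc y hy h)
    (N.levMap_frobenius k.castSucc)
    (MvPowerSeries.coeff d (Ψ x)) fun A _ _ _ _ _ _ hA f hf h => (hkill A hA f hf h).2 d
  rw [N.proj_levMap] at hmem
  obtain ⟨Z, hZ⟩ := hflat _ hmem
  exact Rings.exists_preimage_of_witness (M.down k) Z _ hZ w

end NodeFamilyMap

end Family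

end Fermat.Agent.Lifting.Raise

end
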