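import Fermat.Agent.Lifting.Raise.Presentation
import Fermat.Agent.Lifting.Squarefree.RaisePoint

/-!
# The curve as the point of a level

`LevelRings.exists_point`: a point `pt : R →ₐ[O] O` of the universal ring of a level, the curve's:
elements summing with their inverse to the trace of inertia at an auxiliary prime go to `1`, the
pairs at the sites have type `same`, and the traces of Frobenius go to `a_ℓ(W)`.
`LevelRings.op_aug`: where the trace of Frobenius acts as the Hecke operator of the top node, its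
action at the augmentation is the fixed operator.
-/

set_option autoImplicit false
set_option linter.style.haveILetI false

noncomputable section

open IsLocalRing

namespace Fermat.Agent.Lifting.Raise

open RT.Diamond
open Deformation (matOf)

local notation "ℚ̄" => AlgebraicClosure ℚ
local notation "Γℚ" => (AlgebraicClosure ℚ ≃ₐ[ℚ] AlgebraicClosure ℚ)

/-- A valuation ring over `ℓ`, with a Frobenius element. -/
theorem exists_frobAt (ℓ : Nat.Primes) :
    ∃ (A : ValuationSubring ℚ̄) (σ : Γℚ), A.LiesOverPrime ℓ ∧ A.IsFrobeniusAt σ ℓ :=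
  Galois.exists_valuationSubring_isFrobeniusAt ℓ.2

/-- A valuation ring over `ℓ`. -/
def frobPlace (ℓ : Nat.Primes) : ValuationSubring ℚ̄ := (exists_frobAt ℓ).choose

/-- A Frobenius element at `frobPlace ℓ`. -/
def frobElem (ℓ : Nat.Primes) : Γℚ := (exists_frobAt ℓ).choose_spec.choose

theorem frobPlace_liesOverPrime (ℓ : Nat.Primes) : (frobPlace ℓ).LiesOverPrime ℓ :=
  (exists_frobAt ℓ).choose_spec.choose_spec.1

theorem frobElem_isFrobeniusAt (ℓ : Nat.Primes) :
    (frobPlace ℓ).IsFrobeniusAt (frobElem ℓ) ℓ :=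
  (exists_frobAt ℓ).choose_spec.choose_spec.2

variable {W : WeierstrassCurve ℤ} {hΔ : W.Δ ≠ 0} {p L : ℕ} [Fact p.Prime]
  {O : Type} [CommRing O] [IsDomain O] [IsDiscreteValuationRing O]
  [IsAdicComplete (maximalIdeal O) O] [Finite (ResidueField O)] [CharZero O]
  {B : RaiseData W hΔ p L O} {r n : ℕ} {F : RaiseFrames B} {Q : RaiseLevel B r n}

/-- The curve satisfies the condition of every level. -/
theorem raiseCond_pointAlong (B : RaiseData W hΔ p L O) (hW : W.IsSemistableModel)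
    (hb : IsRaisingBase W p L) (Q₀ : Finset ℕ) :
    raiseCond W p L O Q₀ (Residual.pointAlong hΔ B.φ B.φ_local) :=
  ⟨Residual.pointAlong_detIsCyclotomic hΔ _ _,
    fun h => Residual.pointAlong_isFlatAt hΔ _ _ fun hd => h (hb.p_dvd_iff.2 hd),
    fun h => Residual.pointAlong_isStrictOrdinaryAt hΔ _ _ B.hp2 hW (hb.p_dvd_iff.1 h),
    fun _ hq hqp hn _ => Residual.pointAlong_isUnramifiedAt hΔ _ _ hq
      (fun hd => hn ((mem_raiseSites_iff hΔ).2 ⟨hq, hqp, hd⟩)) hqp⟩

namespace LevelRings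

variable (R : LevelRings F Q)

/-- The trace of a Frobenius element at `ℓ` in the ring of the level. -/
def frobTrace (ℓ : Nat.Primes) : R.D.R := (matOf R.D.ρ.ρ R.b (frobElem ℓ)).trace

/-- **The point of the curve.** -/
theorem exists_point (hW : W.IsSemistableModel) (hirr : W.ModRepIsIrreducible p)
    (hb : IsRaisingBase W p L) :
    ∃ pt : R.D.R →ₐ[O] O,
      (∀ (i : Fin r) (T : RT.TamePair p (Q.qv i)) (a a' : R.D.R),
        (matOf R.D.ρ.ρ R.b T.σ).trace = a + a' → a * a' = 1 → pt a = 1) ∧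
      (∀ j, (F.site j).IsType .same ((R.pair j).1.map pt, (R.pair j).2.map pt)) ∧
      ∀ ℓ : Nat.Primes, (ℓ : ℕ) ∉ Q.S' →
        pt (R.frobTrace ℓ) = ((W.apOfModel ℓ : ℤ) : O) := by
  obtain ⟨pt, hpt⟩ := exists_isRaisePoint hΔ B.φ B.φ_local B.hp2 hirr B.ι
    (ρbar := raiseRep hΔ B.ι) ⟨ResidualGaloisRep.Equiv.refl _⟩
    (raiseCond_pointAlong B hW hb Q.aux) R.D
  refine ⟨pt, fun i T a a' htr hmul => ?_, fun j => ?_, fun ℓ hℓ => ?_⟩
  · obtain ⟨hqp, hgood, -⟩ :=
      (not_mem_raiseExcluded_iff hΔ (right_ne_zero_of_mul B.squarefree.ne_zero) (Q.qv i).2).1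
        (Q.not_mem i)
    exact hpt.map_eq_one_of_inertia R.b (Q.qv i).2 hgood hqp T.hA T.hσ htr hmul
  · exact hpt.isType_same_curveSite R.b (F.cs j)
  · obtain ⟨hℓp, hgood, -⟩ :=
      (not_mem_raiseExcluded_iff hΔ (right_ne_zero_of_mul B.squarefree.ne_zero) ℓ.2).1
        fun h => hℓ (Finset.mem_union_left _ h)
    exact hpt.map_trace_frobenius R.b ℓ.2 hℓp hgood (frobPlace_liesOverPrime ℓ)
      (frobElem_isFrobeniusAt ℓ)

/-- At the augmentation the trace of Frobenius acts on the top by the fixed operator. -/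
theorem op_aug {DM : Fin (F.m + 1) → ℕ} {DC : Fin F.m → ℕ} (M : LevelModels F Q DM DC)
    (T₀ : Nat.Primes → Matrix (Fin (DM (Fin.last F.m))) (Fin (DM (Fin.last F.m))) O)
    (hT₀ : ∀ ℓ : Nat.Primes, (ℓ : ℕ) ∉ Q.S' →
      ((M.node (Fin.last F.m)).op ℓ).map (aug O (ppow p Q.e)) = T₀ ℓ)
    {ℓ : Nat.Primes} (hℓ : (ℓ : ℕ) ∉ Q.S')
    (act : (Fin (DM (Fin.last F.m)) → Q.Λ) → (Fin (DM (Fin.last F.m)) → Q.Λ))
    (hact : ∀ v, act v = ((M.node (Fin.last F.m)).op ℓ).mulVec v)
    (i j : Fin (DM (Fin.last F.m))) :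
    Ideal.Quotient.mk (maximalIdeal O ^ n) (aug O (ppow p Q.e) (act (Pi.single j 1) i)) =
      Ideal.Quotient.mk (maximalIdeal O ^ n) (T₀ ℓ i j) := by
  rw [hact, Matrix.mulVec_single_one, ← hT₀ ℓ hℓ]
  rfl

end LevelRings

end Fermat.Agent.Lifting.Raise

end
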