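import Fermat.Agent.Lifting.Raise.SystemsParts
import Fermat.Agent.Lifting.Raise.Assembly
import Fermat.Agent.Lifting.Raise.NodeComp
import Fermat.Agent.Lifting.Raise.NodeDiamond
import Fermat.Agent.Lifting.Raise.NodeFamily
import Fermat.Agent.Lifting.Raise.PeuWitness
import Fermat.Agent.Lifting.Raise.Point
import Fermat.Agent.Lifting.Squarefree.OrdinaryTp
import Fermat.Agent.Lifting.Squarefree.TresPrime
import Fermat.Agent.LevelP.Ordinary.Datum
import Fermat.Agent.RT.Assembly.Externals
import Fermat.Agent.S29

/-!
# The systems exist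

`raiseSystemsExist`: models and rings at a level give a system of the patching argument.
-/

set_option autoImplicit false

noncomputable section

open IsLocalRing

namespace Fermat.Agent.Lifting.Raise

open RT.Diamond Patching
open Deformation (matOf)

/-- **Models and rings give systems.** -/
theorem raiseSystemsExist : RaiseSystemsExist := by
  intro W hΔ p L _ O _ _ _ _ _ _ hp hW hirr hlift hb B F ζ hζ r n Q R DM DC hDM M T₀ hT₀ ℒ hℒ
  have hS29 : RT.EigenformResidualRep := fun hg _ hp' _ _ _ φ => S29.result hg hp' φ
  have inputs := RT.Assembly.localInputs_of p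
  have hso := LevelP.strictOrdinaryOfNewform (p := p) B.hp2
  have htres := tresPrimeInLevel
  obtain ⟨N⟩ := nonempty_nodeFamilyMap M hS29 inputs hso htres hW hirr hb hDM R.D
  obtain ⟨pt, hpt_aux, hpt_same, hpt_op⟩ := R.exists_point hW hirr hb
  obtain ⟨Ψ, hΨs, hΨp, -, hΨpeu⟩ := R.exists_presentation
  let P : SystemParts R M ζ :=
    { Ψ := Ψ
      Ψ_surjective := hΨs
      Ψ_pair := hΨp
      a := R.auxElem
      a_pow := R.auxElem_pow
      χ := Q.auxChar hζ
      χ_delta := Q.auxChar_delta hζ
      lev := N.actLev
      cok := N.actCok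
      up_comm := N.up_comm
      down_comm := N.down_comm
      quot_comm := N.quot_comm
      lev_trace := fun k => R.proj_trace_step inputs (famModel M) N.φ
        (fun ℓ hℓ hℓS P hP σ hσ => (N.frobenius ℓ hℓ hℓS P hP σ hσ).2 R.b) k (.inl k.castSucc)
        rfl rfl
      old_lev := fun k => N.old hS29 inputs hso htres hW hirr hb hζ (.inl k)
      new_lev := fun k => N.new hS29 inputs hso htres hW hirr hb hζ (.inl k)
      old_cok := fun k => N.old hS29 inputs hso htres hW hirr hb hζ (.inr k)
      new_cok := fun k => N.new hS29 inputs hso htres hW hirr hb hζ (.inr k)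
      kill_base := N.pairsKill_base hS29 inputs hso htres ordinaryTpFive hp hW hirr hlift hb R.b
      kill_coker := fun k => N.pairsKill_coker k hS29 inputs hso htres hW hirr hlift hb R.b
      down_surjective := N.down_surjective inputs hso hirr hb Ψ hΨpeu
      pt := pt
      pt_a := fun i => hpt_aux i (R.auxPair i) (R.auxElem i) (R.auxElem' i) (R.auxElem_trace i)
        (R.auxElem_mul i)
      pt_same := hpt_same
      op := R.frobTrace
      pt_op := hpt_op
      lev_op := fun ℓ hℓ => N.actLev_trace (Fin.last F.m) ℓ.2 hℓ (frobPlace_liesOverPrime ℓ)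
        (frobElem_isFrobeniusAt ℓ) R.b }
  exact P.exists_isRaiseLevel hζ T₀ hT₀ ℒ hℒ (valid_patchData F hb _ hDM T₀ ℒ)

end Fermat.Agent.Lifting.Raise

end
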