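import Fermat.Agent.Lifting.Raise.NodePoints
import Fermat.Agent.Lifting.Squarefree.PairConj

/-!
# The predicates at the points of the lowest level and of the cokernels

* `RaiseLevel.qv_facts`: at the auxiliary primes `a_q² ≢ (q + 1)²`;
* `RaiseLevel.dvd_exactLevel_zero`: the primes `q ≠ p` of the base divide the exact level of every
  congruent system of the lowest node;
* `RaiseLevel.basePred_point`, `RaiseLevel.cokerPred_point`: the pairs of a representation over a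
  ring satisfy the predicates at a point where it is that of a node point.
-/

set_option autoImplicit false
set_option linter.style.haveILetI false
set_option linter.unusedSectionVars false

noncomputable section

open IsLocalRing

namespace Fermat.Agent.Lifting.Raise

open RT.Diamond
open RT.Assembly (IsExactLevel IsNewformSystem)
open RT.LocalRing (cj)
open Deformation (matOf)

variable {W : WeierstrassCurve ℤ} {hΔ : W.Δ ≠ 0} {p L : ℕ} [Fact p.Prime]
  {O : Type} [CommRing O] [IsDomain O] [IsDiscreteValuationRing O]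
  [IsAdicComplete (maximalIdeal O) O] [Finite (ResidueField O)] [CharZero O]
  {B : RaiseData W hΔ p L O} {r n : ℕ} (Q : RaiseLevel B r n) (F : RaiseFrames B)

namespace RaiseLevel

/-- At the auxiliary primes the curve is good and `a_q² ≢ (q + 1)²`. -/
theorem qv_facts (i : Fin r) :
    (Q.qv i : ℕ).Prime ∧ (Q.qv i : ℕ) ≠ p ∧ W.IsGoodPrimeFor (Q.qv i) ∧ ¬ (Q.qv i : ℕ) ∣ L ∧
      ¬ (p : ℤ) ∣ W.apOfModel (Q.qv i) ^ 2 - (((Q.qv i : ℕ) : ℤ) + 1) ^ 2 := by
  have hq := (Q.qv i).2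
  obtain ⟨hqp, hgood, -⟩ := (not_mem_raiseExcluded_iff hΔ B.r₀_ne_zero hq).1 (Q.not_mem i)
  refine ⟨hq, hqp, hgood, fun h => Q.not_mem i (B.level_mem _ hq (h.mul_right _)), fun h => ?_⟩
  have hp0 : (p : ResidueField O) = 0 := by
    rw [← map_natCast (residue O), residue_eq_zero_iff]
    exact B.hpO
  obtain ⟨k, hk⟩ := (dvd_pow_self p (Q.pos_e i).ne').trans (Q.dvd_sub i)
  have hq1 : ((Q.qv i : ℕ) : ResidueField O) = 1 := by
    have e : (Q.qv i : ℕ) = p * k + 1 := by have := hq.one_lt; omega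
    rw [e, Nat.cast_add, Nat.cast_mul, hp0, zero_mul, zero_add, Nat.cast_one]
  obtain ⟨d, hd⟩ := h
  have e := congrArg (Int.cast : ℤ → ResidueField O) hd
  push_cast at e
  rw [hp0, hq1, zero_mul, sub_eq_zero] at e
  have ha : B.a (Q.qv i) = ((W.apOfModel (Q.qv i) : ℤ) : ResidueField O) :=
    B.a_eq _ (Q.not_mem i)
  rw [← ha] at e
  have h0 : (Q.α i * Q.α i - 1) * (Q.α i * Q.α i - 1) = 0 := by
    have hr := Q.root i
    linear_combination (Q.α i * Q.α i + 1 + B.a (Q.qv i) * Q.α i) * hr + Q.α i * Q.α i * e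
  exact Q.distinct i (sub_eq_zero.1 (mul_self_eq_zero.1 h0))

theorem auxSet_facts {q : ℕ} (hq : q ∈ Q.auxSet) :
    q.Prime ∧ q ≠ p ∧ W.IsGoodPrimeFor q ∧
      ¬ (p : ℤ) ∣ W.apOfModel q ^ 2 - ((q : ℤ) + 1) ^ 2 := by
  rcases Finset.mem_union.1 hq with h | h
  · obtain ⟨i, rfl⟩ := Q.mem_aux_iff.1 h
    obtain ⟨h1, h2, h3, -, h5⟩ := Q.qv_facts i
    exact ⟨h1, h2, h3, h5⟩
  · obtain ⟨h1, h2, h3, -, h5⟩ :=
      B.sq_ne_of_dvd_r₀ (Nat.prime_of_mem_primeFactors h) (Nat.dvd_of_mem_primeFactors h)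
    exact ⟨h1, h2, h3, h5⟩

theorem lev_zero : Q.lev F 0 = L * B.r₀ * ∏ i, (Q.qv i : ℕ) := by
  have h : F.added 0 = ∅ := by simp [RaiseFrames.added]
  simp [RaiseLevel.lev, h]

theorem squarefree_lev_zero : Squarefree (Q.lev F 0) := by
  rw [lev_zero, Nat.squarefree_mul_iff]
  refine ⟨Nat.Coprime.prod_right fun i _ => ?_, B.squarefree, ?_⟩
  · exact ((Q.qv i).2.coprime_iff_not_dvd.2 fun hd =>
      Q.not_mem i (B.level_mem _ (Q.qv i).2 hd)).symm
  · refine Finset.squarefree_prod_of_pairwise_isCoprime (fun i _ i' _ hii' => ?_)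
      fun i _ => (Q.qv i).2.prime.squarefree
    exact Nat.coprime_iff_isRelPrime.1 ((Nat.coprime_primes (Q.qv i).2 (Q.qv i').2).2
      fun e => hii' (Q.inj (Subtype.ext e)))

/-- A prime to be added does not divide the lowest level. -/
theorem not_dvd_lev_zero {j : Fin F.s} (hj : ∃ i, F.t i = j) : ¬ F.q j ∣ Q.lev F 0 := by
  intro hd
  rw [lev_zero] at hd
  have hmem : F.q j ∈ raiseSites W p := (F.q_cover _).2 ⟨j, rfl⟩
  have hbad := ((mem_raiseSites_iff hΔ).1 hmem).2.2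
  rcases (F.q_prime j).dvd_mul.1 hd with hd | hd
  · rcases (F.q_prime j).dvd_mul.1 hd with hd | hd
    · exact (F.t_cover j).1 hj hd
    · exact (B.aux _ (F.q_prime j) hd).2.1 hbad
  · obtain ⟨i, -, hi⟩ := (Prime.dvd_finsetProd_iff (F.q_prime j).prime _).1 hd
    exact (Q.qv_facts i).2.2.1
      ((Nat.prime_dvd_prime_iff_eq (F.q_prime j) (Q.qv i).2).1 hi ▸ hbad)

variable {V : Type} [CommRing V] [IsDomain V] [IsDiscreteValuationRing V]
  [IsAdicComplete (maximalIdeal V) V] [Finite (ResidueField V)] [CharZero V] [Algebra O V]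
  [IsLocalHom (algebraMap O V)]

/-- A prime `q ≠ p` of the base divides the exact level of a congruent system of the lowest
node. -/
theorem dvd_exactLevel_zero (hS29 : RT.EigenformResidualRep) (h35 : BadPrime.NewformMultRep)
    (htres : TresPrimeInLevel) (hord : OrdinaryTpFive) (hp : p = 3 ∨ p = 5)
    (hW : W.IsSemistableModel) (hirr : W.ModRepIsIrreducible p) (hlift : IsRaisableAt W p)
    (hb : IsRaisingBase W p L) (ξ : Q.Λ →ₐ[O] V) (c : Nat.Primes → V)
    (hc : ∀ ℓ : Nat.Primes, (ℓ : ℕ) ∉ Q.S' →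
      residue V (c ℓ) = ResidueField.map (algebraMap O V) (B.a ℓ))
    {L' : ℕ} {S : Finset ℕ} (hS : S ⊆ Q.S')
    (hex : IsExactLevel (Q.θ.ringHomComp ξ.toRingHom) S c (Q.lev F 0) L')
    {q : ℕ} (hq : q.Prime) (hqp : q ≠ p) (hqL : q ∣ L) : q ∣ L' := by
  refine B.dvd_exactLevel hS29 h35 htres hord hp hW hirr hlift hb Q.auxSet
    (fun x hx => Q.auxSet_facts hx) (fun x hx hd => Finset.mem_union_right _
      (Nat.mem_primeFactors.2 ⟨hx, hd, B.r₀_ne_zero⟩))
    ?_ (Q.squarefree_lev_zero F) ?_ (fun x hx hd => ?_)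
    (fun x hx hd => Finset.mem_union_left _ (Q.mem_aux_of_dvd_N hx hd))
    _ (Q.residue_θ ξ) Q.S' (fun x hx hd => Q.mem_S'_of_dvd_lev F hb hx hd)
    Finset.subset_union_left c hc hq hqp hqL ?_ (isExactLevel_mono hS hex)
  · rw [lev_zero, RaiseLevel.N, mul_one]
    exact dvd_mul_left _ _
  · rw [lev_zero]
    exact (dvd_mul_left _ _).mul_right _
  · rw [lev_zero] at hd
    rcases hx.dvd_mul.1 hd with hd | hd
    · exact (hx.dvd_mul.1 hd).imp id fun h => Finset.mem_union_right _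
        (Nat.mem_primeFactors.2 ⟨hx, h, B.r₀_ne_zero⟩)
    · obtain ⟨i, -, hi⟩ := (Prime.dvd_finsetProd_iff hx.prime _).1 hd
      exact Or.inr (Finset.mem_union_left _
        (Q.mem_aux_iff.2 ⟨i, ((Nat.prime_dvd_prime_iff_eq hx (Q.qv i).2).1 hi).symm⟩))
  · rw [lev_zero]
    exact (hqL.mul_right _).mul_right _

theorem inertia_pow_rhoAt (hW : W.IsSemistableModel) (j : Fin F.s) :
    ∀ τ ∈ (F.T j).A.inertiaSubgroupIn ℚ, ∃ i : ℕ, (rhoAt B V).ρ τ ^ p ^ i = 1 := fun _ hτ =>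
  ⟨1, Minimal.torsRep_baseChange_inertia_pow hΔ _ hW (F.q_prime j) (F.q_ne j) (F.T j).hA hτ⟩

variable {g : ℕ} {DM : Fin (F.m + 1) → ℕ} {DC : Fin F.m → ℕ}
  {T₀ : Nat.Primes → Matrix (Fin (DM (Fin.last F.m))) (Fin (DM (Fin.last F.m))) O}
  {ℒ : Finset Nat.Primes} {R : Type} [CommRing R] [IsLocalRing R] [Algebra O R]

/-- The pairs of `ρR` at a point where it is that of a point of the lowest node. -/
theorem basePred_point (hW : W.IsSemistableModel) (hb : IsRaisingBase W p L) (ξ : Q.Λ →ₐ[O] V)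
    {L' : ℕ} {c : Nat.Primes → V} {ρV : GaloisRepAdic V}
    (hρ : IsNodePoint p Q.S' (raiseSites W p) Q.auxSet (Q.θ.ringHomComp ξ.toRingHom) (Q.lev F 0)
      L' c (rhoAt B V) ρV)
    (hbase : ∀ q : ℕ, q.Prime → q ≠ p → q ∣ L → q ∣ L')
    (ρR : GaloisRepAdic R) (bR : Module.Basis (Fin 2) R ρR.V) (f : R →ₐ[O] V)
    (hf : IsLocalHom (f : R →+* V)) (he : ρV.IsEquiv (ρR.baseChangeAlong (f : R →+* V) hf)) :
    (patchData F g DM DC T₀ ℒ).BasePred fun j =>
      ((matOf ρR.ρ bR (F.T j).F).map f, (matOf ρR.ρ bR (F.T j).σ).map f) := by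
  let bV := Module.finBasisOfFinrankEq V ρV.V ρV.finrank_eq
  obtain ⟨u, hu⟩ := exists_cj_map_of_isEquiv he bR bV
  have hnode := basePred_of_nodePoint (patchData F g DM DC T₀ ℒ) hρ (Q.nodeShape F hb 0)
    (fun j => (F.q_cover _).2 ⟨j, rfl⟩) F.T (inertia_pow_rhoAt F hW) (fun _ => bV)
    (fun j hj => Or.inl (Q.not_dvd_lev_zero F hj))
    (fun j hj => hbase _ (F.q_prime j) (F.q_ne j) (by
      by_contra h
      obtain ⟨i, hi⟩ := (F.t_cover j).2 h
      exact hj i hi))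
  refine basePred_cj (patchData F g DM DC T₀ ℒ) (fun _ => u) ?_ hnode
  intro j
  exact Prod.ext (hu (F.T j).F) (hu (F.T j).σ)

/-- The pairs of `ρR` at a point where it is that of a point of a node new at the prime added. -/
theorem cokerPred_point (hW : W.IsSemistableModel) (hb : IsRaisingBase W p L) (ξ : Q.Λ →ₐ[O] V)
    {k : ℕ} {L' : ℕ} {c : Nat.Primes → V} {ρV : GaloisRepAdic V}
    (hρ : IsNodePoint p Q.S' (raiseSites W p) Q.auxSet (Q.θ.ringHomComp ξ.toRingHom) (Q.lev F k)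
      L' c (rhoAt B V) ρV)
    (i : Fin F.m) (hnew : F.q (F.t i) ∣ L')
    (ρR : GaloisRepAdic R) (bR : Module.Basis (Fin 2) R ρR.V) (f : R →ₐ[O] V)
    (hf : IsLocalHom (f : R →+* V)) (he : ρV.IsEquiv (ρR.baseChangeAlong (f : R →+* V) hf)) :
    (patchData F g DM DC T₀ ℒ).CokerPred i fun j =>
      ((matOf ρR.ρ bR (F.T j).F).map f, (matOf ρR.ρ bR (F.T j).σ).map f) := by
  let bV := Module.finBasisOfFinrankEq V ρV.V ρV.finrank_eq
  obtain ⟨u, hu⟩ := exists_cj_map_of_isEquiv he bR bV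
  have hnode := cokerPred_of_nodePoint (patchData F g DM DC T₀ ℒ) hρ (Q.nodeShape F hb k)
    (fun j => (F.q_cover _).2 ⟨j, rfl⟩) F.T (inertia_pow_rhoAt F hW) (fun _ => bV) i hnew
  refine cokerPred_cj (patchData F g DM DC T₀ ℒ) (fun _ => u) ?_ i hnode
  intro j
  exact Prod.ext (hu (F.T j).F) (hu (F.T j).σ)

end RaiseLevel

end Fermat.Agent.Lifting.Raise

end
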