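import Fermat.Agent.Lifting.Raise.KillPreds
import Fermat.Agent.Lifting.Rings.PointsRep
import Fermat.Agent.Lifting.Patching.PointsVanish

/-!
# The kills at the lowest level and at the cokernels

`NodeAlg`: a reduced local algebra through which a ring `R` with a representation acts on a
module of a node, whose points carry systems of the exact level of the node and determine the
representation. From it `pairsKill_base` and `pairsKill_coker`, the two kills of the raising
input. `NodeAlg.ofQuotient` gives one from a component of the ring of a family of nodes.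
-/

set_option autoImplicit false
set_option linter.style.haveILetI false
set_option linter.unusedSectionVars false

noncomputable section

open IsLocalRing

namespace Fermat.Agent.Lifting.Raise

open RT.Diamond
open RT.Assembly (IsExactLevel IsNewformSystem LocalInputs StrictOrdinaryOfNewform)
open Deformation (matOf)

variable {W : WeierstrassCurve ℤ} {hΔ : W.Δ ≠ 0} {p L : ℕ} [Fact p.Prime]
  {O : Type} [CommRing O] [IsDomain O] [IsDiscreteValuationRing O]
  [IsAdicComplete (maximalIdeal O) O] [Finite (ResidueField O)] [CharZero O]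
  {B : RaiseData W hΔ p L O} {r n : ℕ}

/-- An algebra through which `R` acts on a module of the node of level `Lev`, new at `new`. -/
structure NodeAlg (Q : RaiseLevel B r n) {R : Type} [CommRing R] [IsLocalRing R] [Algebra O R]
    (ρR : GaloisRepAdic R) {M : Type} [AddCommGroup M] (act : R → M → M) (Lev : ℕ)
    (new : Finset ℕ) (T : Type) [CommRing T] [IsLocalRing T] [IsReduced T] [Algebra O T]
    [Module.Finite O T] where
  torsionFree : ∀ (o : O) (t : T), o ≠ 0 → o • t = 0 → t = 0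
  /-- the map from the ring -/
  π : R →ₐ[O] T
  isLocalHom : IsLocalHom (π : R →+* T)
  act_zero : ∀ x, π x = 0 → ∀ v, act x v = 0
  /-- the operators -/
  op : Nat.Primes → T
  op_residue : ∀ ℓ : Nat.Primes, (ℓ : ℕ) ∉ Q.S' →
    ∀ o : O, residue O o = B.a ℓ → op ℓ - algebraMap O T o ∈ maximalIdeal T
  points : ∀ (V : Type) [CommRing V] [IsDomain V] [IsDiscreteValuationRing V]
    [IsAdicComplete (maximalIdeal V) V] [Finite (ResidueField V)] [CharZero V] [Algebra O V]
    [Module.Finite O V] [IsLocalHom (algebraMap O V)], Function.Injective (algebraMap O V) →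
    ∀ f : T →ₐ[O] V, ∃ (ξ : Q.Λ →ₐ[O] V) (c : Nat.Primes → V) (L' : ℕ) (_ : NeZero L')
      (S : Finset ℕ), S ⊆ Q.S' ∧ (∀ ℓ : Nat.Primes, (ℓ : ℕ) ∉ Q.S' → c ℓ = f (op ℓ)) ∧
      IsExactLevel (Q.θ.ringHomComp ξ.toRingHom) S c Lev L' ∧ IsNewformSystem S L' c ∧
      ∀ q ∈ new, q ∣ L'
  rep : ∀ (V : Type) [CommRing V] [IsDomain V] [IsDiscreteValuationRing V]
    [IsAdicComplete (maximalIdeal V) V] [Finite (ResidueField V)] [CharZero V] [Algebra O V]
    [IsLocalHom (algebraMap O V)],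
    ∀ (f : T →ₐ[O] V) (hf : IsLocalHom ((f.comp π : R →ₐ[O] V) : R →+* V))
      (ρV : GaloisRepAdic V), ρV.residual.IsAbsolutelyIrreducible →
      Rings.HasFrobenius ρV Q.S' (fun ℓ => f (op ℓ)) →
      ρV.IsEquiv (ρR.baseChangeAlong ((f.comp π : R →ₐ[O] V) : R →+* V) hf)

namespace NodeAlg

variable {Q : RaiseLevel B r n} {F : RaiseFrames B} {R : Type} [CommRing R] [IsLocalRing R]
  [Algebra O R] {ρR : GaloisRepAdic R} {M : Type} [AddCommGroup M] {act : R → M → M} {Lev : ℕ}
  {new : Finset ℕ} {T : Type} [CommRing T] [IsLocalRing T] [IsReduced T] [Algebra O T]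
  [Module.Finite O T]

/-- The node point at a point of the algebra. -/
theorem exists_nodePoint_of_point (A : NodeAlg Q ρR act Lev new T)
    (hS29 : RT.EigenformResidualRep) (inputs : LocalInputs p)
    (hso : StrictOrdinaryOfNewform p) (htres : TresPrimeInLevel) (hW : W.IsSemistableModel)
    (hirr : W.ModRepIsIrreducible p) (hb : IsRaisingBase W p L) {k : ℕ}
    (hLev : Lev = Q.lev F k) (hsub : nodeNew W p L ⊆ new)
    {V : Type} [CommRing V] [IsDomain V] [IsDiscreteValuationRing V]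
    [IsAdicComplete (maximalIdeal V) V] [Finite (ResidueField V)] [CharZero V] [Algebra O V]
    [Module.Finite O V] [IsLocalHom (algebraMap O V)] (hinj : Function.Injective (algebraMap O V))
    (f : T →ₐ[O] V) :
    ∃ (ξ : Q.Λ →ₐ[O] V) (c : Nat.Primes → V) (L' : ℕ) (S : Finset ℕ) (ρV : GaloisRepAdic V)
      (hf : IsLocalHom ((f.comp A.π : R →ₐ[O] V) : R →+* V)),
      S ⊆ Q.S' ∧
      (∀ ℓ : Nat.Primes, (ℓ : ℕ) ∉ Q.S' →
        residue V (c ℓ) = ResidueField.map (algebraMap O V) (B.a ℓ)) ∧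
      IsExactLevel (Q.θ.ringHomComp ξ.toRingHom) S c (Q.lev F k) L' ∧
      (∀ q ∈ new, q ∣ L') ∧
      IsNodePoint p Q.S' (raiseSites W p) Q.auxSet (Q.θ.ringHomComp ξ.toRingHom) (Q.lev F k) L' c
        (RaiseLevel.rhoAt B V) ρV ∧
      ρV.IsEquiv (ρR.baseChangeAlong ((f.comp A.π : R →ₐ[O] V) : R →+* V) hf) := by
  subst hLev
  obtain ⟨ξ, c, L', _, S, hS, hcf, hex, hnew, hnewAt⟩ := A.points V hinj f
  have hfloc := Patching.isLocalHom_point f
  have hf : IsLocalHom ((f.comp A.π : R →ₐ[O] V) : R →+* V) :=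
    ⟨fun x hx => A.isLocalHom.map_nonunit x (hfloc.map_nonunit (A.π x) hx)⟩
  have hc : ∀ ℓ : Nat.Primes, (ℓ : ℕ) ∉ Q.S' →
      residue V (c ℓ) = ResidueField.map (algebraMap O V) (B.a ℓ) := fun ℓ hℓ => by
    obtain ⟨o, ho⟩ := residue_surjective (B.a ℓ)
    have h := map_nonunit (f : T →+* V) _ (A.op_residue ℓ hℓ o ho)
    rw [← residue_eq_zero_iff] at h
    simp only [RingHom.coe_coe, map_sub, AlgHom.commutes, sub_eq_zero] at h
    rw [hcf ℓ hℓ, h, ← ho, ResidueField.map_residue]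
  obtain ⟨-, -, ρV, hρ, -⟩ := Q.exists_nodePoint F hS29 inputs hso htres hW hirr hb k ξ c hc hS
    hex hnew fun q hq => hnewAt q (hsub hq)
  refine ⟨ξ, c, L', S, ρV, hf, hS, hc, hex, hnewAt, hρ,
    A.rep V f hf ρV hρ.residual_absIrr fun ℓ hℓ hℓS P hP σ hσ => ?_⟩
  have e := hcf (⟨ℓ, hℓ⟩ : Nat.Primes) hℓS
  show LinearMap.charpoly (ρV.ρ σ) = Polynomial.X ^ 2 -
    Polynomial.C (f (A.op (⟨ℓ, hℓ⟩ : Nat.Primes))) * Polynomial.X + Polynomial.C (ℓ : V)
  rw [← e]
  exact hρ.charpoly_frob ℓ hℓ hℓS P hP σ hσ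

variable {g : ℕ} {DM : Fin (F.m + 1) → ℕ} {DC : Fin F.m → ℕ}
  {T₀ : Nat.Primes → Matrix (Fin (DM (Fin.last F.m))) (Fin (DM (Fin.last F.m))) O}
  {ℒ : Finset Nat.Primes}

/-- **The kill at the lowest level.** -/
theorem pairsKill_base (A : NodeAlg Q ρR act (Q.lev F 0) (nodeNew W p L) T)
    (hS29 : RT.EigenformResidualRep) (inputs : LocalInputs p)
    (hso : StrictOrdinaryOfNewform p) (htres : TresPrimeInLevel) (hord : OrdinaryTpFive)
    (hp : p = 3 ∨ p = 5) (hW : W.IsSemistableModel) (hirr : W.ModRepIsIrreducible p)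
    (hlift : IsRaisableAt W p) (hb : IsRaisingBase W p L) (bR : Module.Basis (Fin 2) R ρR.V) :
    Patching.PairsKill (O := O) act
      (fun j => (matOf ρR.ρ bR (F.T j).F, matOf ρR.ρ bR (F.T j).σ))
      (patchData F g DM DC T₀ ℒ).BasePred := by
  refine Patching.pairsKill_of_points A.torsionFree A.π A.isLocalHom act A.act_zero _ _
    fun V _ _ _ _ _ _ _ _ _ hinj f _ => ?_
  obtain ⟨ξ, c, L', S, ρV, hf, hS, hc, hex, -, hρ, he⟩ :=
    A.exists_nodePoint_of_point hS29 inputs hso htres hW hirr hb rfl subset_rfl hinj f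
  exact Q.basePred_point F hW hb ξ hρ
    (fun q hq hqp hqL => Q.dvd_exactLevel_zero F hS29 inputs.mult htres hord hp hW hirr hlift hb
      ξ c hc hS hex hq hqp hqL)
    ρR bR (f.comp A.π) hf he

/-- **The kill at the cokernel of a step.** -/
theorem pairsKill_coker (i : Fin F.m) {k : ℕ}
    (A : NodeAlg Q ρR act (Q.lev F k) (insert (F.q (F.t i)) (nodeNew W p L)) T)
    (hS29 : RT.EigenformResidualRep) (inputs : LocalInputs p)
    (hso : StrictOrdinaryOfNewform p) (htres : TresPrimeInLevel) (hW : W.IsSemistableModel)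
    (hirr : W.ModRepIsIrreducible p) (hb : IsRaisingBase W p L)
    (bR : Module.Basis (Fin 2) R ρR.V) :
    Patching.PairsKill (O := O) act
      (fun j => (matOf ρR.ρ bR (F.T j).F, matOf ρR.ρ bR (F.T j).σ))
      ((patchData F g DM DC T₀ ℒ).CokerPred i) := by
  refine Patching.pairsKill_of_points A.torsionFree A.π A.isLocalHom act A.act_zero _ _
    fun V _ _ _ _ _ _ _ _ _ hinj f _ => ?_
  obtain ⟨ξ, c, L', S, ρV, hf, hS, hc, hex, hnew, hρ, he⟩ :=
    A.exists_nodePoint_of_point hS29 inputs hso htres hW hirr hb rfl (Finset.subset_insert _ _)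
      hinj f
  exact Q.cokerPred_point F hW hb ξ hρ i (hnew _ (Finset.mem_insert_self _ _)) ρR bR
    (f.comp A.π) hf he

end NodeAlg

section Quotient

variable {Q : RaiseLevel B r n} {R : Type} [CommRing R] [IsLocalRing R] [Algebra O R]
  {ρR : GaloisRepAdic R} {M : Type} [AddCommGroup M] {act : R → M → M} {Lev : ℕ} {new : Finset ℕ}
  {A : Type} [CommRing A] [IsLocalRing A] [Algebra O A] [Module.Finite O A]

/-- A node algebra from a component of a larger local algebra. -/
def NodeAlg.ofQuotient (I : Ideal A) [IsReduced (A ⧸ I)] [IsLocalRing (A ⧸ I)]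
    (htf : ∀ (o : O) (a : A), o ≠ 0 → o • a ∈ I → a ∈ I) (φ : R →ₐ[O] A)
    (hφ : IsLocalHom (φ : R →+* A)) (hact : ∀ x, φ x ∈ I → ∀ v, act x v = 0)
    (op : Nat.Primes → A)
    (hop : ∀ ℓ : Nat.Primes, (ℓ : ℕ) ∉ Q.S' →
      ∀ o : O, residue O o = B.a ℓ → op ℓ - algebraMap O A o ∈ maximalIdeal A)
    (hpts : ∀ (V : Type) [CommRing V] [IsDomain V] [IsDiscreteValuationRing V]
      [IsAdicComplete (maximalIdeal V) V] [Finite (ResidueField V)] [CharZero V] [Algebra O V]
      [Module.Finite O V] [IsLocalHom (algebraMap O V)], Function.Injective (algebraMap O V) →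
      ∀ f : A →ₐ[O] V, I ≤ RingHom.ker f →
        ∃ (ξ : Q.Λ →ₐ[O] V) (c : Nat.Primes → V) (L' : ℕ) (_ : NeZero L') (S : Finset ℕ),
          S ⊆ Q.S' ∧ (∀ ℓ : Nat.Primes, (ℓ : ℕ) ∉ Q.S' → c ℓ = f (op ℓ)) ∧
          IsExactLevel (Q.θ.ringHomComp ξ.toRingHom) S c Lev L' ∧ IsNewformSystem S L' c ∧
          ∀ q ∈ new, q ∣ L')
    (hrep : ∀ (V : Type) [CommRing V] [IsDomain V] [IsDiscreteValuationRing V]
      [IsAdicComplete (maximalIdeal V) V] [Finite (ResidueField V)] [CharZero V] [Algebra O V]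
      [IsLocalHom (algebraMap O V)],
      ∀ (f : A →ₐ[O] V) (hf : IsLocalHom ((f.comp φ : R →ₐ[O] V) : R →+* V))
        (ρV : GaloisRepAdic V), ρV.residual.IsAbsolutelyIrreducible →
        Rings.HasFrobenius ρV Q.S' (fun ℓ => f (op ℓ)) →
        ρV.IsEquiv (ρR.baseChangeAlong ((f.comp φ : R →ₐ[O] V) : R →+* V) hf)) :
    NodeAlg Q ρR act Lev new (A ⧸ I) where
  torsionFree o t ho h := by
    obtain ⟨a, rfl⟩ := Ideal.Quotient.mk_surjective t
    rw [Ideal.Quotient.eq_zero_iff_mem]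
    refine htf o a ho ?_
    rw [← Ideal.Quotient.eq_zero_iff_mem, ← h]
    rfl
  π := (Ideal.Quotient.mkₐ O I).comp φ
  isLocalHom := by
    have hmk : IsLocalHom (Ideal.Quotient.mk I) :=
      IsLocalHom.of_surjective _ Ideal.Quotient.mk_surjective
    exact ⟨fun x hx => hφ.map_nonunit x (hmk.map_nonunit (φ x) hx)⟩
  act_zero x hx := hact x (Ideal.Quotient.eq_zero_iff_mem.1 hx)
  op ℓ := Ideal.Quotient.mk I (op ℓ)
  op_residue ℓ hℓ o ho := by
    have : IsLocalHom (Ideal.Quotient.mk I) :=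
      IsLocalHom.of_surjective _ Ideal.Quotient.mk_surjective
    have h := map_nonunit (Ideal.Quotient.mk I) _ (hop ℓ hℓ o ho)
    rw [map_sub] at h
    exact h
  points V _ _ _ _ _ _ _ _ _ hinj f := by
    refine hpts V hinj (f.comp (Ideal.Quotient.mkₐ O I)) fun a ha => ?_
    rw [RingHom.mem_ker, AlgHom.comp_apply, Ideal.Quotient.mkₐ_eq_mk,
      Ideal.Quotient.eq_zero_iff_mem.2 ha, map_zero]
  rep V _ _ _ _ _ _ _ _ f hf ρV habs hfrob :=
    hrep V (f.comp (Ideal.Quotient.mkₐ O I)) hf ρV habs hfrob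

/-- Through the unit ideal every element acts by zero. -/
theorem pairsKill_of_eq_top {J : Type} {I : Ideal A} (hI : I = ⊤) (φ : R →ₐ[O] A)
    (hact : ∀ x, φ x ∈ I → ∀ v, act x v = 0)
    (pair : J → RT.LocalRing.Mat R × RT.LocalRing.Mat R)
    (Pred : ∀ ⦃V : Type⦄ [CommRing V] [Algebra O V],
      (J → RT.LocalRing.Mat V × RT.LocalRing.Mat V) → Prop) :
    Patching.PairsKill (O := O) act pair Pred :=
  fun x _ v => hact x (hI ▸ Submodule.mem_top) v

end Quotient

end Fermat.Agent.Lifting.Raise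

end
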