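import Fermat.Agent.Lifting.Raise.Kills

/-!
# The kills from a component of the ring of a family of nodes

`pairsKill_base_of_component`, `pairsKill_coker_of_component`: the two kills from a radical
saturated ideal `I` of a local finite algebra `A`, namely the kernel of a component, a map `φ`
from the universal ring with the property that at every point the representation with the Hecke
polynomials is the image of the universal one, and the systems of the points killing `I`.
-/

set_option autoImplicit false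
set_option linter.style.haveILetI false
set_option linter.unusedSectionVars false

noncomputable section

open IsLocalRing

namespace Fermat.Agent.Lifting.Raise

open RT.Diamond
open RT.Assembly (IsExactLevel IsNewformSystem LocalInputs StrictOrdinaryOfNewform)
open Deformation (matOf)

variable {W : WeierstrassCurve ℤ} {hΔ : W.Δ ≠ 0} {p L : ℕ} [Fact p.Prime]
  {O : Type} [CommRing O] [IsDomain O] [IsDiscreteValuationRing O]
  [IsAdicComplete (maximalIdeal O) O] [Finite (ResidueField O)] [CharZero O]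
  {B : RaiseData W hΔ p L O} {r n : ℕ} (Q : RaiseLevel B r n) {F : RaiseFrames B}
  {R : Type} [CommRing R] [IsLocalRing R] [Algebra O R] (ρR : GaloisRepAdic R)
  {A : Type} [CommRing A] [IsLocalRing A] [Algebra O A] [Module.Finite O A]
  [IsLocalHom (algebraMap O A)]

/-- At every point the representation with the Hecke polynomials is the image of `ρR`. -/
def PointsDetermine (φ : R →ₐ[O] A) (op : Nat.Primes → A) : Prop :=
  ∀ (V : Type) [CommRing V] [IsDomain V] [IsDiscreteValuationRing V]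
    [IsAdicComplete (maximalIdeal V) V] [Finite (ResidueField V)] [CharZero V] [Algebra O V]
    [IsLocalHom (algebraMap O V)],
    ∀ (f : A →ₐ[O] V) (ρV : GaloisRepAdic V), ρV.residual.IsAbsolutelyIrreducible →
      Rings.HasFrobenius ρV Q.S' (fun ℓ => f (op ℓ)) →
      ∃ hf : IsLocalHom (f.comp φ : R →+* V),
        (ρR.baseChangeAlong (f.comp φ : R →+* V) hf).IsEquiv ρV

/-- The points killing `I` carry systems of exact level `Lev`, new at `new`. -/
def PointsSystems (I : Ideal A) (op : Nat.Primes → A) (Lev : ℕ) (new : Finset ℕ) : Prop :=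
  ∀ (V : Type) [CommRing V] [IsDomain V] [IsDiscreteValuationRing V]
    [IsAdicComplete (maximalIdeal V) V] [Finite (ResidueField V)] [CharZero V] [Algebra O V]
    [Module.Finite O V] [IsLocalHom (algebraMap O V)], Function.Injective (algebraMap O V) →
    ∀ f : A →ₐ[O] V, I ≤ RingHom.ker f →
      ∃ (ξ : Q.Λ →ₐ[O] V) (c : Nat.Primes → V) (L' : ℕ) (_ : NeZero L') (S : Finset ℕ),
        S ⊆ Q.S' ∧ (∀ ℓ : Nat.Primes, (ℓ : ℕ) ∉ Q.S' → c ℓ = f (op ℓ)) ∧
        IsExactLevel (Q.θ.ringHomComp ξ.toRingHom) S c Lev L' ∧ IsNewformSystem S L' c ∧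
        ∀ q ∈ new, q ∣ L'

variable {Q ρR} {M : Type} [AddCommGroup M] {act : R → M → M} {I : Ideal A} {φ : R →ₐ[O] A}
  {op : Nat.Primes → A}

theorem exists_nodeAlg_of_component (hI : I ≠ ⊤) (hrad : I.IsRadical)
    (htf : ∀ (o : O) (a : A), o ≠ 0 → o • a ∈ I → a ∈ I) (hφ : IsLocalHom (φ : R →+* A))
    (hact : ∀ x, φ x ∈ I → ∀ v, act x v = 0)
    (hop : ∀ ℓ : Nat.Primes, (ℓ : ℕ) ∉ Q.S' →
      residue A (op ℓ) = ResidueField.map (algebraMap O A) (B.a ℓ))
    {Lev : ℕ} {new : Finset ℕ} (hpts : PointsSystems Q I op Lev new)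
    (hrep : PointsDetermine Q ρR φ op) :
    ∃ (_ : IsReduced (A ⧸ I)) (_ : IsLocalRing (A ⧸ I)),
      Nonempty (NodeAlg Q ρR act Lev new (A ⧸ I)) := by
  have : IsReduced (A ⧸ I) := (Ideal.isRadical_iff_quotient_reduced I).1 hrad
  have : Nontrivial (A ⧸ I) := Ideal.Quotient.nontrivial_iff.2 hI
  have : IsLocalRing (A ⧸ I) :=
    IsLocalRing.of_surjective' (Ideal.Quotient.mk I) Ideal.Quotient.mk_surjective
  refine ⟨‹_›, ‹_›, ⟨NodeAlg.ofQuotient I htf φ hφ hact op (fun ℓ hℓ o ho => ?_) hpts ?_⟩⟩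
  · rw [← residue_eq_zero_iff, map_sub, sub_eq_zero, hop ℓ hℓ, ← ho, ResidueField.map_residue]
  · intro V _ _ _ _ _ _ _ _ f hf ρV habs hfrob
    obtain ⟨hf', he⟩ := hrep V f ρV habs hfrob
    obtain ⟨e⟩ := he
    exact ⟨e.symm⟩

variable {g : ℕ} {DM : Fin (F.m + 1) → ℕ} {DC : Fin F.m → ℕ}
  {T₀ : Nat.Primes → Matrix (Fin (DM (Fin.last F.m))) (Fin (DM (Fin.last F.m))) O}
  {ℒ : Finset Nat.Primes}

/-- **The kill at the lowest level from a component.** -/
theorem pairsKill_base_of_component (hrad : I.IsRadical)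
    (htf : ∀ (o : O) (a : A), o ≠ 0 → o • a ∈ I → a ∈ I) (hφ : IsLocalHom (φ : R →+* A))
    (hact : ∀ x, φ x ∈ I → ∀ v, act x v = 0)
    (hop : ∀ ℓ : Nat.Primes, (ℓ : ℕ) ∉ Q.S' →
      residue A (op ℓ) = ResidueField.map (algebraMap O A) (B.a ℓ))
    (hpts : PointsSystems Q I op (Q.lev F 0) (nodeNew W p L))
    (hrep : PointsDetermine Q ρR φ op) (hS29 : RT.EigenformResidualRep) (inputs : LocalInputs p)
    (hso : StrictOrdinaryOfNewform p) (htres : TresPrimeInLevel) (hord : OrdinaryTpFive)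
    (hp : p = 3 ∨ p = 5) (hW : W.IsSemistableModel) (hirr : W.ModRepIsIrreducible p)
    (hlift : IsRaisableAt W p) (hb : IsRaisingBase W p L) (bR : Module.Basis (Fin 2) R ρR.V) :
    Patching.PairsKill (O := O) act
      (fun j => (matOf ρR.ρ bR (F.T j).F, matOf ρR.ρ bR (F.T j).σ))
      (patchData F g DM DC T₀ ℒ).BasePred := by
  by_cases hI : I = ⊤
  · exact pairsKill_of_eq_top hI φ hact _ _
  obtain ⟨_, _, ⟨N⟩⟩ := exists_nodeAlg_of_component hI hrad htf hφ hact hop hpts hrep
  exact N.pairsKill_base hS29 inputs hso htres hord hp hW hirr hlift hb bR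

/-- **The kill at the cokernel of a step from a component.** -/
theorem pairsKill_coker_of_component (i : Fin F.m) {k : ℕ} (hrad : I.IsRadical)
    (htf : ∀ (o : O) (a : A), o ≠ 0 → o • a ∈ I → a ∈ I) (hφ : IsLocalHom (φ : R →+* A))
    (hact : ∀ x, φ x ∈ I → ∀ v, act x v = 0)
    (hop : ∀ ℓ : Nat.Primes, (ℓ : ℕ) ∉ Q.S' →
      residue A (op ℓ) = ResidueField.map (algebraMap O A) (B.a ℓ))
    (hpts : PointsSystems Q I op (Q.lev F k) (insert (F.q (F.t i)) (nodeNew W p L)))
    (hrep : PointsDetermine Q ρR φ op) (hS29 : RT.EigenformResidualRep) (inputs : LocalInputs p)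
    (hso : StrictOrdinaryOfNewform p) (htres : TresPrimeInLevel) (hW : W.IsSemistableModel)
    (hirr : W.ModRepIsIrreducible p) (_hlift : IsRaisableAt W p) (hb : IsRaisingBase W p L)
    (bR : Module.Basis (Fin 2) R ρR.V) :
    Patching.PairsKill (O := O) act
      (fun j => (matOf ρR.ρ bR (F.T j).F, matOf ρR.ρ bR (F.T j).σ))
      ((patchData F g DM DC T₀ ℒ).CokerPred i) := by
  by_cases hI : I = ⊤
  · exact pairsKill_of_eq_top hI φ hact _ _
  obtain ⟨_, _, ⟨N⟩⟩ := exists_nodeAlg_of_component hI hrad htf hφ hact hop hpts hrep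
  exact N.pairsKill_coker i hS29 inputs hso htres hW hirr hb bR

end Fermat.Agent.Lifting.Raise

end
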