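import Fermat.Agent.Lifting.Squarefree.RaiseData
import Fermat.Agent.Lifting.Squarefree.RaiseSigns
import Fermat.Agent.RT.Assembly.Points
import Fermat.Agent.RT.Assembly.Diamond
import Fermat.Agent.RT.Assembly.Twist

/-!
# The levels of the raising argument

* `RaiseFrames`: the sites, the order in which the primes are added, and the frames of the point.
* `RaiseLevel`: Taylor–Wiles primes of depth `n`. Node `k` has level `L r₀ t₀ … t_{k-1} ∏ Q`, the
  tautological twist of the diamond operators and excluded set free of the later `t_i`.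
* `NodeModel`: Hecke operators on a free module over the group ring whose systems come from
  newforms of exact level at the node, new at a given set of primes.
-/

set_option autoImplicit false

noncomputable section

open IsLocalRing

namespace Fermat.Agent.Lifting.Raise

open RT.Diamond
open RT.Assembly (TwistData tautTwist IsExactLevel IsNewformSystem formOp)
open RT.LocalRing (cj)

local notation "Γℚ" => (AlgebraicClosure ℚ ≃ₐ[ℚ] AlgebraicClosure ℚ)

variable {W : WeierstrassCurve ℤ} {hΔ : W.Δ ≠ 0} {p L : ℕ} [Fact p.Prime]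
  {O : Type} [CommRing O] [IsDomain O] [IsDiscreteValuationRing O]
  [IsAdicComplete (maximalIdeal O) O] [Finite (ResidueField O)] [CharZero O]

/-- The sites with their frames and the order in which the primes are added. -/
structure RaiseFrames (B : RaiseData W hΔ p L O) where
  bbar : Module.Basis (Fin 2) (ResidueField O) (raiseRep hΔ B.ι).V
  /-- the number of sites -/
  s : ℕ
  s_pos : 0 < s
  /-- the primes of the sites -/
  q : Fin s → ℕ
  q_inj : Function.Injective q
  q_cover : ∀ x : ℕ, x ∈ raiseSites W p ↔ ∃ j, q j = x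
  q_prime : ∀ j, (q j).Prime
  q_ne : ∀ j, q j ≠ p
  /-- the number of primes to be added -/
  m : ℕ
  /-- the sites to be added -/
  t : Fin m → Fin s
  t_inj : Function.Injective t
  t_cover : ∀ j, (∃ i, t i = j) ↔ ¬ q j ∣ L
  /-- the tame pair at a site -/
  T : ∀ j, RT.TamePair p (q j)
  /-- the point at a site -/
  cs : ∀ j, CurveSite hΔ B.φ B.φ_local B.ι (q_prime j) (q_ne j) (T j) bbar

namespace RaiseFrames

variable {B : RaiseData W hΔ p L O} (F : RaiseFrames B)

/-- The sites. -/
abbrev site (j : Fin F.s) : Algebra.Site O := (F.cs j).site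

/-- Frobenius and inertia at a site. -/
def el (j : Fin F.s) : Fin 2 → Γℚ := ![(F.T j).F, (F.T j).σ]

/-- The lifts of the residual matrices: the point in the residual frame. -/
def lift0 (j : Fin F.s) (e : Fin 2) : RT.LocalRing.Mat O :=
  cj (F.cs j).frame (if e = 0 then (F.site j).centre.1 else (F.site j).centre.2)

/-- The primes added before node `k`. -/
def added (k : ℕ) : Finset ℕ :=
  (Finset.univ.filter fun i : Fin F.m => (i : ℕ) < k).image fun i => F.q (F.t i)

/-- The primes still to be added at node `k`. -/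
def pending (k : ℕ) : Finset ℕ :=
  (Finset.univ.filter fun i : Fin F.m => k ≤ (i : ℕ)).image fun i => F.q (F.t i)

/-- The top level `L r₀ ∏ t_i`. -/
def topLevel : ℕ := L * B.r₀ * ∏ x ∈ F.added F.m, x

theorem added_prime {k x : ℕ} (h : x ∈ F.added k) : x.Prime := by
  simp only [added, Finset.mem_image] at h
  obtain ⟨i, -, rfl⟩ := h
  exact F.q_prime _

theorem prod_added_ne_zero (k : ℕ) : ∏ x ∈ F.added k, x ≠ 0 :=
  Finset.prod_ne_zero_iff.2 fun _ hx => (F.added_prime hx).ne_zero

theorem topLevel_ne_zero : F.topLevel ≠ 0 :=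
  mul_ne_zero B.squarefree.ne_zero (F.prod_added_ne_zero _)

instance : NeZero F.topLevel := ⟨F.topLevel_ne_zero⟩

end RaiseFrames

/-- `p` is multiplicative and peu ramifiée. -/
def Peu (W : WeierstrassCurve ℤ) (p L : ℕ) : Prop := p ∣ L ∧ p ∣ padicValInt p W.Δ

/-- The primes at which the systems of every node are required new. -/
def nodeNew (W : WeierstrassCurve ℤ) (p L : ℕ) : Finset ℕ :=
  open scoped Classical in if Peu W p L then {p} else ∅

/-- Taylor–Wiles primes of depth `n`. -/
structure RaiseLevel (B : RaiseData W hΔ p L O) (r n : ℕ) where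
  qv : Fin r → Nat.Primes
  inj : Function.Injective qv
  not_mem : ∀ i, (qv i : ℕ) ∉ raiseExcluded W p B.r₀
  e : Fin r → ℕ
  le_e : ∀ i, n ≤ e i
  pos_e : ∀ i, 0 < e i
  dvd_sub : ∀ i, p ^ e i ∣ (qv i : ℕ) - 1
  e_max : ∀ i, ¬ p ^ (e i + 1) ∣ (qv i : ℕ) - 1
  /-- a root of the residual Frobenius polynomial -/
  α : Fin r → ResidueField O
  root : ∀ i, α i * α i + 1 = B.a (qv i) * α i
  distinct : ∀ i, α i * α i ≠ 1

namespace RaiseLevel

variable {B : RaiseData W hΔ p L O} {r n : ℕ} (Q : RaiseLevel B r n)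

/-- The auxiliary primes. -/
def aux : Finset ℕ := Finset.univ.image fun i => (Q.qv i : ℕ)

/-- The modulus of the twist. -/
def N : ℕ := (∏ i, (Q.qv i : ℕ)) * 1

/-- All excluded primes. -/
def S' : Finset ℕ := raiseExcluded W p B.r₀ ∪ Q.aux

/-- The excluded primes of node `k`. -/
def Sk (F : RaiseFrames B) (k : ℕ) : Finset ℕ :=
  (raiseExcluded W p B.r₀ \ F.pending k) ∪ Q.aux

/-- The level of node `k`. -/
def lev (F : RaiseFrames B) (k : ℕ) : ℕ :=
  L * B.r₀ * (∏ x ∈ F.added k, x) * ∏ i, (Q.qv i : ℕ)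

/-- The level of node `k` without `p`. -/
def levOff (F : RaiseFrames B) (k : ℕ) : ℕ :=
  (if p ∣ L then L / p else L) * B.r₀ * (∏ x ∈ F.added k, x) * ∏ i, (Q.qv i : ℕ)

/-- The group ring of the diamond operators. -/
abbrev Λ : Type := Alg O (ppow p Q.e)

/-- The residual map of the group ring. -/
def resΛ : Q.Λ →+* ResidueField O := (residue O).comp (aug O (ppow p Q.e)).toRingHom

theorem prod_qv_ne_zero : ∏ i, (Q.qv i : ℕ) ≠ 0 :=
  Finset.prod_ne_zero_iff.2 fun i _ => (Q.qv i).2.ne_zero

theorem N_ne_zero : Q.N ≠ 0 := mul_ne_zero Q.prod_qv_ne_zero one_ne_zero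

instance : NeZero Q.N := ⟨Q.N_ne_zero⟩

theorem lev_ne_zero (F : RaiseFrames B) (k : ℕ) : Q.lev F k ≠ 0 :=
  mul_ne_zero (mul_ne_zero B.squarefree.ne_zero (F.prod_added_ne_zero k)) Q.prod_qv_ne_zero

instance (F : RaiseFrames B) (k : ℕ) : NeZero (Q.lev F k) := ⟨Q.lev_ne_zero F k⟩

theorem levOff_ne_zero (F : RaiseFrames B) (k : ℕ) : Q.levOff F k ≠ 0 := by
  have hp : p.Prime := Fact.out
  have hL : L ≠ 0 := left_ne_zero_of_mul B.squarefree.ne_zero
  refine mul_ne_zero (mul_ne_zero (mul_ne_zero ?_ (right_ne_zero_of_mul B.squarefree.ne_zero))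
    (F.prod_added_ne_zero k)) Q.prod_qv_ne_zero
  split_ifs with h
  · exact (Nat.div_pos (Nat.le_of_dvd (Nat.pos_of_ne_zero hL) h) hp.pos).ne'
  · exact hL

instance (F : RaiseFrames B) (k : ℕ) : NeZero (Q.levOff F k) := ⟨Q.levOff_ne_zero F k⟩

theorem twistData : TwistData p Q.N 1 (fun i => (Q.qv i : ℕ)) Q.e where
  eq := rfl
  pos := Nat.one_pos
  prime i := (Q.qv i).2
  inj i j h := Q.inj (Subtype.ext h)
  not_dvd i := (Q.qv i).2.not_dvd_one
  dvd_sub := Q.dvd_sub

/-- The twist: the tautological character of the diamond operators. -/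
def θ : MulChar (ZMod Q.N) Q.Λ := tautTwist Q.twistData 1

end RaiseLevel

/-- Operators at the primes outside `S` on a free module of rank `D` over the group ring, whose
systems are those of newforms of exact level at `Lev`, new at `new`. The residual condition is not
imposed at the primes to be added. -/
structure NodeModel {B : RaiseData W hΔ p L O} {r n : ℕ} (Q : RaiseLevel B r n) (S : Finset ℕ)
    (Lev : ℕ) [NeZero Lev] (new : Finset ℕ) (D : ℕ) where
  op : Nat.Primes → Matrix (Fin D) (Fin D) Q.Λ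
  comm : ∀ ℓ ℓ', Commute (op ℓ) (op ℓ')
  resid : ∀ ℓ : Nat.Primes, (ℓ : ℕ) ∉ S → (ℓ : ℕ) ∉ raisePrimes W L →
    IsNilpotent ((op ℓ).map Q.resΛ - B.a ℓ • (1 : Matrix (Fin D) (Fin D) (ResidueField O)))
  /-- the relations between the operators outside any `S₁` between `S` and all excluded primes on
  cusp forms of level `Lev * N` hold -/
  relation : ∀ S₁ : Finset ℕ, S ⊆ S₁ → S₁ ⊆ Q.S' →
    ∀ F : MvPolynomial Nat.Primes ℤ, (∀ ℓ ∈ F.vars, (ℓ : ℕ) ∉ S₁) →
    MvPolynomial.eval₂Hom (Int.castRingHom _) (formOp (Lev * Q.N) S₁) F = 0 →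
    ∀ (C : Type) [CommRing C] (f : Nat.Primes → C) (ι : C →+* Matrix (Fin D) (Fin D) Q.Λ),
      Function.Injective ι → (∀ ℓ : Nat.Primes, (ℓ : ℕ) ∉ S₁ → ι (f ℓ) = op ℓ) →
      MvPolynomial.eval₂Hom (Int.castRingHom C) f F = 0
  /-- a common eigenvector of a specialisation of the operators outside any `S₁` between `S` and
  all excluded primes gives a newform system of the exact level -/
  eigen : ∀ S₁ : Finset ℕ, S ⊆ S₁ → S₁ ⊆ Q.S' →
    ∀ (V : Type) [CommRing V] [IsDomain V] [IsDiscreteValuationRing V]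
    [IsAdicComplete (maximalIdeal V) V] [Finite (ResidueField V)] [CharZero V] [Algebra O V]
    [IsLocalHom (algebraMap O V)],
    Function.Injective (algebraMap O V) → ∀ (ξ : Q.Λ →ₐ[O] V) (c : Nat.Primes → V)
      (w : Fin D → V), w ≠ 0 →
      (∀ ℓ : Nat.Primes, (ℓ : ℕ) ∉ S₁ → ((op ℓ).map ξ).mulVec w = c ℓ • w) →
      ∃ (L' : ℕ) (_ : NeZero L'), IsExactLevel (Q.θ.ringHomComp ξ.toRingHom) S₁ c Lev L' ∧
        IsNewformSystem S₁ L' c ∧ ∀ q ∈ new, q ∣ L'

end Fermat.Agent.Lifting.Raise

end
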