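import Fermat.Agent.Lifting.Raise.Contracts
import Fermat.Agent.Lifting.Squarefree.Base
import Fermat.Agent.Lifting.Squarefree.BaseNode
import Fermat.Agent.RT.Assembly.Untwist

/-!
# The points of the nodes of the raising argument

* `isNewformSystem_mono`, `isExactLevel_mono`: a system outside a set is one outside a larger set;
* `RaiseLevel.exists_nodePoint`: an eigen system of a node congruent to the curve outside `S'` has
  a representation of node type, unramified at the auxiliary level, with `p` in its level when it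
  is in the level of the node.
-/

set_option autoImplicit false
set_option linter.style.haveILetI false

noncomputable section

open IsLocalRing Polynomial

namespace Fermat.Agent.Lifting.Raise

open RT.Diamond
open RT.Assembly (IsExactLevel IsNewformSystem NoOldAt twSystem mem_twSystem_iff LocalInputs
  StrictOrdinaryOfNewform tautTwist_apply twistGroup_pow_eq_one)

local notation "ℚ̄" => AlgebraicClosure ℚ
local notation "Γℚ" => (AlgebraicClosure ℚ ≃ₐ[ℚ] AlgebraicClosure ℚ)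

section Mono

variable {A : Type} [CommRing A] {N L L' : ℕ} {S S' : Finset ℕ}

/-- A newform system outside a set is one outside a larger set. -/
theorem isNewformSystem_mono [NeZero L] {c : Nat.Primes → A} (hS : S ⊆ S')
    (h : IsNewformSystem S L c) : IsNewformSystem S' L c := by
  obtain ⟨g, chig, emb, hg, h1, h2⟩ := h
  have hle : CuspForm.heckeAlgebra L 2 (↑S' : Set ℕ) ≤ CuspForm.heckeAlgebra L 2 (↑S : Set ℕ) :=
    CuspForm.heckeAlgebra_mono (Finset.coe_subset.2 hS)
  let i := (Subalgebra.inclusion hle).toRingHom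
  let chig' := chig.comp i
  have hrange : chig'.range ≤ chig.range := by
    rintro _ ⟨x, rfl⟩
    exact ⟨i x, rfl⟩
  refine ⟨g, chig', emb.comp (Subring.inclusion hrange), hg, fun ℓ hℓ hℓL hℓS => ?_,
    fun ℓ hℓ hℓL hℓS => ?_⟩
  · exact h1 ℓ hℓ hℓL fun hh => hℓS (Finset.coe_subset.2 hS hh)
  · exact h2 ℓ hℓ hℓL fun hh => hℓS (Finset.coe_subset.2 hS hh)

/-- An exact level outside a set is one outside a larger set. -/
theorem isExactLevel_mono {θ : MulChar (ZMod N) A} {c : Nat.Primes → A} (hS : S ⊆ S')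
    (h : IsExactLevel θ S c L L') : IsExactLevel θ S' c L L' := by
  refine ⟨h.dvd, h.pos, h.two, h.le_one, fun q hq hqL hnt hno => h.one q hq hqL hnt ?_⟩
  intro N' hN' θ' hθ' hd
  rw [eq_bot_iff, ← hno N' hN' θ' hθ' hd]
  intro y hy
  rw [mem_twSystem_iff] at hy ⊢
  exact fun ℓ hℓ => hy ℓ fun hh => hℓ (hS hh)

end Mono

variable {W : WeierstrassCurve ℤ} {hΔ : W.Δ ≠ 0} {p L : ℕ} [Fact p.Prime]
  {O : Type} [CommRing O] [IsDomain O] [IsDiscreteValuationRing O]
  [IsAdicComplete (maximalIdeal O) O] [Finite (ResidueField O)] [CharZero O]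
  {B : RaiseData W hΔ p L O} {r n : ℕ} (Q : RaiseLevel B r n) (F : RaiseFrames B)

namespace RaiseLevel

/-- The primes at which the representations of the nodes may be ramified besides the sites and
`p`, together with the auxiliary level. -/
def auxSet : Finset ℕ := Q.aux ∪ B.r₀.primeFactors

theorem Sk_subset (k : ℕ) : Q.Sk F k ⊆ Q.S' :=
  Finset.union_subset_union Finset.sdiff_subset le_rfl

theorem mem_aux_iff {q : ℕ} : q ∈ Q.aux ↔ ∃ i, (Q.qv i : ℕ) = q := by simp [aux]

theorem prime_of_mem_aux {q : ℕ} (hq : q ∈ Q.aux) : q.Prime := by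
  obtain ⟨i, rfl⟩ := (Q.mem_aux_iff).1 hq
  exact (Q.qv i).2

theorem mem_aux_of_dvd_N {q : ℕ} (hq : q.Prime) (hd : q ∣ Q.N) : q ∈ Q.aux := by
  rw [RaiseLevel.N, mul_one] at hd
  obtain ⟨i, -, hi⟩ := (Prime.dvd_finsetProd_iff hq.prime _).1 hd
  exact Q.mem_aux_iff.2 ⟨i, ((Nat.prime_dvd_prime_iff_eq hq (Q.qv i).2).1 hi).symm⟩

theorem mem_raiseSites_of_mem_added {k q : ℕ} (hq : q ∈ F.added k) : q ∈ raiseSites W p := by
  simp only [RaiseFrames.added, Finset.mem_image] at hq
  obtain ⟨i, -, rfl⟩ := hq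
  exact (F.q_cover _).2 ⟨_, rfl⟩

theorem mem_S'_of_mem_raiseSites {q : ℕ} (hq : q ∈ raiseSites W p) : q ∈ Q.S' := by
  obtain ⟨hq', -, hbad⟩ := (mem_raiseSites_iff hΔ).1 hq
  refine Finset.mem_union_left _ (Finset.mem_insert_of_mem (Finset.mem_union_left _ ?_))
  exact Nat.mem_primeFactors.2 ⟨hq', Int.natCast_dvd.1 hbad, Int.natAbs_ne_zero.2 hΔ⟩

/-- The primes of the level of a node. -/
theorem prime_dvd_lev (hb : IsRaisingBase W p L) {k q : ℕ} (hq : q.Prime)
    (hd : q ∣ Q.lev F k) :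
    q ∈ raiseSites W p ∨ q = p ∨ q ∈ Q.auxSet := by
  rcases hq.dvd_mul.1 hd with hd | hd
  · rcases hq.dvd_mul.1 hd with hd | hd
    · rcases hq.dvd_mul.1 hd with hd | hd
      · by_cases hqp : q = p
        · exact Or.inr (Or.inl hqp)
        · exact Or.inl ((mem_raiseSites_iff hΔ).2 ⟨hq, hqp, hb.dvd_bad q hq hd⟩)
      · exact Or.inr (Or.inr (Finset.mem_union_right _
          (Nat.mem_primeFactors.2 ⟨hq, hd, B.r₀_ne_zero⟩)))
    · obtain ⟨x, hx, hqx⟩ := (Prime.dvd_finsetProd_iff hq.prime _).1 hd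
      obtain rfl := (Nat.prime_dvd_prime_iff_eq hq (F.added_prime hx)).1 hqx
      exact Or.inl (mem_raiseSites_of_mem_added F hx)
  · obtain ⟨i, -, hi⟩ := (Prime.dvd_finsetProd_iff hq.prime _).1 hd
    exact Or.inr (Or.inr (Finset.mem_union_left _
      (Q.mem_aux_iff.2 ⟨i, ((Nat.prime_dvd_prime_iff_eq hq (Q.qv i).2).1 hi).symm⟩)))

/-- The shape of a node. -/
theorem nodeShape (hb : IsRaisingBase W p L) (k : ℕ) :
    NodeShape p Q.S' (raiseSites W p) Q.auxSet Q.N (Q.lev F k) where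
  p_mem := Finset.mem_union_left _ (Finset.mem_insert_self _ _)
  p_not_mem h := by
    rcases Finset.mem_union.1 h with h | h
    · obtain ⟨i, hi⟩ := Q.mem_aux_iff.1 h
      exact Q.not_mem i (by rw [hi]; exact Finset.mem_insert_self _ _)
    · exact (B.aux p Fact.out (Nat.dvd_of_mem_primeFactors h)).1 rfl
  sig_prime q hq := ((mem_raiseSites_iff hΔ).1 hq).1
  sig_ne q hq := ((mem_raiseSites_iff hΔ).1 hq).2.1
  sig_mem q hq := Q.mem_S'_of_mem_raiseSites hq
  sig_not_mem q hq h := by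
    obtain ⟨hq', -, hbad⟩ := (mem_raiseSites_iff hΔ).1 hq
    rcases Finset.mem_union.1 h with h | h
    · obtain ⟨i, rfl⟩ := Q.mem_aux_iff.1 h
      exact ((not_mem_raiseExcluded_iff hΔ B.r₀_ne_zero hq').1 (Q.not_mem i)).2.1 hbad
    · exact (B.aux q hq' (Nat.dvd_of_mem_primeFactors h)).2.1 hbad
  aux_mem q hq := by
    rcases Finset.mem_union.1 hq with h | h
    · exact Finset.mem_union_right _ h
    · exact Finset.mem_union_left _ (Finset.mem_insert_of_mem (Finset.mem_union_right _ h))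
  modulus q hq hd := Finset.mem_union_left _ (Q.mem_aux_of_dvd_N hq hd)
  level q hq hd := Q.prime_dvd_lev F hb hq hd

theorem mem_S'_of_dvd_lev (hb : IsRaisingBase W p L) {k q : ℕ} (hq : q.Prime)
    (hd : q ∣ Q.lev F k) : q ∈ Q.S' := by
  rcases Q.prime_dvd_lev F hb hq hd with h | h | h
  exacts [Q.mem_S'_of_mem_raiseSites h, h ▸ (Q.nodeShape F hb k).p_mem,
    (Q.nodeShape F hb k).aux_mem q h]

theorem dvd_lev_iff_dvd (k : ℕ) : p ∣ Q.lev F k ↔ p ∣ L := by
  have hp : p.Prime := Fact.out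
  refine ⟨fun hd => ?_, fun h => ((h.mul_right _).mul_right _).mul_right _⟩
  rcases hp.dvd_mul.1 hd with hd | hd
  · rcases hp.dvd_mul.1 hd with hd | hd
    · rcases hp.dvd_mul.1 hd with hd | hd
      · exact hd
      · exact absurd rfl (B.aux p hp hd).1
    · obtain ⟨x, hx, hpx⟩ := (Prime.dvd_finsetProd_iff hp.prime _).1 hd
      obtain rfl := (Nat.prime_dvd_prime_iff_eq hp (F.added_prime hx)).1 hpx
      exact absurd rfl ((mem_raiseSites_iff hΔ).1 (mem_raiseSites_of_mem_added F hx)).2.1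
  · obtain ⟨i, -, hi⟩ := (Prime.dvd_finsetProd_iff hp.prime _).1 hd
    have e := (Nat.prime_dvd_prime_iff_eq hp (Q.qv i).2).1 hi
    exact absurd (by rw [← e]; exact Finset.mem_insert_self _ _) (Q.not_mem i)

variable {V : Type} [CommRing V] [IsDomain V] [IsDiscreteValuationRing V] [Algebra O V]
  [IsLocalHom (algebraMap O V)]

include B in
theorem natCast_mem_maximalIdeal : (p : V) ∈ maximalIdeal V := by
  rw [← map_natCast (algebraMap O V)]
  exact map_nonunit _ _ B.hpO

/-- The specialisations of the twist are residually trivial. -/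
theorem residue_θ (ξ : Q.Λ →ₐ[O] V) (u : (ZMod Q.N)ˣ) :
    residue V (Q.θ.ringHomComp ξ.toRingHom u) = 1 := by
  have hp : p.Prime := Fact.out
  have hpk : (p : ResidueField V) = 0 := by
    rw [← map_natCast (residue V), residue_eq_zero_iff]
    exact natCast_mem_maximalIdeal (B := B)
  have : CharP (ResidueField V) p := (CharP.charP_iff_prime_eq_zero hp).2 hpk
  set w := residue V (Q.θ.ringHomComp ξ.toRingHom u) with hw
  have hw1 : w ^ p ^ (∑ i, Q.e i) = 1 := by
    rw [hw, ← map_pow, MulChar.ringHomComp_apply, RaiseLevel.θ, tautTwist_apply,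
      MulChar.one_apply_coe, map_one, one_mul, ← map_pow,
      ← map_pow (MonoidAlgebra.of O (RT.Assembly.TwistGroup p Q.e)), twistGroup_pow_eq_one,
      map_one, map_one, map_one]
  rw [← iterateFrobenius_def, ← (iterateFrobenius (ResidueField V) p _).map_one] at hw1
  exact iterateFrobenius_inj (ResidueField V) p _ hw1

/-- The residual values of a system congruent to the curve outside `S'`. -/
theorem residue_eq_apOfModel {c : Nat.Primes → V}
    (hc : ∀ ℓ : Nat.Primes, (ℓ : ℕ) ∉ Q.S' →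
      residue V (c ℓ) = ResidueField.map (algebraMap O V) (B.a ℓ))
    (ℓ : Nat.Primes) (hℓ : (ℓ : ℕ) ∉ Q.S') :
    residue V (c ℓ) = ((W.apOfModel ℓ : ℤ) : ResidueField V) := by
  rw [hc ℓ hℓ, B.a_eq ℓ fun h => hℓ (Finset.mem_union_left _ h), Minimal.residualSystem,
    map_intCast]

variable [IsAdicComplete (maximalIdeal V) V] [Finite (ResidueField V)] [CharZero V]

/-- The residual representation at a point. -/
abbrev rhoAt (B : RaiseData W hΔ p L O) (V : Type) [CommRing V] [IsLocalRing V] [Algebra O V]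
    [IsLocalHom (algebraMap O V)] : ResidualGaloisRep (ResidueField V) :=
  raiseRep hΔ ((ResidueField.map (algebraMap O V)).comp B.ι)

/-- **The representation of an eigen system of a node.** -/
theorem exists_nodePoint (hS29 : RT.EigenformResidualRep) (inputs : LocalInputs p)
    (hso : StrictOrdinaryOfNewform p) (htres : TresPrimeInLevel)
    (hW : W.IsSemistableModel) (hirr : W.ModRepIsIrreducible p) (hb : IsRaisingBase W p L)
    (k : ℕ) (ξ : Q.Λ →ₐ[O] V) (c : Nat.Primes → V)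
    (hc : ∀ ℓ : Nat.Primes, (ℓ : ℕ) ∉ Q.S' →
      residue V (c ℓ) = ResidueField.map (algebraMap O V) (B.a ℓ))
    {L' : ℕ} [NeZero L'] {S : Finset ℕ} (hS : S ⊆ Q.S')
    (hex : IsExactLevel (Q.θ.ringHomComp ξ.toRingHom) S c (Q.lev F k) L')
    (hnew : IsNewformSystem S L' c) (hnewAt : ∀ q ∈ nodeNew W p L, q ∣ L') :
    (p ∣ L → p ∣ L') ∧ (∀ q : ℕ, q.Prime → q ∣ B.r₀ → ¬ q ∣ L') ∧
    ∃ ρ : GaloisRepAdic V,
      IsNodePoint p Q.S' (raiseSites W p) Q.auxSet (Q.θ.ringHomComp ξ.toRingHom) (Q.lev F k) L' c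
        (rhoAt B V) ρ ∧
      ∀ q : ℕ, q.Prime → q ≠ p → q ∉ raiseSites W p → q ∉ Q.aux → ρ.IsUnramifiedAt q := by
  classical
  have hp : p.Prime := Fact.out
  have hp2 : p ≠ 2 := B.hp2
  have hpV : (p : V) ∈ maximalIdeal V := natCast_mem_maximalIdeal (B := B)
  have hsh := Q.nodeShape F hb k
  have hex' := isExactLevel_mono hS hex
  have hnew' := isNewformSystem_mono hS hnew
  have hLS : ∀ q : ℕ, q.Prime → q ∣ L' → q ∈ Q.S' := fun q hq hd => by
    rcases hq.dvd_mul.1 (hd.trans hex.dvd) with h | h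
    · exact Q.mem_S'_of_dvd_lev F hb hq h
    · exact Finset.mem_union_right _ (Q.mem_aux_of_dvd_N hq h)
  have hres := residualNewformAt_of_newformSystem hS29 hΔ hp hpV Q.S' hLS hnew'
    (Q.residue_eq_apOfModel hc)
  have hpL : p ∣ L → p ∣ L' := fun hpL => by
    by_cases hpeu : p ∣ padicValInt p W.Δ
    · exact hnewAt p (by rw [nodeNew, if_pos ⟨hpL, hpeu⟩]; exact Finset.mem_singleton_self p)
    · exact htres p hp hp2 W hΔ hW (hb.p_dvd_iff.1 hpL) hpeu hirr L'
        (Nat.pos_of_ne_zero (NeZero.ne L')) hres.residual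
  have hr₀ : ∀ q : ℕ, q.Prime → q ∣ B.r₀ → ¬ q ∣ L' := fun q hq hqr hd => by
    obtain ⟨-, hqp, hgood, -, hne⟩ := B.sq_ne_of_dvd_r₀ hq hqr
    refine hne (sq_sub_dvd_of_residualNewformAt inputs.mult hΔ hp hp2 hirr
      (Nat.pos_of_ne_zero (NeZero.ne L')) hres hq hqp hgood hd fun h2 => ?_)
    have hnt : ¬ RT.Assembly.NontrivialAt (Q.θ.ringHomComp ξ.toRingHom) q := fun h => by
      obtain ⟨i, hi⟩ := Q.mem_aux_iff.1 (Q.mem_aux_of_dvd_N hq h.1)
      subst hi
      exact ((not_mem_raiseExcluded_iff hΔ B.r₀_ne_zero hq).1 (Q.not_mem i)).2.2 hqr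
    have := (hq.pow_dvd_iff_le_factorization (NeZero.ne L')).1 h2
    have := hex.le_one q hq hnt
    omega
  refine ⟨hpL, hr₀, ?_⟩
  have habs : (rhoAt B V).IsAbsolutelyIrreducible :=
    Residual.torsRep_baseChangeAlong_isAbsolutelyIrreducible hΔ hp2 hirr _
  have hbar : ∀ (ℓ : ℕ) (hℓ : ℓ.Prime), ℓ ∉ Q.S' → ∀ A : ValuationSubring ℚ̄, A.LiesOverPrime ℓ →
      ∀ σ : Γℚ, A.IsFrobeniusAt σ ℓ → LinearMap.charpoly ((rhoAt B V).ρ σ) =
        X ^ 2 - C (residue V (c ⟨ℓ, hℓ⟩)) * X + C (ℓ : ResidueField V) := by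
    intro ℓ hℓ hℓS A hA σ hσ
    obtain ⟨hℓp, hgood, -⟩ := (not_mem_raiseExcluded_iff hΔ B.r₀_ne_zero hℓ).1
      fun h => hℓS (Finset.mem_union_left _ h)
    rw [Q.residue_eq_apOfModel hc ⟨ℓ, hℓ⟩ hℓS]
    exact Minimal.torsRep_baseChange_charpoly_frob hΔ _ ⟨ℓ, hℓ⟩ hℓp hgood A hA σ hσ
  obtain ⟨ρ, hρ⟩ := Lifting.exists_nodePoint hp2 hpV inputs hso hsh hex' hnew' habs hbar
    (fun h => hpL ((Q.dvd_lev_iff_dvd F k).1 h)) fun h =>
      Minimal.torsRep_baseChange_isStrictOrdinaryAt hΔ _ hW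
        (hb.p_dvd_iff.1 ((Q.dvd_lev_iff_dvd F k).1 h))
  refine ⟨ρ, hρ, fun q hq hqp hqS hqA => ?_⟩
  by_cases hqr : q ∈ B.r₀.primeFactors
  · exact hρ.unramified q hq hqp (hr₀ q hq (Nat.dvd_of_mem_primeFactors hqr))
  · exact hρ.unramified_outside q hq hqp hqS fun h =>
      (Finset.mem_union.1 h).elim hqA hqr

end RaiseLevel

end Fermat.Agent.Lifting.Raise

end
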