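import Fermat.Agent.Lifting.Raise.Level
import Fermat.Agent.RT.Assembly.Eigen
import Fermat.Agent.RT.Assembly.HeckeReduced
import Fermat.Agent.EichlerShimura.FiniteDVR
import Fermat.Prelude.Thm_IsLocalRing_isAdicComplete_of_module_finite
import Mathlib.LinearAlgebra.Matrix.Charpoly.Coeff

/-!
# The ring of operators of a finite family of nodes

For nodes of one level and a finite set `R` of excluded primes, `nodeRing M R` is generated over
the group ring by the tuples of operators at the primes outside `R`. It is finite and free over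
`O` and decreases with `R`. When `R` contains the excluded primes of the nodes and is contained in
those of the level it is reduced, and its points through a component give newform systems of exact
level at that node. When it also contains the primes to be added and some rank is nonzero it is
local, with residual eigenvalues those of the base.
-/

set_option autoImplicit false
set_option linter.style.haveILetI false

noncomputable section

open IsLocalRing

namespace Fermat.Agent.Lifting.Raise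

open RT.Diamond
open RT.Assembly (IsExactLevel IsNewformSystem formOp)

variable {W : WeierstrassCurve ℤ} {hΔ : W.Δ ≠ 0} {p L : ℕ} [Fact p.Prime]
  {O : Type} [CommRing O] [IsDomain O] [IsDiscreteValuationRing O]
  [IsAdicComplete (maximalIdeal O) O] [Finite (ResidueField O)] [CharZero O]
  {B : RaiseData W hΔ p L O}

/-- The primes to be raised are excluded. -/
theorem raisePrimes_subset_raiseExcluded (W : WeierstrassCurve ℤ) (p L r : ℕ) :
    raisePrimes W L ⊆ raiseExcluded W p r := fun _ h =>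
  Finset.mem_insert_of_mem (Finset.mem_union_left _ (Finset.mem_sdiff.1 h).1)

namespace RaiseLevel

variable {r n : ℕ} (Q : RaiseLevel B r n)

theorem prime_mem_aux {q : ℕ} (hq : q.Prime) (hd : q ∣ ∏ i, (Q.qv i : ℕ)) : q ∈ Q.aux := by
  obtain ⟨i, -, hi⟩ := (Prime.dvd_finsetProd_iff hq.prime _).1 hd
  exact Finset.mem_image.2
    ⟨i, Finset.mem_univ _, ((Nat.prime_dvd_prime_iff_eq hq (Q.qv i).2).1 hi).symm⟩

theorem raisePrimes_subset : raisePrimes W L ⊆ Q.S' :=
  (raisePrimes_subset_raiseExcluded W p L B.r₀).trans Finset.subset_union_left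

/-- The primes of the level of a node are excluded there. -/
theorem mem_Sk_of_dvd (F : RaiseFrames B) (k : ℕ) {q : ℕ} (hq : q.Prime)
    (hd : q ∣ Q.lev F k * Q.N) : q ∈ Q.Sk F k := by
  have hpend : ∀ {x : ℕ}, x ∈ F.pending k → x.Prime ∧ ¬ x ∣ L * B.r₀ ∧ x ∉ F.added k := by
    intro x hx
    simp only [RaiseFrames.pending, Finset.mem_image, Finset.mem_filter, Finset.mem_univ,
      true_and] at hx
    obtain ⟨i, hi, rfl⟩ := hx
    refine ⟨F.q_prime _, fun h => ?_, fun h => ?_⟩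
    · rcases (F.q_prime _).dvd_mul.1 h with h | h
      · exact (F.t_cover _).1 ⟨i, rfl⟩ h
      · obtain ⟨hsne, hsΔ⟩ := (mem_raiseSites_iff hΔ).1 ((F.q_cover _).2 ⟨F.t i, rfl⟩) |>.2
        exact (B.aux _ (F.q_prime _) h).2.1 hsΔ
    · simp only [RaiseFrames.added, Finset.mem_image, Finset.mem_filter, Finset.mem_univ,
        true_and] at h
      obtain ⟨j, hj, hji⟩ := h
      exact absurd (F.t_inj (F.q_inj hji) ▸ hj) (not_lt.2 hi)
  have key : q ∈ Q.aux ∨ q ∣ L * B.r₀ ∨ q ∈ F.added k := by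
    rcases hq.dvd_mul.1 hd with h | h
    · rcases hq.dvd_mul.1 h with h | h
      · rcases hq.dvd_mul.1 h with h | h
        · exact Or.inr (Or.inl h)
        · obtain ⟨x, hx, hqx⟩ := (Prime.dvd_finsetProd_iff hq.prime _).1 h
          exact Or.inr (Or.inr ((Nat.prime_dvd_prime_iff_eq hq (F.added_prime hx)).1 hqx ▸ hx))
      · exact Or.inl (Q.prime_mem_aux hq h)
    · rw [N, mul_one] at h
      exact Or.inl (Q.prime_mem_aux hq h)
  rcases key with h | h | h
  · exact Finset.mem_union_right _ h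
  · exact Finset.mem_union_left _ (Finset.mem_sdiff.2
      ⟨B.level_mem q hq h, fun hp' => (hpend hp').2.1 h⟩)
  · refine Finset.mem_union_left _ (Finset.mem_sdiff.2 ⟨?_, fun hp' => (hpend hp').2.2 h⟩)
    simp only [RaiseFrames.added, Finset.mem_image] at h
    obtain ⟨i, -, rfl⟩ := h
    obtain ⟨-, hsΔ⟩ := (mem_raiseSites_iff hΔ).1 ((F.q_cover _).2 ⟨F.t i, rfl⟩) |>.2
    exact Finset.mem_insert_of_mem (Finset.mem_union_left _
      (Nat.mem_primeFactors.2 ⟨hq, Int.natCast_dvd.1 hsΔ, Int.natAbs_ne_zero.2 hΔ⟩))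

/-- The primes of the level without `p` are excluded there. -/
theorem mem_Sk_of_dvd_levOff (F : RaiseFrames B) (k : ℕ) {q : ℕ} (hq : q.Prime)
    (hd : q ∣ Q.levOff F k * Q.N) : q ∈ Q.Sk F k := by
  refine Q.mem_Sk_of_dvd F k hq (hd.trans (Nat.mul_dvd_mul_right ?_ _))
  refine Nat.mul_dvd_mul_right (Nat.mul_dvd_mul_right (Nat.mul_dvd_mul_right ?_ _) _) _
  split_ifs with h
  · exact Nat.div_dvd_of_dvd h
  · exact dvd_rfl

end RaiseLevel

variable {r n : ℕ} {Q : RaiseLevel B r n} {J : Type} {S : J → Finset ℕ} {Lev : J → ℕ}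
  [∀ j, NeZero (Lev j)] {new : J → Finset ℕ} {D : J → ℕ}
  (M : ∀ j, NodeModel Q (S j) (Lev j) (new j) (D j))

/-- The algebra generated over the group ring by the tuples of operators outside `R`. -/
def nodeRing (R : Finset ℕ) : Subalgebra Q.Λ (∀ j, Matrix (Fin (D j)) (Fin (D j)) Q.Λ) :=
  Algebra.adjoin Q.Λ ((fun ℓ j => (M j).op ℓ) '' {ℓ | (ℓ : ℕ) ∉ R})

instance nodeRing.instIsMulCommutative (R : Finset ℕ) : IsMulCommutative (nodeRing M R) :=
  Algebra.isMulCommutative_adjoin Q.Λ (by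
    rintro _ ⟨a, -, rfl⟩ _ ⟨b, -, rfl⟩
    exact funext fun j => (M j).comm a b)

open scoped IsMulCommutative in
instance nodeRing.instCommRing (R : Finset ℕ) : CommRing (nodeRing M R) := inferInstance

namespace nodeRing

variable {R R' : Finset ℕ}

/-- The operator at a prime outside `R`. -/
def T (ℓ : Nat.Primes) (h : (ℓ : ℕ) ∉ R) : nodeRing M R :=
  ⟨fun j => (M j).op ℓ, Algebra.subset_adjoin ⟨ℓ, h, rfl⟩⟩

/-- The diamond operators. -/
def lam (R : Finset ℕ) : Q.Λ →ₐ[O] nodeRing M R := IsScalarTower.toAlgHom O Q.Λ (nodeRing M R)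

/-- The action on a node. -/
def proj (R : Finset ℕ) (j : J) : nodeRing M R →ₐ[O] Matrix (Fin (D j)) (Fin (D j)) Q.Λ :=
  (Pi.evalAlgHom O (fun j => Matrix (Fin (D j)) (Fin (D j)) Q.Λ) j).comp
    ((nodeRing M R).val.restrictScalars O)

theorem proj_T (j : J) (ℓ : Nat.Primes) (h : (ℓ : ℕ) ∉ R) : proj M R j (T M ℓ h) = (M j).op ℓ :=
  rfl

theorem proj_lam (j : J) (c : Q.Λ) : proj M R j (lam M R c) = Matrix.scalar (Fin (D j)) c := rfl

theorem eq_zero_of_proj {x : nodeRing M R} (h : ∀ j, proj M R j x = 0) : x = 0 :=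
  Subtype.ext (funext h)

theorem le_of_subset (h : R' ⊆ R) : nodeRing M R ≤ nodeRing M R' :=
  Algebra.adjoin_mono
    (Set.image_mono fun (ℓ : Nat.Primes) (hℓ : (ℓ : ℕ) ∉ R) hmem => hℓ (h hmem))

/-- The ring is generated over `O` by the diamond operators and the operators. -/
theorem adjoin_eq_top :
    Algebra.adjoin O (Set.range (fun g : Grp (ppow p Q.e) =>
      lam M R (MonoidAlgebra.of O (Grp (ppow p Q.e)) g)) ∪
      Set.range fun ℓ : {ℓ : Nat.Primes // (ℓ : ℕ) ∉ R} => T M ℓ.1 ℓ.2) = ⊤ := by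
  set A := Algebra.adjoin O (Set.range (fun g : Grp (ppow p Q.e) =>
    lam M R (MonoidAlgebra.of O (Grp (ppow p Q.e)) g)) ∪
    Set.range fun ℓ : {ℓ : Nat.Primes // (ℓ : ℕ) ∉ R} => T M ℓ.1 ℓ.2)
  have hlam : ∀ c, lam M R c ∈ A := by
    intro c
    induction c using MonoidAlgebra.induction_on with
    | of g => exact Algebra.subset_adjoin (Or.inl ⟨g, rfl⟩)
    | add a b ha hb => rw [map_add]; exact add_mem ha hb
    | smul o a ha => rw [map_smul]; exact Subalgebra.smul_mem _ ha o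
  have hall : ∀ (x : ∀ j, Matrix (Fin (D j)) (Fin (D j)) Q.Λ)
      (hx : x ∈ Algebra.adjoin Q.Λ ((fun ℓ j => (M j).op ℓ) '' {ℓ | (ℓ : ℕ) ∉ R})),
      (⟨x, hx⟩ : nodeRing M R) ∈ A := by
    intro x hx
    induction hx using Algebra.adjoin_induction with
    | mem x hx =>
      obtain ⟨ℓ, hℓ, rfl⟩ := hx
      exact Algebra.subset_adjoin (Or.inr ⟨⟨ℓ, hℓ⟩, rfl⟩)
    | algebraMap c => exact hlam c
    | add a b ha hb iha ihb =>
      have e : (⟨a + b, add_mem ha hb⟩ : nodeRing M R) =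
          (⟨a, ha⟩ : nodeRing M R) + ⟨b, hb⟩ := Subtype.ext rfl
      exact e ▸ Subalgebra.add_mem A iha ihb
    | mul a b ha hb iha ihb =>
      have e : (⟨a * b, mul_mem ha hb⟩ : nodeRing M R) =
          (⟨a, ha⟩ : nodeRing M R) * ⟨b, hb⟩ := Subtype.ext rfl
      exact e ▸ Subalgebra.mul_mem A iha ihb
  exact eq_top_iff.2 fun x _ => hall x.1 x.2

variable [Finite J]

instance finite : Module.Finite O (nodeRing M R) := by
  haveI : Module.Finite O Q.Λ := Module.Finite.of_basis (MonoidAlgebra.basis _ O)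
  haveI : Module.Finite O (∀ j, Matrix (Fin (D j)) (Fin (D j)) Q.Λ) := Module.Finite.pi
  exact Module.Finite.of_injective ((nodeRing M R).val.toLinearMap.restrictScalars O)
    Subtype.val_injective

instance free : Module.Free O (nodeRing M R) := by
  haveI : Module.Finite O Q.Λ := Module.Finite.of_basis (MonoidAlgebra.basis _ O)
  haveI : Module.Free O Q.Λ := Module.Free.of_basis (MonoidAlgebra.basis _ O)
  haveI : Module.Free O (∀ j, Matrix (Fin (D j)) (Fin (D j)) Q.Λ) := inferInstance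
  haveI : Module.IsTorsionFree O (nodeRing M R) :=
    Subtype.val_injective.moduleIsTorsionFree ((nodeRing M R).val.toLinearMap.restrictScalars O)
      (fun _ _ => rfl)
  exact Module.free_of_finite_type_torsion_free'

instance isNoetherianRing : IsNoetherianRing (nodeRing M R) := IsNoetherianRing.of_finite O _

instance isTorsionFree : Module.IsTorsionFree O (nodeRing M R) :=
  Subtype.val_injective.moduleIsTorsionFree ((nodeRing M R).val.toLinearMap.restrictScalars O)
    (fun _ _ => rfl)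

section Maximal

variable (𝔪 : Ideal (nodeRing M R)) [h𝔪 : 𝔪.IsMaximal]

theorem comap_maximal : 𝔪.comap (algebraMap O (nodeRing M R)) = maximalIdeal O :=
  haveI : Algebra.IsIntegral O (nodeRing M R) := Algebra.IsIntegral.of_finite _ _
  eq_maximalIdeal (Ideal.isMaximal_comap_of_isIntegral_of_isMaximal 𝔪)

theorem algebraMap_mem {o : O} (ho : o ∈ maximalIdeal O) :
    algebraMap O (nodeRing M R) o ∈ 𝔪 := by
  rw [← Ideal.mem_comap, comap_maximal]
  exact ho

theorem lam_sub_aug_mem (c : Q.Λ) :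
    lam M R c - algebraMap O (nodeRing M R) (aug O (ppow p Q.e) c) ∈ 𝔪 := by
  have hp : p.Prime := Fact.out
  have hdel : ∀ i, lam M R (delta O (N := ppow p Q.e) i - 1) ∈ 𝔪 := by
    intro i
    have : CharP (nodeRing M R ⧸ 𝔪) p := by
      have hfield := Ideal.Quotient.field 𝔪
      refine (CharP.charP_iff_prime_eq_zero hp).2 ?_
      rw [← map_natCast (Ideal.Quotient.mk 𝔪), Ideal.Quotient.eq_zero_iff_mem,
        ← map_natCast (algebraMap O (nodeRing M R))]
      exact algebraMap_mem M 𝔪 B.hpO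
    rw [← Ideal.Quotient.eq_zero_iff_mem]
    refine pow_eq_zero_iff (pow_ne_zero (Q.e i) hp.ne_zero) |>.1 ?_
    rw [map_sub, map_one, map_sub, map_one, sub_pow_char_pow, ← map_pow, ← map_pow, delta_pow,
      map_one, map_one, one_pow, sub_self]
  have hle : augIdeal O (ppow p Q.e) ≤ 𝔪.comap (lam M R) := Ideal.span_le.2 (by
    rintro _ ⟨i, rfl⟩
    exact hdel i)
  have := hle (sub_aug_mem (O := O) (N := ppow p Q.e) c)
  rwa [Ideal.mem_comap, map_sub, AlgHom.commutes] at this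

theorem lam_mem_of_resΛ {c : Q.Λ} (hc : Q.resΛ c = 0) : lam M R c ∈ 𝔪 := by
  have h1 := lam_sub_aug_mem M 𝔪 c
  have h2 := algebraMap_mem M 𝔪 ((residue_eq_zero_iff _).1 hc)
  simpa using 𝔪.add_mem h1 h2

/-- Away from the primes to be added an operator is its residual eigenvalue modulo every maximal
ideal. -/
theorem T_sub_mem (ℓ : Nat.Primes) (hℓ : (ℓ : ℕ) ∉ R) (hℓS : ∀ j, (ℓ : ℕ) ∉ S j)
    (hℓt : (ℓ : ℕ) ∉ raisePrimes W L) {o : O} (ho : residue O o = B.a ℓ) :
    T M ℓ hℓ - algebraMap O (nodeRing M R) o ∈ 𝔪 := by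
  classical
  haveI := Fintype.ofFinite J
  set y : nodeRing M R := T M ℓ hℓ - algebraMap O (nodeRing M R) o
  let f : J → Polynomial Q.Λ := fun j => (proj M R j y).charpoly
  have hres : ∀ j, ((proj M R j y).map Q.resΛ) = ((M j).op ℓ).map Q.resΛ - B.a ℓ • 1 := by
    intro j
    rw [map_sub, AlgHom.commutes, proj_T, Matrix.map_sub _ (map_sub Q.resΛ),
      Matrix.algebraMap_eq_diagonal, Matrix.diagonal_map (map_zero _)]
    congr 1
    ext a b
    rcases eq_or_ne a b with rfl | hab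
    · simp [RaiseLevel.resΛ, aug, ho]
    · simp [hab]
  have hf : ∀ j, (f j).map Q.resΛ = Polynomial.X ^ D j := by
    intro j
    rw [← Matrix.charpoly_map, hres]
    have :=
      (Matrix.isNilpotent_charpoly_sub_pow_of_isNilpotent ((M j).resid ℓ (hℓS j) hℓt)).eq_zero
    rwa [sub_eq_zero, Fintype.card_fin] at this
  have h0 : Polynomial.aeval y (∏ j, f j) = 0 := eq_zero_of_proj M fun j => by
    let π : nodeRing M R →ₐ[Q.Λ] Matrix (Fin (D j)) (Fin (D j)) Q.Λ :=
      (Pi.evalAlgHom Q.Λ (fun j => Matrix (Fin (D j)) (Fin (D j)) Q.Λ) j).comp (nodeRing M R).val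
    show π (Polynomial.aeval y (∏ j, f j)) = 0
    rw [← Polynomial.aeval_algHom_apply, ← Finset.prod_erase_mul _ _ (Finset.mem_univ j), map_mul]
    exact mul_eq_zero_of_right _ (Matrix.aeval_self_charpoly _)
  let q : nodeRing M R →+* nodeRing M R ⧸ 𝔪 := Ideal.Quotient.mk 𝔪
  have hker : RingHom.ker Q.resΛ ≤ RingHom.ker (q.comp (lam M R).toRingHom) := fun c hc =>
    Ideal.Quotient.eq_zero_iff_mem.2 (lam_mem_of_resΛ M 𝔪 hc)
  have hsurj : Function.Surjective Q.resΛ := fun x => by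
    obtain ⟨o, rfl⟩ := residue_surjective x
    exact ⟨algebraMap O _ o, by simp [RaiseLevel.resΛ, aug]⟩
  let g : ResidueField O →+* nodeRing M R ⧸ 𝔪 :=
    RingHom.liftOfSurjective Q.resΛ hsurj ⟨q.comp (lam M R).toRingHom, hker⟩
  have hg : g.comp Q.resΛ = q.comp (lam M R).toRingHom :=
    RingHom.liftOfSurjective_comp Q.resΛ hsurj ⟨q.comp (lam M R).toRingHom, hker⟩
  have h1 : Polynomial.eval₂ (q.comp (lam M R).toRingHom) (q y) (∏ j, f j) = 0 := by
    rw [← Polynomial.hom_eval₂]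
    exact (congrArg q h0).trans (map_zero q)
  rw [← hg, ← Polynomial.eval₂_map, Polynomial.map_prod,
    Finset.prod_congr rfl fun j _ => hf j, Finset.prod_pow_eq_pow_sum, Polynomial.eval₂_X_pow] at h1
  exact Ideal.Quotient.eq_zero_iff_mem.1 (eq_zero_of_pow_eq_zero h1)

end Maximal

/-- When `R` contains the `S j` and the primes to be added, every element is a scalar modulo every
maximal ideal. -/
theorem exists_scalar (hS : ∀ j, S j ⊆ R) (ht : raisePrimes W L ⊆ R) (x : nodeRing M R) :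
    ∃ o : O, ∀ 𝔫 : Ideal (nodeRing M R), 𝔫.IsMaximal → x - algebraMap O _ o ∈ 𝔫 := by
  obtain ⟨x, hx⟩ := x
  induction hx using Algebra.adjoin_induction with
  | mem x hx =>
    obtain ⟨ℓ, hℓ, rfl⟩ := hx
    obtain ⟨o, ho⟩ := residue_surjective (B.a ℓ)
    exact ⟨o, fun 𝔫 h𝔫 =>
      T_sub_mem M 𝔫 ℓ hℓ (fun j h => hℓ (hS j h)) (fun h => hℓ (ht h)) ho⟩
  | algebraMap c => exact ⟨_, fun 𝔫 h𝔫 => lam_sub_aug_mem M 𝔫 c⟩
  | add a b ha hb iha ihb =>
    obtain ⟨o, ho⟩ := iha
    obtain ⟨o', ho'⟩ := ihb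
    refine ⟨o + o', fun 𝔫 h𝔫 => ?_⟩
    have h := 𝔫.add_mem (ho 𝔫 h𝔫) (ho' 𝔫 h𝔫)
    rwa [sub_add_sub_comm, ← map_add] at h
  | mul a b ha hb iha ihb =>
    obtain ⟨o, ho⟩ := iha
    obtain ⟨o', ho'⟩ := ihb
    refine ⟨o * o', fun 𝔫 h𝔫 => ?_⟩
    have h := 𝔫.add_mem (𝔫.mul_mem_right (⟨b, hb⟩ : nodeRing M R) (ho 𝔫 h𝔫))
      (𝔫.mul_mem_left (algebraMap O (nodeRing M R) o) (ho' 𝔫 h𝔫))
    convert h using 1
    rw [map_mul]
    show (⟨a, ha⟩ : nodeRing M R) * ⟨b, hb⟩ - _ = _
    ring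

omit [Finite J] in
theorem nontrivial (hD : ∃ j, D j ≠ 0) : Nontrivial (nodeRing M R) := by
  haveI := isLocalRing_alg (O := O) (p := p) (e := Q.e) B.hpO
  obtain ⟨j, hj⟩ := hD
  refine ⟨⟨0, 1, fun h => ?_⟩⟩
  have h' := congrFun (congrFun (congrArg (proj M R j) h) ⟨0, Nat.pos_of_ne_zero hj⟩)
    ⟨0, Nat.pos_of_ne_zero hj⟩
  simp at h'

theorem isLocalRing (hS : ∀ j, S j ⊆ R) (ht : raisePrimes W L ⊆ R) (hD : ∃ j, D j ≠ 0) :
    IsLocalRing (nodeRing M R) := by
  haveI := nontrivial M (R := R) hD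
  obtain ⟨𝔪, h𝔪⟩ := Ideal.exists_maximal (nodeRing M R)
  refine IsLocalRing.of_unique_max_ideal
    ⟨𝔪, h𝔪, fun 𝔫 h𝔫 => h𝔫.eq_of_le h𝔪.ne_top fun x hx => ?_⟩
  obtain ⟨o, ho⟩ := exists_scalar M hS ht x
  have h1 : algebraMap O (nodeRing M R) o ∈ 𝔫 := by simpa using 𝔫.sub_mem hx (ho 𝔫 h𝔫)
  rw [← Ideal.mem_comap, comap_maximal M 𝔫] at h1
  simpa using 𝔪.add_mem (ho 𝔪 h𝔪) (algebraMap_mem M 𝔪 h1)

section Local

variable [IsLocalRing (nodeRing M R)]

instance isLocalHom : IsLocalHom (algebraMap O (nodeRing M R)) :=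
  ((IsLocalRing.local_hom_TFAE _).out 0 4).mpr (comap_maximal M _)

instance isAdicComplete : IsAdicComplete (maximalIdeal (nodeRing M R)) (nodeRing M R) :=
  IsLocalRing.isAdicComplete_of_module_finite (𝒪 := O)

theorem residue_surjective' (hS : ∀ j, S j ⊆ R) (ht : raisePrimes W L ⊆ R) :
    Function.Surjective (residue (nodeRing M R) ∘ algebraMap O (nodeRing M R)) := fun z => by
  obtain ⟨x, rfl⟩ := residue_surjective z
  obtain ⟨o, ho⟩ := exists_scalar M hS ht x
  refine ⟨o, ?_⟩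
  rw [Function.comp_apply, eq_comm, ← sub_eq_zero, ← map_sub, residue_eq_zero_iff]
  exact ho _ inferInstance

theorem residue_T (hS : ∀ j, S j ⊆ R) (ht : raisePrimes W L ⊆ R) (ℓ : Nat.Primes)
    (hℓ : (ℓ : ℕ) ∉ R) :
    residue (nodeRing M R) (T M ℓ hℓ) =
      ResidueField.map (algebraMap O (nodeRing M R)) (B.a ℓ) := by
  obtain ⟨o, ho⟩ := residue_surjective (B.a ℓ)
  rw [← ho, ResidueField.map_residue, ← sub_eq_zero, ← map_sub, residue_eq_zero_iff]
  exact T_sub_mem M _ ℓ hℓ (fun j h => hℓ (hS j h)) (fun h => hℓ (ht h)) ho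

end Local

end nodeRing

end Fermat.Agent.Lifting.Raise

end
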