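import Fermat.Agent.Lifting.Raise.Presentation
import Fermat.Agent.Lifting.Patching.Raise.FromInput

/-!
# A system of the patching argument from its parts

* `SystemParts`: at one level, the actions of the universal ring on the nodes, the diamond
  elements, the kills, the point and the presentation in site coordinates.
* `SystemParts.exists_isRaiseLevel`: these give the system.
-/

set_option autoImplicit false

noncomputable section

open IsLocalRing Fermat.Agent.RT.LocalRing

namespace Fermat.Agent.Lifting.Raise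

open RT.Diamond Patching
open RT (FrameVar)
open Lifting.Algebra (univPair)

variable {W : WeierstrassCurve ℤ} {hΔ : W.Δ ≠ 0} {p L : ℕ} [Fact p.Prime]
  {O : Type} [CommRing O] [IsDomain O] [IsDiscreteValuationRing O]
  [IsAdicComplete (maximalIdeal O) O] [Finite (ResidueField O)] [CharZero O]
  {B : RaiseData W hΔ p L O} {F : RaiseFrames B} {r n : ℕ} {Q : RaiseLevel B r n}

/-- The predicate at a point of the lowest level, without the choice of operators. -/
abbrev basePred (F : RaiseFrames B) (g : ℕ) (DM : Fin (F.m + 1) → ℕ) (DC : Fin F.m → ℕ) :=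
  (patchData F g DM DC (fun _ => 0) ∅).BasePred

/-- The predicate at a point of a cokernel, without the choice of operators. -/
abbrev cokerPred (F : RaiseFrames B) (g : ℕ) (DM : Fin (F.m + 1) → ℕ) (DC : Fin F.m → ℕ)
    (k : Fin F.m) :=
  (patchData F g DM DC (fun _ => 0) ∅).CokerPred k

/-- What the analysis of the nodes at one level gives. -/
structure SystemParts (R : LevelRings F Q) {DM : Fin (F.m + 1) → ℕ} {DC : Fin F.m → ℕ}
    (M : LevelModels F Q DM DC) (ζ : O) where
  /-- the presentation in site coordinates -/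
  Ψ : PSR (Fin F.s) (Fin (numGlobal r F.s)) O →ₐ[O] MvPowerSeries (FrameVar F.s) R.D.R
  Ψ_surjective : Function.Surjective Ψ
  Ψ_pair : ∀ j, ∃ u : (Mat (MvPowerSeries (FrameVar F.s) R.D.R))ˣ,
    (univPair F.site (Fin (numGlobal r F.s)) j).1.map Ψ =
      cj u ((R.pair j).1.map MvPowerSeries.C) ∧
    (univPair F.site (Fin (numGlobal r F.s)) j).2.map Ψ =
      cj u ((R.pair j).2.map MvPowerSeries.C)
  a : Fin r → R.D.R
  a_pow : ∀ i, a i ^ p ^ Q.e i = 1
  χ : Fin r → (Q.Λ →ₐ[O] O)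
  χ_delta : ∀ i, χ i (delta O (N := ppow p Q.e) i) = ζ
  /-- the actions on the levels -/
  lev : ∀ k, R.D.R →ₐ[O] Matrix (Fin (DM k)) (Fin (DM k)) Q.Λ
  /-- the actions on the cokernels -/
  cok : ∀ k, R.D.R →ₐ[O] Matrix (Fin (DC k)) (Fin (DC k)) Q.Λ
  up_comm : ∀ k j x, M.up k j * lev k.castSucc x = lev k.succ x * M.up k j
  down_comm : ∀ k i x, M.down k i * lev k.succ x = lev k.castSucc x * M.down k i
  quot_comm : ∀ k x, M.quot k * lev k.succ x = cok k x * M.quot k
  /-- at a step the operator at the prime added is the trace of Frobenius -/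
  lev_trace : ∀ k : Fin F.m, lev k.castSucc (R.pair (F.t k)).1.trace =
    (M.node k.castSucc).op ⟨F.q (F.t k), F.q_prime _⟩
  old_lev : ∀ k i (v : Fin (DM k) → Q.Λ), ∃ w : Fin (DM k) → Q.Λ,
    (lev k (a i)).mulVec v - v = (delta O (N := ppow p Q.e) i - 1) • w
  new_lev : ∀ k i (v : Fin (DM k) → Q.Λ),
    (lev k (a i)).mulVec v - v ∈ RingHom.ker (χ i) • (⊤ : Submodule Q.Λ (Fin (DM k) → Q.Λ)) →
      v ∈ RingHom.ker (χ i) • (⊤ : Submodule Q.Λ (Fin (DM k) → Q.Λ))
  old_cok : ∀ k i (v : Fin (DC k) → Q.Λ), ∃ w : Fin (DC k) → Q.Λ,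
    (cok k (a i)).mulVec v - v = (delta O (N := ppow p Q.e) i - 1) • w
  new_cok : ∀ k i (v : Fin (DC k) → Q.Λ),
    (cok k (a i)).mulVec v - v ∈ RingHom.ker (χ i) • (⊤ : Submodule Q.Λ (Fin (DC k) → Q.Λ)) →
      v ∈ RingHom.ker (χ i) • (⊤ : Submodule Q.Λ (Fin (DC k) → Q.Λ))
  kill_base : PairsKill (O := O) (fun x v => (lev 0 x).mulVec v) R.pair
    (basePred F (numGlobal r F.s) DM DC)
  kill_coker : ∀ k, PairsKill (O := O) (fun x v => (cok k x).mulVec v) R.pair
    (cokerPred F (numGlobal r F.s) DM DC k)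
  down_surjective : ∀ k, ∃ x : PSR (Fin F.s) (Fin (numGlobal r F.s)) O,
    (∃ o, Patching.RaiseData.Solves o n x) ∧
    ∀ (d : FrameVar F.s →₀ ℕ) (w : Fin 2 → Fin (DM k.castSucc) → Q.Λ), ∃ v, ∀ i,
      (M.down k i).mulVec v = (lev k.castSucc (MvPowerSeries.coeff d (Ψ x))).mulVec (w i)
  /-- the point -/
  pt : R.D.R →ₐ[O] O
  pt_a : ∀ i, pt (a i) = 1
  pt_same : ∀ j, (F.site j).IsType .same ((R.pair j).1.map pt, (R.pair j).2.map pt)
  /-- the operators at the top -/
  op : Nat.Primes → R.D.R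
  pt_op : ∀ ℓ : Nat.Primes, (ℓ : ℕ) ∉ Q.S' → pt (op ℓ) = ((W.apOfModel ℓ : ℤ) : O)
  lev_op : ∀ ℓ : Nat.Primes, (ℓ : ℕ) ∉ Q.S' →
    lev (Fin.last F.m) (op ℓ) = (M.node (Fin.last F.m)).op ℓ

namespace SystemParts

variable {R : LevelRings F Q} {DM : Fin (F.m + 1) → ℕ} {DC : Fin F.m → ℕ}
  {M : LevelModels F Q DM DC} {ζ : O}

/-- The variables match: `3 s + (r + s - 1) = r + (4 s - 1)`. -/
theorem nonempty_eqv (F : RaiseFrames B) (r : ℕ) :
    Nonempty (Fin (numVars (Fin F.s) (numGlobal r F.s)) ≃ Fin r ⊕ FrameVar F.s) := by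
  refine ⟨(Finite.equivFinOfCardEq ?_).symm⟩
  rw [Nat.card_sum, Nat.card_fin, RT.card_frameVar F.s F.s_pos, numVars, Nat.card_fin, numGlobal]
  have := F.s_pos
  omega

/-- The image of the trace of the universal Frobenius at a site. -/
theorem Ψ_trace (P : SystemParts R M ζ) (j : Fin F.s) :
    P.Ψ ((univPair F.site (Fin (numGlobal r F.s)) j).1.trace) =
      MvPowerSeries.C (R.pair j).1.trace := by
  obtain ⟨u, h, -⟩ := P.Ψ_pair j
  have h1 := congrArg Matrix.trace h
  rw [trace_cj] at h1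
  refine Eq.trans ?_ (h1.trans ?_)
  · exact AddMonoidHom.map_trace P.Ψ.toRingHom.toAddMonoidHom _
  · exact (AddMonoidHom.map_trace
      (MvPowerSeries.C : R.D.R →+* MvPowerSeries (FrameVar F.s) R.D.R).toAddMonoidHom _).symm

/-- The action through a matrix. -/
def actEnd {D : ℕ} (ρ : R.D.R →ₐ[O] Matrix (Fin D) (Fin D) Q.Λ) :
    R.D.R →ₐ[O] Module.End Q.Λ (Fin D → Q.Λ) :=
  ((Matrix.toLinAlgEquiv' (R := Q.Λ) (n := Fin D)).toAlgHom.restrictScalars O).comp ρ

theorem actEnd_apply {D : ℕ} (ρ : R.D.R →ₐ[O] Matrix (Fin D) (Fin D) Q.Λ) (x : R.D.R)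
    (v : Fin D → Q.Λ) : actEnd ρ x v = (ρ x).mulVec v := rfl

/-- The multiplication by a matrix as an `O`-linear map. -/
def mulVecO {D D' : ℕ} (A : Matrix (Fin D') (Fin D) Q.Λ) :
    (Fin D → Q.Λ) →ₗ[O] (Fin D' → Q.Λ) :=
  A.mulVecLin.restrictScalars O

theorem mulVecO_apply {D D' : ℕ} (A : Matrix (Fin D') (Fin D) Q.Λ) (v : Fin D → Q.Λ) :
    mulVecO A v = A.mulVec v := rfl

/-- **The system from its parts.** -/
theorem exists_isRaiseLevel (P : SystemParts R M ζ) (hζ : IsPrimitiveRoot ζ p)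
    (T₀ : Nat.Primes → Matrix (Fin (DM (Fin.last F.m))) (Fin (DM (Fin.last F.m))) O)
    (hT₀ : ∀ ℓ : Nat.Primes, (ℓ : ℕ) ∉ Q.S' →
      ((M.node (Fin.last F.m)).op ℓ).map (aug O (ppow p Q.e)) = T₀ ℓ)
    (ℒ : Finset Nat.Primes) (hℒ : ∀ ℓ ∈ ℒ, (ℓ : ℕ) ∉ Q.S')
    (hZ : (patchData F (numGlobal r F.s) DM DC T₀ ℒ).Valid) :
    ∃ X : (patchData F (numGlobal r F.s) DM DC T₀ ℒ).Sys
        (RT.Patch.Lvl (MvPowerSeries (Fin (numVars (Fin F.s) (numGlobal r F.s))) O) n),
      Patching.RaiseData.IsRaiseLevel n X := by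
  classical
  obtain ⟨eqv⟩ := nonempty_eqv F r
  have hsplit : ∀ k (v : Fin (DM k.succ) → Q.Λ), (M.quot k).mulVec v = 0 →
      ∑ j, (M.up k j).mulVec ((M.split k j).mulVec v) = v := by
    intro k v hq
    have h := congrArg (fun A : Matrix (Fin (DM k.succ)) (Fin (DM k.succ)) Q.Λ => A.mulVec v)
      (M.split_eq k)
    simp only [Matrix.add_mulVec, Matrix.sum_mulVec, ← Matrix.mulVec_mulVec, hq,
      Matrix.mulVec_zero, add_zero, Matrix.one_mulVec] at h
    exact h
  have hcomp : ∀ k i j, M.down k i * M.up k j =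
      P.lev k.castSucc (degMatrix (F.q (F.t k)) (R.pair (F.t k)).1.trace i j) := by
    intro k i j
    rw [M.comp_eq, ← P.lev_trace]
    fin_cases i <;> fin_cases j <;> simp [degMatrix, map_add, map_one, map_natCast]
  have haug : ∀ (ℓ : Nat.Primes), (ℓ : ℕ) ∉ Q.S' → ∀ i j : Fin (DM (Fin.last F.m)),
      aug O (ppow p Q.e) ((P.lev (Fin.last F.m) (P.op ℓ)).mulVec (Pi.single j 1) i) = T₀ ℓ i j := by
    intro ℓ hℓ i j
    rw [P.lev_op ℓ hℓ, Matrix.mulVec_single_one]
    exact congrFun (congrFun (hT₀ ℓ hℓ) i) j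
  refine Patching.RaiseData.exists_isRaiseLevel B.hpO hZ
    ({ e := Q.e
       le_e := Q.le_e
       R := R.D.R
       σ := FrameVar F.s
       eqv := eqv
       pair := R.pair
       Φ := P.Ψ
       Φ_surjective := P.Ψ_surjective
       Φ_pair := P.Ψ_pair
       rC := fun k => degMatrix (F.q (F.t k)) (R.pair (F.t k)).1.trace
       Φ_C := fun k i j => ?_
       a := P.a
       a_pow := P.a_pow
       χ := P.χ
       ζ := ζ
       hζ := hζ
       χ_delta := P.χ_delta
       level := fun k => ⟨actEnd (P.lev k), P.old_lev k, P.new_lev k⟩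
       coker := fun k => ⟨actEnd (P.cok k), P.old_cok k, P.new_cok k⟩
       up := fun k j => mulVecO (M.up k j)
       down := fun k i => mulVecO (M.down k i)
       quot := fun k => mulVecO (M.quot k)
       up_comm := fun k j x v => ?_
       down_comm := fun k i x v => ?_
       quot_comm := fun k x v => ?_
       quot_surjective := fun k y => ⟨(M.sec k).mulVec y, ?_⟩
       quot_exact := fun k v hv => ⟨fun j => (M.split k j).mulVec v, ?_⟩
       down_up := fun k i j v => ?_
       down_surjective := P.down_surjective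
       kill_base := P.kill_base
       kill_coker := P.kill_coker
       pt := P.pt
       pt_a := P.pt_a
       pt_same := P.pt_same
       op := fun l => P.op l.1
       pt_op := fun l => P.pt_op l.1 (hℒ _ l.2)
       op_aug := fun l i j => ?_ } :
      Patching.RaiseData.RaiseInput (patchData F (numGlobal r F.s) DM DC T₀ ℒ) p r n)
  · show P.Ψ (stepMatrix F (numGlobal r F.s) k i j) = _
    have ht := P.Ψ_trace (F.t k)
    fin_cases i <;> fin_cases j <;> simp [stepMatrix, degMatrix, map_add, map_one, map_natCast, ht]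
  · exact (Matrix.mulVec_mulVec v (M.up k j) (P.lev k.castSucc x)).trans
      ((congrArg (fun A : Matrix _ _ Q.Λ => A.mulVec v) (P.up_comm k j x)).trans
        (Matrix.mulVec_mulVec v (P.lev k.succ x) (M.up k j)).symm)
  · exact (Matrix.mulVec_mulVec v (M.down k i) (P.lev k.succ x)).trans
      ((congrArg (fun A : Matrix _ _ Q.Λ => A.mulVec v) (P.down_comm k i x)).trans
        (Matrix.mulVec_mulVec v (P.lev k.castSucc x) (M.down k i)).symm)
  · exact (Matrix.mulVec_mulVec v (M.quot k) (P.lev k.succ x)).trans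
      ((congrArg (fun A : Matrix _ _ Q.Λ => A.mulVec v) (P.quot_comm k x)).trans
        (Matrix.mulVec_mulVec v (P.cok k x) (M.quot k)).symm)
  · exact (Matrix.mulVec_mulVec y (M.quot k) (M.sec k)).trans
      ((congrArg (fun A : Matrix _ _ Q.Λ => A.mulVec y) (M.sec_eq k)).trans (Matrix.one_mulVec y))
  · exact (hsplit k v hv).symm
  · refine (Matrix.mulVec_mulVec v (M.down k i) (M.up k j)).trans
      (congrArg (fun A : Matrix _ _ Q.Λ => A.mulVec v) (hcomp k i j))
  · exact congrArg (Ideal.Quotient.mk _) (haug l.1 (hℒ _ l.2) i j)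

end SystemParts

end Fermat.Agent.Lifting.Raise

end
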